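import Mathlib
import Fermat.Prelude.Def_GaloisRep_DeformationCondition

set_option autoImplicit false

namespace Fermat.Agent.S53.FiniteRing

open IsLocalRing

universe u v

/-- An Artinian local ring with finite residue field is finite. -/
theorem finite_of_isArtinianRing_of_finite_residueField (A : Type u) [CommRing A] [IsLocalRing A]
    [IsArtinianRing A] [Finite (ResidueField A)] : Finite A := by
  have hfg : (maximalIdeal A).FG := (isNoetherianRing_iff_ideal_fg A).mp inferInstance _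
  have : Finite (A ⧸ maximalIdeal A) := ‹Finite (ResidueField A)›
  obtain ⟨n, hn⟩ := IsArtinianRing.isNilpotent_jacobson_bot (R := A)
  rw [IsLocalRing.jacobson_eq_maximalIdeal ⊥ bot_ne_top] at hn
  have h1 : Finite (A ⧸ (maximalIdeal A) ^ n) := Ideal.finite_quotient_pow hfg n
  rw [hn] at h1
  exact Finite.of_equiv _ (RingEquiv.quotientBot A).toEquiv

section TestAlgebra

variable {𝒪 : Type} [CommRing 𝒪] [IsLocalRing 𝒪]

/-- The residue field of a test algebra is a quotient of the residue field of `𝒪`. -/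
theorem residueField_map_surjective {A : Type} [CommRing A] [IsLocalRing A] [Algebra 𝒪 A]
    [IsLocalHom (algebraMap 𝒪 A)]
    (hsurj : Function.Surjective (IsLocalRing.residue A ∘ algebraMap 𝒪 A)) :
    Function.Surjective (IsLocalRing.ResidueField.map (algebraMap 𝒪 A)) := by
  intro x
  obtain ⟨a, ha⟩ := hsurj x
  exact ⟨IsLocalRing.residue 𝒪 a, by rw [IsLocalRing.ResidueField.map_residue]; exact ha⟩

/-- The residue field of a test algebra is finite when that of `𝒪` is. -/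
theorem finite_residueField {A : Type} [CommRing A] [IsLocalRing A] [Algebra 𝒪 A]
    [Finite (ResidueField 𝒪)] (hloc : IsLocalHom (algebraMap 𝒪 A))
    (hsurj : Function.Surjective (IsLocalRing.residue A ∘ algebraMap 𝒪 A)) :
    Finite (ResidueField A) :=
  Finite.of_surjective _ (residueField_map_surjective hsurj)

/-- (F1) An Artinian test algebra over `𝒪` is a finite ring when `𝒪` has finite residue field. -/
theorem finite_of_isArtinianTestAlgebra [Finite (ResidueField 𝒪)]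
    {A : Type} [CommRing A] [IsLocalRing A] [Algebra 𝒪 A]
    (hA : GaloisRep.IsArtinianTestAlgebra 𝒪 A) : Finite A := by
  have := hA.isArtinian
  have := finite_residueField hA.isLocalHom hA.residue_surjective
  exact finite_of_isArtinianRing_of_finite_residueField A

omit [IsLocalRing 𝒪] in
/-- (F5) In an Artinian test algebra the maximal ideal is nilpotent. -/
theorem exists_maximalIdeal_pow_eq_bot
    {A : Type} [CommRing A] [IsLocalRing A] [Algebra 𝒪 A]
    (hA : GaloisRep.IsArtinianTestAlgebra 𝒪 A) : ∃ n : ℕ, maximalIdeal A ^ n = ⊥ := by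
  have := hA.isArtinian
  obtain ⟨n, hn⟩ := IsArtinianRing.isNilpotent_jacobson_bot (R := A)
  rw [IsLocalRing.jacobson_eq_maximalIdeal ⊥ bot_ne_top] at hn
  exact ⟨n, hn⟩

end TestAlgebra

section Quotient

variable {Λ : Type*} [CommRing Λ]

/-- (F2) If `𝔐` is a maximal ideal of `Λ` and `𝔐 ^ n ≤ I ≤ 𝔐`, then `Λ ⧸ I` is a local ring. -/
theorem isLocalRing_quotient_of_pow_le (𝔐 : Ideal Λ) [h𝔐 : 𝔐.IsMaximal] (I : Ideal Λ) (n : ℕ)
    (h1 : 𝔐 ^ n ≤ I) (h2 : I ≤ 𝔐) : IsLocalRing (Λ ⧸ I) := by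
  have hsurj : Function.Surjective (Ideal.Quotient.mk I) := Ideal.Quotient.mk_surjective
  refine IsLocalRing.of_unique_max_ideal ⟨𝔐.map (Ideal.Quotient.mk I), ?_, ?_⟩
  · refine (Ideal.map_eq_top_or_isMaximal_of_surjective _ hsurj h𝔐).resolve_left ?_
    intro htop
    have h3 : Ideal.comap (Ideal.Quotient.mk I) (𝔐.map (Ideal.Quotient.mk I)) = ⊤ := by
      rw [htop, Ideal.comap_top]
    rw [Ideal.comap_map_of_surjective _ hsurj, ← RingHom.ker_eq_comap_bot, Ideal.mk_ker,
      sup_eq_left.mpr h2] at h3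
    exact h𝔐.ne_top h3
  · intro J hJ
    have hJc : (J.comap (Ideal.Quotient.mk I)).IsMaximal :=
      Ideal.comap_isMaximal_of_surjective _ hsurj
    have hIJ : I ≤ J.comap (Ideal.Quotient.mk I) := by
      intro x hx
      rw [Ideal.mem_comap, Ideal.Quotient.eq_zero_iff_mem.mpr hx]
      exact J.zero_mem
    have h𝔐J : 𝔐 ≤ J.comap (Ideal.Quotient.mk I) :=
      hJc.isPrime.le_of_pow_le (h1.trans hIJ)
    have heq : 𝔐 = J.comap (Ideal.Quotient.mk I) := h𝔐.eq_of_le hJc.ne_top h𝔐J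
    rw [heq, Ideal.map_comap_of_surjective _ hsurj]

/-- (F2') In the situation of (F2), the maximal ideal of `Λ ⧸ I` is the image of `𝔐`. -/
theorem maximalIdeal_quotient_of_pow_le (𝔐 : Ideal Λ) [h𝔐 : 𝔐.IsMaximal] (I : Ideal Λ)
    [IsLocalRing (Λ ⧸ I)] (h2 : I ≤ 𝔐) :
    maximalIdeal (Λ ⧸ I) = 𝔐.map (Ideal.Quotient.mk I) := by
  have hsurj : Function.Surjective (Ideal.Quotient.mk I) := Ideal.Quotient.mk_surjective
  have hmax : (𝔐.map (Ideal.Quotient.mk I)).IsMaximal := by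
    refine (Ideal.map_eq_top_or_isMaximal_of_surjective _ hsurj h𝔐).resolve_left ?_
    intro htop
    have h3 : Ideal.comap (Ideal.Quotient.mk I) (𝔐.map (Ideal.Quotient.mk I)) = ⊤ := by
      rw [htop, Ideal.comap_top]
    rw [Ideal.comap_map_of_surjective _ hsurj, ← RingHom.ker_eq_comap_bot, Ideal.mk_ker,
      sup_eq_left.mpr h2] at h3
    exact h𝔐.ne_top h3
  exact (IsLocalRing.eq_maximalIdeal hmax).symm

/-- In the situation of (F2), the maximal ideal of `Λ ⧸ I` is nilpotent of exponent `n`. -/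
theorem maximalIdeal_quotient_pow_eq_bot (𝔐 : Ideal Λ) [h𝔐 : 𝔐.IsMaximal] (I : Ideal Λ)
    [IsLocalRing (Λ ⧸ I)] (n : ℕ) (h1 : 𝔐 ^ n ≤ I) (h2 : I ≤ 𝔐) :
    maximalIdeal (Λ ⧸ I) ^ n = ⊥ := by
  rw [maximalIdeal_quotient_of_pow_le 𝔐 I h2, ← Ideal.map_pow, eq_bot_iff]
  refine (Ideal.map_mono h1).trans ?_
  rw [Ideal.map_quotient_self]

/-- In the situation of (F2), an element of `Λ` maps into the maximal ideal of `Λ ⧸ I` iff it
lies in `𝔐`. -/
theorem mk_mem_maximalIdeal_quotient_iff (𝔐 : Ideal Λ) [h𝔐 : 𝔐.IsMaximal] (I : Ideal Λ)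
    [IsLocalRing (Λ ⧸ I)] (h2 : I ≤ 𝔐) (x : Λ) :
    Ideal.Quotient.mk I x ∈ maximalIdeal (Λ ⧸ I) ↔ x ∈ 𝔐 := by
  have hsurj : Function.Surjective (Ideal.Quotient.mk I) := Ideal.Quotient.mk_surjective
  rw [maximalIdeal_quotient_of_pow_le 𝔐 I h2, ← Ideal.mem_comap,
    Ideal.comap_map_of_surjective _ hsurj, ← RingHom.ker_eq_comap_bot, Ideal.mk_ker,
    sup_eq_left.mpr h2]

end Quotient

section Subalgebra

variable {𝒪 : Type} [CommRing 𝒪]

/-- In a finite ring, a subalgebra contains the inverses of its elements that are units in the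
ambient ring. -/
theorem isUnit_subalgebra_of_isUnit {B : Type*} [CommRing B] [Algebra 𝒪 B] [Finite B]
    (S : Subalgebra 𝒪 B) (x : B) (hx : x ∈ S) (hu : IsUnit x) : IsUnit (⟨x, hx⟩ : S) := by
  obtain ⟨u, rfl⟩ := hu
  obtain ⟨n, hn, hun⟩ := (isOfFinOrder_of_finite u).exists_pow_eq_one
  have hinv : ((u⁻¹ : Bˣ) : B) = (u : B) ^ (n - 1) := by
    have h1 : u⁻¹ = u ^ (n - 1) := by
      rw [inv_eq_iff_mul_eq_one, ← pow_succ', Nat.sub_add_cancel hn, hun]
    rw [h1, Units.val_pow_eq_pow_val]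
  have hmem : ((u⁻¹ : Bˣ) : B) ∈ S := by
    rw [hinv]; exact S.pow_mem hx _
  refine IsUnit.of_mul_eq_one (⟨((u⁻¹ : Bˣ) : B), hmem⟩ : S) ?_
  exact Subtype.ext (by simp)

/-- (F3a) A subalgebra of a finite local ring is a local ring. -/
theorem isLocalRing_subalgebra {B : Type*} [CommRing B] [IsLocalRing B] [Algebra 𝒪 B] [Finite B]
    (S : Subalgebra 𝒪 B) : IsLocalRing S :=
  Subring.isLocalRing_of_unit S.toSubring (isUnit_subalgebra_of_isUnit S)

/-- (F3b) The inclusion of a subalgebra of a finite ring is a local homomorphism. -/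
theorem isLocalHom_subalgebra_val {B : Type*} [CommRing B] [Algebra 𝒪 B] [Finite B]
    (S : Subalgebra 𝒪 B) : IsLocalHom (S.val : S →+* B) where
  map_nonunit := by
    rintro ⟨a, ha⟩ hu
    exact isUnit_subalgebra_of_isUnit S a ha hu

/-- (F3c) A subalgebra of a finite local test algebra is again a test algebra. -/
theorem isArtinianTestAlgebra_subalgebra {B : Type} [CommRing B] [IsLocalRing B] [Algebra 𝒪 B]
    [Finite B] (hB : GaloisRep.IsArtinianTestAlgebra 𝒪 B) (S : Subalgebra 𝒪 B)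
    [IsLocalRing S] : GaloisRep.IsArtinianTestAlgebra 𝒪 S where
  isLocalHom := by
    have := hB.isLocalHom
    refine ⟨fun a ha => ?_⟩
    have h1 : IsUnit (algebraMap 𝒪 B a) := by
      have h2 : IsUnit ((S.val : S →+* B) (algebraMap 𝒪 S a)) := ha.map _
      exact h2
    exact IsLocalHom.map_nonunit (f := algebraMap 𝒪 B) a h1
  residue_surjective := by
    intro x
    obtain ⟨s, rfl⟩ := IsLocalRing.residue_surjective x
    obtain ⟨a, ha⟩ := hB.residue_surjective (IsLocalRing.residue B (s : B))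
    refine ⟨a, ?_⟩
    have hmem : (s : B) - algebraMap 𝒪 B a ∈ maximalIdeal B := by
      rw [← Ideal.Quotient.eq_zero_iff_mem, map_sub, sub_eq_zero]
      exact ha.symm
    have hmemS : s - algebraMap 𝒪 S a ∈ maximalIdeal S := by
      rw [IsLocalRing.mem_maximalIdeal, mem_nonunits_iff]
      intro hu
      have h2 : IsUnit ((S.val : S →+* B) (s - algebraMap 𝒪 S a)) := hu.map _
      exact (IsLocalRing.mem_maximalIdeal _).mp hmem h2
    have h3 : IsLocalRing.residue S (s - algebraMap 𝒪 S a) = 0 :=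
      (IsLocalRing.residue_eq_zero_iff _).mpr hmemS
    rw [map_sub, sub_eq_zero] at h3
    exact h3.symm
  isArtinian := by
    have : Finite S := Finite.of_injective _ Subtype.val_injective
    exact isArtinian_of_finite

end Subalgebra

section Surjective

variable {𝒪 : Type} [CommRing 𝒪]

/-- (F4) The image of a test algebra under a surjective algebra map onto a local ring is a test
algebra. -/
theorem isArtinianTestAlgebra_of_surjective {A B : Type} [CommRing A] [IsLocalRing A]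
    [Algebra 𝒪 A] [CommRing B] [IsLocalRing B] [Algebra 𝒪 B]
    (hA : GaloisRep.IsArtinianTestAlgebra 𝒪 A) (q : A →ₐ[𝒪] B) (hq : Function.Surjective q) :
    GaloisRep.IsArtinianTestAlgebra 𝒪 B where
  isLocalHom := by
    have := hA.isLocalHom
    have hqloc : IsLocalHom (q : A →+* B) := IsLocalHom.of_surjective (q : A →+* B) hq
    refine ⟨fun a ha => ?_⟩
    have h1 : IsUnit ((q : A →+* B) (algebraMap 𝒪 A a)) := by
      have : (q : A →+* B) (algebraMap 𝒪 A a) = algebraMap 𝒪 B a := q.commutes a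
      rw [this]; exact ha
    have h2 : IsUnit (algebraMap 𝒪 A a) := IsLocalHom.map_nonunit (f := (q : A →+* B)) _ h1
    exact IsLocalHom.map_nonunit (f := algebraMap 𝒪 A) a h2
  residue_surjective := by
    have hqloc : IsLocalHom (q : A →+* B) := IsLocalHom.of_surjective (q : A →+* B) hq
    intro x
    obtain ⟨b, rfl⟩ := IsLocalRing.residue_surjective x
    obtain ⟨a', rfl⟩ := hq b
    obtain ⟨a, ha⟩ := hA.residue_surjective (IsLocalRing.residue A a')
    refine ⟨a, ?_⟩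
    have hmem : a' - algebraMap 𝒪 A a ∈ maximalIdeal A := by
      rw [← Ideal.Quotient.eq_zero_iff_mem, map_sub, sub_eq_zero]
      exact ha.symm
    have hmemB : q (a' - algebraMap 𝒪 A a) ∈ maximalIdeal B := by
      rw [IsLocalRing.mem_maximalIdeal, mem_nonunits_iff]
      intro hu
      exact (IsLocalRing.mem_maximalIdeal _).mp hmem
        (IsLocalHom.map_nonunit (f := (q : A →+* B)) _ hu)
    have h3 : IsLocalRing.residue B (q (a' - algebraMap 𝒪 A a)) = 0 :=
      (IsLocalRing.residue_eq_zero_iff _).mpr hmemB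
    rw [map_sub, map_sub, sub_eq_zero, q.commutes] at h3
    exact h3.symm
  isArtinian := by
    have := hA.isArtinian
    exact Function.Surjective.isArtinianRing (f := (q : A →+* B)) hq

/-- (F4') A quotient of a test algebra by a proper ideal is a test algebra. -/
theorem isArtinianTestAlgebra_quotient {A : Type} [CommRing A] [IsLocalRing A]
    [Algebra 𝒪 A] (hA : GaloisRep.IsArtinianTestAlgebra 𝒪 A) (I : Ideal A)
    [IsLocalRing (A ⧸ I)] : GaloisRep.IsArtinianTestAlgebra 𝒪 (A ⧸ I) :=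
  isArtinianTestAlgebra_of_surjective hA (Ideal.Quotient.mkₐ 𝒪 I) Ideal.Quotient.mk_surjective

end Surjective

section QuotientPow

variable {𝒪 : Type} [CommRing 𝒪]

/-- The quotient of a local ring by a positive power of its maximal ideal is local. -/
theorem isLocalRing_quotient_maximalIdeal_pow (A : Type*) [CommRing A] [IsLocalRing A] (n : ℕ)
    (hn : n ≠ 0) : IsLocalRing (A ⧸ maximalIdeal A ^ n) := by
  have hne : maximalIdeal A ^ n ≠ ⊤ := by
    intro h
    have h1 : maximalIdeal A ^ n ≤ maximalIdeal A := Ideal.pow_le_self hn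
    rw [h] at h1
    exact (maximalIdeal.isMaximal A).ne_top (top_le_iff.mp h1)
  have : Nontrivial (A ⧸ maximalIdeal A ^ n) := Ideal.Quotient.nontrivial_iff.mpr hne
  exact IsLocalRing.of_surjective' (Ideal.Quotient.mk _) Ideal.Quotient.mk_surjective

/-- (F6) If `A` is a Noetherian local `𝒪`-algebra with local structure map and residue field
generated by `𝒪`, then `A ⧸ 𝔪 ^ n` is a test algebra for every `n ≠ 0`. -/
theorem isArtinianTestAlgebra_quotient_maximalIdeal_pow {A : Type} [CommRing A] [IsLocalRing A]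
    [IsNoetherianRing A] [Algebra 𝒪 A] (hloc : IsLocalHom (algebraMap 𝒪 A))
    (hsurj : Function.Surjective (IsLocalRing.residue A ∘ algebraMap 𝒪 A)) (n : ℕ)
    [IsLocalRing (A ⧸ maximalIdeal A ^ n)] :
    GaloisRep.IsArtinianTestAlgebra 𝒪 (A ⧸ maximalIdeal A ^ n) where
  isLocalHom := by
    have hq : IsLocalHom (Ideal.Quotient.mk (maximalIdeal A ^ n)) :=
      IsLocalHom.of_surjective _ Ideal.Quotient.mk_surjective
    refine ⟨fun a ha => ?_⟩
    have h2 : IsUnit (algebraMap 𝒪 A a) :=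
      IsLocalHom.map_nonunit (f := Ideal.Quotient.mk (maximalIdeal A ^ n)) _ ha
    exact IsLocalHom.map_nonunit (f := algebraMap 𝒪 A) a h2
  residue_surjective := by
    have hq : IsLocalHom (Ideal.Quotient.mk (maximalIdeal A ^ n)) :=
      IsLocalHom.of_surjective _ Ideal.Quotient.mk_surjective
    intro x
    obtain ⟨b, rfl⟩ := IsLocalRing.residue_surjective x
    obtain ⟨a', rfl⟩ := Ideal.Quotient.mk_surjective b
    obtain ⟨a, ha⟩ := hsurj (IsLocalRing.residue A a')
    refine ⟨a, ?_⟩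
    have hmem : a' - algebraMap 𝒪 A a ∈ maximalIdeal A := by
      rw [← Ideal.Quotient.eq_zero_iff_mem, map_sub, sub_eq_zero]
      exact ha.symm
    have hmemB : Ideal.Quotient.mk (maximalIdeal A ^ n) (a' - algebraMap 𝒪 A a) ∈
        maximalIdeal (A ⧸ maximalIdeal A ^ n) := by
      rw [IsLocalRing.mem_maximalIdeal, mem_nonunits_iff]
      intro hu
      exact (IsLocalRing.mem_maximalIdeal _).mp hmem
        (IsLocalHom.map_nonunit (f := Ideal.Quotient.mk (maximalIdeal A ^ n)) _ hu)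
    have h3 : IsLocalRing.residue (A ⧸ maximalIdeal A ^ n)
        (Ideal.Quotient.mk (maximalIdeal A ^ n) (a' - algebraMap 𝒪 A a)) = 0 :=
      (IsLocalRing.residue_eq_zero_iff _).mpr hmemB
    rw [map_sub, map_sub, sub_eq_zero] at h3
    exact h3.symm
  isArtinian := by
    rw [isArtinianRing_iff_isNilpotent_maximalIdeal]
    have hq : IsLocalHom (Ideal.Quotient.mk (maximalIdeal A ^ n)) :=
      IsLocalHom.of_surjective _ Ideal.Quotient.mk_surjective
    refine ⟨n, ?_⟩
    rw [Ideal.zero_eq_bot, eq_bot_iff]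
    have hle : maximalIdeal (A ⧸ maximalIdeal A ^ n) ≤
        (maximalIdeal A).map (Ideal.Quotient.mk (maximalIdeal A ^ n)) := by
      intro x hx
      obtain ⟨a, rfl⟩ := Ideal.Quotient.mk_surjective x
      refine Ideal.mem_map_of_mem _ ?_
      rw [IsLocalRing.mem_maximalIdeal, mem_nonunits_iff]
      intro hu
      exact (IsLocalRing.mem_maximalIdeal _).mp hx (hu.map _)
    refine (Ideal.pow_right_mono hle n).trans ?_
    rw [← Ideal.map_pow, Ideal.map_quotient_self]

end QuotientPow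

section QuotientTest

variable {𝒪 : Type} [CommRing 𝒪] [IsLocalRing 𝒪]

/-- (F7) A finite quotient `Λ ⧸ I` of an `𝒪`-algebra `Λ` with `I ≤ 𝔐`, `𝔐` maximal lying over
the maximal ideal of `𝒪` and with residue field generated by `𝒪`, is a test algebra. -/
theorem isArtinianTestAlgebra_quotient_of_le {Λ : Type} [CommRing Λ] [Algebra 𝒪 Λ]
    (𝔐 : Ideal Λ) [𝔐.IsMaximal] (I : Ideal Λ) [IsLocalRing (Λ ⧸ I)] [Finite (Λ ⧸ I)]
    (h2 : I ≤ 𝔐)
    (hmap : ∀ a ∈ maximalIdeal 𝒪, algebraMap 𝒪 Λ a ∈ 𝔐)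
    (hres : ∀ x : Λ, ∃ a : 𝒪, x - algebraMap 𝒪 Λ a ∈ 𝔐) :
    GaloisRep.IsArtinianTestAlgebra 𝒪 (Λ ⧸ I) where
  isLocalHom := by
    refine ⟨fun a ha => ?_⟩
    by_contra hna
    have h1 : algebraMap 𝒪 Λ a ∈ 𝔐 := hmap a ((IsLocalRing.mem_maximalIdeal _).mpr hna)
    have h3 : Ideal.Quotient.mk I (algebraMap 𝒪 Λ a) ∈ maximalIdeal (Λ ⧸ I) :=
      (mk_mem_maximalIdeal_quotient_iff 𝔐 I h2 _).mpr h1
    exact (IsLocalRing.mem_maximalIdeal _).mp h3 ha
  residue_surjective := by
    intro x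
    obtain ⟨b, rfl⟩ := IsLocalRing.residue_surjective x
    obtain ⟨l, rfl⟩ := Ideal.Quotient.mk_surjective b
    obtain ⟨a, ha⟩ := hres l
    refine ⟨a, ?_⟩
    have h3 : Ideal.Quotient.mk I (l - algebraMap 𝒪 Λ a) ∈ maximalIdeal (Λ ⧸ I) :=
      (mk_mem_maximalIdeal_quotient_iff 𝔐 I h2 _).mpr ha
    have h4 : IsLocalRing.residue (Λ ⧸ I) (Ideal.Quotient.mk I (l - algebraMap 𝒪 Λ a)) = 0 :=
      (IsLocalRing.residue_eq_zero_iff _).mpr h3
    rw [map_sub, map_sub, sub_eq_zero] at h4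
    exact h4.symm
  isArtinian := isArtinian_of_finite

end QuotientTest

section FibreProduct

variable (𝒪 : Type*) [CommRing 𝒪] {Λ : Type*} [CommRing Λ] [Algebra 𝒪 Λ]

/-- (F8a) The two projections from `Λ ⧸ I ⊓ J` agree after mapping to `Λ ⧸ I ⊔ J`. -/
theorem factor_comp_eq (I J : Ideal Λ) :
    (Ideal.Quotient.factorₐ 𝒪 (le_sup_left : I ≤ I ⊔ J)).comp
        (Ideal.Quotient.factorₐ 𝒪 (inf_le_left : I ⊓ J ≤ I)) =
      (Ideal.Quotient.factorₐ 𝒪 (le_sup_right : J ≤ I ⊔ J)).comp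
        (Ideal.Quotient.factorₐ 𝒪 (inf_le_right : I ⊓ J ≤ J)) := by
  rw [Ideal.Quotient.factorₐ_comp, Ideal.Quotient.factorₐ_comp]

/-- (F8b) `Λ ⧸ I ⊓ J` embeds into `(Λ ⧸ I) × (Λ ⧸ J)`. -/
theorem factor_pair_injective (I J : Ideal Λ) :
    Function.Injective (fun x : Λ ⧸ I ⊓ J =>
      (Ideal.Quotient.factorₐ 𝒪 (inf_le_left : I ⊓ J ≤ I) x,
        Ideal.Quotient.factorₐ 𝒪 (inf_le_right : I ⊓ J ≤ J) x)) := by
  intro x y hxy
  obtain ⟨x, rfl⟩ := Ideal.Quotient.mk_surjective x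
  obtain ⟨y, rfl⟩ := Ideal.Quotient.mk_surjective y
  simp only [Prod.mk.injEq, Ideal.Quotient.factorₐ_apply_mk] at hxy
  rw [Ideal.Quotient.eq] at hxy ⊢
  rw [Ideal.Quotient.eq] at hxy
  exact ⟨hxy.1, hxy.2⟩

/-- (F8c) `Λ ⧸ I ⊓ J` surjects onto the fibre product of `Λ ⧸ I` and `Λ ⧸ J` over
`Λ ⧸ I ⊔ J`. -/
theorem factor_pair_surjective (I J : Ideal Λ) (a : Λ ⧸ I) (b : Λ ⧸ J)
    (hab : Ideal.Quotient.factorₐ 𝒪 (le_sup_left : I ≤ I ⊔ J) a =
      Ideal.Quotient.factorₐ 𝒪 (le_sup_right : J ≤ I ⊔ J) b) :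
    ∃ x : Λ ⧸ I ⊓ J, Ideal.Quotient.factorₐ 𝒪 (inf_le_left : I ⊓ J ≤ I) x = a ∧
      Ideal.Quotient.factorₐ 𝒪 (inf_le_right : I ⊓ J ≤ J) x = b := by
  obtain ⟨u, rfl⟩ := Ideal.Quotient.mk_surjective a
  obtain ⟨v, rfl⟩ := Ideal.Quotient.mk_surjective b
  simp only [Ideal.Quotient.factorₐ_apply_mk] at hab
  rw [Ideal.Quotient.eq, Submodule.mem_sup] at hab
  obtain ⟨i, hi, j, hj, hij⟩ := hab
  refine ⟨Ideal.Quotient.mk _ (u - i), ?_, ?_⟩
  · simp only [Ideal.Quotient.factorₐ_apply_mk]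
    rw [Ideal.Quotient.eq]
    have : u - i - u = -i := by ring
    rw [this]; exact I.neg_mem hi
  · simp only [Ideal.Quotient.factorₐ_apply_mk]
    rw [Ideal.Quotient.eq]
    have : u - i - v = j := by linear_combination -hij
    rw [this]; exact hj

omit [Algebra 𝒪 Λ] in
/-- (F8d) `Λ ⧸ I ⊓ J` is finite when `Λ ⧸ I` and `Λ ⧸ J` are. -/
theorem finite_quotient_inf (I J : Ideal Λ) [Finite (Λ ⧸ I)] [Finite (Λ ⧸ J)] :
    Finite (Λ ⧸ I ⊓ J) :=
  Finite.of_injective _ (factor_pair_injective ℤ I J)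

end FibreProduct

end Fermat.Agent.S53.FiniteRing
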