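import Fermat.Agent.S53.GoodIdeals
import Fermat.Agent.S53.FiniteRing

set_option autoImplicit false
set_option linter.style.haveILetI false
set_option linter.unusedSectionVars false

/-!
# S53: good maps into complete Noetherian local rings

For a complete Noetherian local `𝒪`-algebra `A` (local structure map, residue field generated by
`𝒪`) an algebra map `f : Lam 𝒪 →ₐ[𝒪] A` is good (its matrices form a normalised lift of type `𝒟`)
if and only if all the ideals `f⁻¹ (𝔪_A ^ (n + 1))` are good ideals.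
-/

namespace Fermat.Agent.S53.GoodComplete

open IsLocalRing GaloisRep Fermat.Agent.S53 Fermat.Agent.S53.Family Fermat.Agent.S53.GoodIdeals

variable {𝒪 : Type} [CommRing 𝒪] [IsLocalRing 𝒪] {N : NData 𝒪}
variable {𝒟 : ∀ ⦃A : Type⦄ [CommRing A] [IsLocalRing A] [Algebra 𝒪 A], GaloisRepAdic A → Prop}

/-- Transport of good representations along a local map of Artinian test algebras. -/
theorem isGood_mapRep (h𝒟 : IsDeformationCondition 𝒪 𝒟)
    {A B : Type} [CommRing A] [IsLocalRing A] [Algebra 𝒪 A]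
    [CommRing B] [IsLocalRing B] [Algebra 𝒪 B]
    (hA : IsArtinianTestAlgebra 𝒪 A) (hB : IsArtinianTestAlgebra 𝒪 B)
    (φ : A →ₐ[𝒪] B) (hφ : IsLocalHom (φ : A →+* B)) {r : Gal →* M2 A}
    (hr : IsGood N 𝒟 r) : IsGood N 𝒟 (mapRep (φ : A →+* B) r) := by
  obtain ⟨hlift, hnorm, hc, hD⟩ := hr
  have hc' : IsCont (mapRep (φ : A →+* B) r) := hc.map (φ : A →+* B) hφ
  exact ⟨isLift_mapRep φ hφ hlift, isNorm_mapRep φ hnorm, hc',
    h𝒟.of_isEquiv hB (baseChangeAlong_toRep_isEquiv (φ : A →+* B) hφ r hc hc')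
      (h𝒟.baseChangeAlong hA hB φ hφ hD)⟩

section Complete

variable {A : Type} [CommRing A] [IsLocalRing A] [IsNoetherianRing A]
  [IsAdicComplete (maximalIdeal A) A] [Algebra 𝒪 A]

/-- Transport of good representations from a complete ring to an Artinian quotient. -/
theorem isGood_mapRep_of_surjective (h𝒟 : IsDeformationCondition 𝒪 𝒟)
    (hloc : IsLocalHom (algebraMap 𝒪 A))
    (hsurj : Function.Surjective (residue A ∘ algebraMap 𝒪 A))
    {B : Type} [CommRing B] [IsLocalRing B] [Algebra 𝒪 B] (hB : IsArtinianTestAlgebra 𝒪 B)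
    (q : A →ₐ[𝒪] B) (hq : IsLocalHom (q : A →+* B)) (hqs : Function.Surjective q)
    {r : Gal →* M2 A} (hr : IsGood N 𝒟 r) : IsGood N 𝒟 (mapRep (q : A →+* B) r) := by
  obtain ⟨hlift, hnorm, hc, hD⟩ := hr
  have hc' : IsCont (mapRep (q : A →+* B) r) := hc.map (q : A →+* B) hq
  refine ⟨isLift_mapRep q hq hlift, isNorm_mapRep q hnorm, hc', ?_⟩
  have h1 := (h𝒟.iff_forall_surjective hloc hsurj (toRep r hc)).mp hD hB q hq hqs
  exact h𝒟.of_isEquiv hB (baseChangeAlong_toRep_isEquiv (q : A →+* B) hq r hc hc') h1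

theorem isLocalRing_quot (A : Type) [CommRing A] [IsLocalRing A] (n : ℕ) :
    IsLocalRing (A ⧸ maximalIdeal A ^ (n + 1)) :=
  FiniteRing.isLocalRing_quotient_maximalIdeal_pow A (n + 1) (Nat.succ_ne_zero n)

theorem isLocalHom_mk (I : Ideal A) [Nontrivial (A ⧸ I)] :
    IsLocalHom ((Ideal.Quotient.mkₐ 𝒪 I : A →ₐ[𝒪] A ⧸ I) : A →+* A ⧸ I) :=
  IsLocalHom.of_surjective _ Ideal.Quotient.mk_surjective

theorem ker_mk_comp (f : Lam 𝒪 →ₐ[𝒪] A) (I : Ideal A) :
    RingHom.ker ((Ideal.Quotient.mkₐ 𝒪 I).comp f) = Ideal.comap f I := by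
  ext x
  rw [RingHom.mem_ker, Ideal.mem_comap]
  exact Ideal.Quotient.eq_zero_iff_mem

/-- (d) The truncations of a good map to a complete ring have good kernels. -/
theorem comap_mem_goodFamily [Finite (ResidueField 𝒪)] (h𝒟 : IsDeformationCondition 𝒪 𝒟)
    (hloc : IsLocalHom (algebraMap 𝒪 A))
    (hsurj : Function.Surjective (residue A ∘ algebraMap 𝒪 A))
    {f : Lam 𝒪 →ₐ[𝒪] A} (hf : goodPred N 𝒟 f) (n : ℕ) :
    Ideal.comap f (maximalIdeal A ^ (n + 1)) ∈ goodFamily N 𝒟 := by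
  haveI := isLocalRing_quot A n
  have hB : IsArtinianTestAlgebra 𝒪 (A ⧸ maximalIdeal A ^ (n + 1)) :=
    FiniteRing.isArtinianTestAlgebra_quotient_maximalIdeal_pow hloc hsurj (n + 1)
  haveI := FiniteRing.finite_of_isArtinianTestAlgebra hB
  have hgood : goodPred N 𝒟 ((Ideal.Quotient.mkₐ 𝒪 (maximalIdeal A ^ (n + 1))).comp f) := by
    obtain ⟨r, hr, hgood⟩ := hf
    refine ⟨mapRep ((Ideal.Quotient.mkₐ 𝒪 (maximalIdeal A ^ (n + 1)) :
        A →ₐ[𝒪] A ⧸ maximalIdeal A ^ (n + 1)) : A →+* A ⧸ maximalIdeal A ^ (n + 1)) r,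
      fun σ i j => ?_, isGood_mapRep_of_surjective h𝒟 hloc hsurj hB _ (isLocalHom_mk _)
        Ideal.Quotient.mk_surjective hgood⟩
    rw [mapRep_apply, hr]
    rfl
  rw [← ker_mk_comp]
  exact ker_mem_goodFamily h𝒟 hB hgood

/-- Separatedness of a Noetherian local ring, in the form used below. -/
theorem eq_of_forall_mk_eq {x y : A}
    (h : ∀ n : ℕ, Ideal.Quotient.mk (maximalIdeal A ^ (n + 1)) x =
      Ideal.Quotient.mk (maximalIdeal A ^ (n + 1)) y) : x = y := by
  have h1 : x - y ∈ ⨅ i : ℕ, maximalIdeal A ^ i := by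
    rw [Ideal.mem_iInf]
    intro i
    cases i with
    | zero => rw [pow_zero, Ideal.one_eq_top]; exact Submodule.mem_top
    | succ n => exact Ideal.Quotient.eq.mp (h n)
  rw [Ideal.iInf_pow_eq_bot_of_isLocalRing _ (maximalIdeal.isMaximal A).ne_top, Ideal.mem_bot,
    sub_eq_zero] at h1
  exact h1

/-- (c) A map to a complete ring all of whose truncations have good kernels is good. -/
theorem goodPred_of_forall_comap_mem (h𝒟 : IsDeformationCondition 𝒪 𝒟)
    (hloc : IsLocalHom (algebraMap 𝒪 A))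
    (hsurj : Function.Surjective (residue A ∘ algebraMap 𝒪 A))
    {f : Lam 𝒪 →ₐ[𝒪] A}
    (hf : ∀ n : ℕ, Ideal.comap f (maximalIdeal A ^ (n + 1)) ∈ goodFamily N 𝒟) :
    goodPred N 𝒟 f := by
  haveI hlocn : ∀ n : ℕ, IsLocalRing (A ⧸ maximalIdeal A ^ (n + 1)) := isLocalRing_quot A
  have hBn : ∀ n : ℕ, IsArtinianTestAlgebra 𝒪 (A ⧸ maximalIdeal A ^ (n + 1)) := fun n =>
    FiniteRing.isArtinianTestAlgebra_quotient_maximalIdeal_pow hloc hsurj (n + 1)
  have key : ∀ n : ℕ,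
      goodPred N 𝒟 ((Ideal.Quotient.mkₐ 𝒪 (maximalIdeal A ^ (n + 1))).comp f) := fun n =>
    goodPred_of_ker_mem h𝒟 (hBn n) (by rw [ker_mk_comp]; exact hf n)
  choose R hR hRgood using key
  -- the truncation maps on matrices
  have hMinj : ∀ X Y : M2 A, (∀ n : ℕ,
      (Ideal.Quotient.mk (maximalIdeal A ^ (n + 1))).mapMatrix X =
        (Ideal.Quotient.mk (maximalIdeal A ^ (n + 1))).mapMatrix Y) → X = Y := by
    intro X Y h
    ext i j
    exact eq_of_forall_mk_eq fun n => congrFun (congrFun (h n) i) j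
  have hkey : ∀ (n : ℕ) (σ : Gal),
      (Ideal.Quotient.mk (maximalIdeal A ^ (n + 1))).mapMatrix (matOf f σ) = R n σ := by
    intro n σ
    ext i j
    rw [hR n σ i j]
    rfl
  obtain ⟨r, hr⟩ := exists_rep f
    (hMinj _ _ fun n => by rw [hkey, map_one, map_one])
    (fun σ τ => hMinj _ _ fun n => by rw [hkey, map_mul, map_mul, hkey, hkey])
  have hmap : ∀ n : ℕ, mapRep (Ideal.Quotient.mk (maximalIdeal A ^ (n + 1))) r = R n := fun n =>
    MonoidHom.ext fun σ => by
      rw [← hkey n σ, ← hr σ]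
      rfl
  have hlift : IsLift N r := by
    have h0 := (hRgood 0).1
    rw [← hmap 0] at h0
    exact isLift_of_mapRep (Ideal.Quotient.mkₐ 𝒪 (maximalIdeal A ^ (0 + 1))) h0
  have hnorm : IsNorm N r := by
    refine ⟨eq_of_forall_mk_eq fun n => ?_, eq_of_forall_mk_eq fun n => ?_,
      eq_of_forall_mk_eq fun n => ?_⟩
    · have h1 := (hRgood n).2.1.1
      rw [← hmap n, mapRep_apply] at h1
      rw [h1, map_zero]
    · have h1 := (hRgood n).2.1.2.1
      rw [← hmap n, mapRep_apply] at h1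
      rw [h1, map_one]
    · have h1 := (hRgood n).2.1.2.2
      rw [← hmap n, mapRep_apply] at h1
      rw [h1]
      rfl
  have hlevel : ∀ n : ℕ, ∃ L : IntermediateField ℚ (AlgebraicClosure ℚ), FiniteDimensional ℚ L ∧
      ∀ σ : Gal, (∀ x ∈ L, σ x = x) → ∀ i j, (r σ - 1) i j ∈ maximalIdeal A ^ (n + 1) := by
    intro n
    haveI := (hBn n).isArtinian
    obtain ⟨hcn, -⟩ := (hRgood n).2.2
    obtain ⟨L, hL, h1⟩ := finiteLevel_of_isCont hcn
    refine ⟨L, hL, fun σ hσ i j => ?_⟩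
    have h2 := h1 σ hσ
    rw [← hmap n] at h2
    have h3 : Ideal.Quotient.mk (maximalIdeal A ^ (n + 1)) ((r σ - 1) i j) = 0 := by
      have h4 := congrFun (congrFun h2 i) j
      rw [mapRep_apply] at h4
      rw [Matrix.sub_apply, map_sub, h4]
      by_cases hij : i = j
      · subst hij
        rw [Matrix.one_apply_eq, Matrix.one_apply_eq, map_one, sub_self]
      · rw [Matrix.one_apply_ne hij, Matrix.one_apply_ne hij, map_zero, sub_self]
    exact Ideal.Quotient.eq_zero_iff_mem.mp h3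
  have hc : IsCont r := by
    intro n
    cases n with
    | zero =>
      obtain ⟨L, hL, -⟩ := hlevel 0
      refine ⟨L, hL, fun σ _ i j => ?_⟩
      rw [pow_zero, Ideal.one_eq_top]
      exact Submodule.mem_top
    | succ n => exact hlevel n
  refine ⟨r, fun σ i j => by rw [hr σ]; rfl, hlift, hnorm, hc, ?_⟩
  refine (h𝒟.iff_forall_surjective hloc hsurj (toRep r hc)).mpr ?_
  intro B _ _ _ hB q hq hqs
  haveI := hq
  obtain ⟨n, hn⟩ := FiniteRing.exists_maximalIdeal_pow_eq_bot hB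
  have hzero : ∀ a : A, a ∈ maximalIdeal A ^ (n + 1) → q a = 0 := by
    intro a ha
    have h1 : (maximalIdeal A ^ (n + 1)).map (q : A →+* B) ≤ maximalIdeal B ^ (n + 1) := by
      rw [Ideal.map_pow]
      exact Ideal.pow_right_mono (Ideal.map_le_iff_le_comap.mpr fun a ha =>
        Ideal.mem_comap.mpr (map_nonunit (q : A →+* B) a ha)) (n + 1)
    have h2 : q a ∈ maximalIdeal B ^ (n + 1) := h1 (Ideal.mem_map_of_mem (q : A →+* B) ha)
    have h3 : maximalIdeal B ^ (n + 1) ≤ maximalIdeal B ^ n := Ideal.pow_le_pow_right (Nat.le_succ n)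
    have h4 := h3 h2
    rw [hn, Ideal.mem_bot] at h4
    exact h4
  let q' : A ⧸ maximalIdeal A ^ (n + 1) →ₐ[𝒪] B :=
    Ideal.Quotient.liftₐ (maximalIdeal A ^ (n + 1)) q hzero
  have hq' : IsLocalHom (q' : A ⧸ maximalIdeal A ^ (n + 1) →+* B) := by
    refine ⟨fun x hx => ?_⟩
    obtain ⟨a, rfl⟩ := Ideal.Quotient.mk_surjective x
    have h1 : IsUnit (q a) := hx
    exact (isUnit_of_map_unit (q : A →+* B) a h1).map _
  have hgood := isGood_mapRep h𝒟 (hBn n) hB q' hq' (hRgood n)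
  have heq : mapRep (q' : A ⧸ maximalIdeal A ^ (n + 1) →+* B) (R n) = mapRep (q : A →+* B) r := by
    rw [← hmap n]
    rfl
  rw [heq] at hgood
  obtain ⟨-, -, hc', hD'⟩ := hgood
  exact h𝒟.of_isEquiv hB
    ((baseChangeAlong_toRep_isEquiv (q : A →+* B) hq r hc hc').elim fun e => ⟨e.symm⟩) hD'

/-- A map to a complete ring is good if and only if all its truncations have good kernels. -/
theorem goodPred_iff_forall_comap_mem [Finite (ResidueField 𝒪)] (h𝒟 : IsDeformationCondition 𝒪 𝒟)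
    (hloc : IsLocalHom (algebraMap 𝒪 A))
    (hsurj : Function.Surjective (residue A ∘ algebraMap 𝒪 A)) (f : Lam 𝒪 →ₐ[𝒪] A) :
    goodPred N 𝒟 f ↔ ∀ n : ℕ, Ideal.comap f (maximalIdeal A ^ (n + 1)) ∈ goodFamily N 𝒟 :=
  ⟨fun hf n => comap_mem_goodFamily h𝒟 hloc hsurj hf n,
    goodPred_of_forall_comap_mem h𝒟 hloc hsurj⟩

end Complete

end Fermat.Agent.S53.GoodComplete
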