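import Fermat.Agent.S53.Defs

set_option autoImplicit false

/-!
Piece B: an absolutely irreducible two dimensional residual representation admits a basis and
group elements `g`, `h` which rigidify it.
-/

namespace Fermat.Agent.S53

namespace AbsIrrAux

open scoped TensorProduct

variable {k : Type} [Field k]

/-- Evaluate a functional on the second factor of `K ⊗ V`. -/
noncomputable def evalFun (K : Type) [Field K] [Algebra k K] {V : Type} [AddCommGroup V]
    [Module k V] (f : V →ₗ[k] k) : K ⊗[k] V →ₗ[k] K :=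
  (TensorProduct.rid k K).toLinearMap ∘ₗ LinearMap.lTensor K f

theorem evalFun_tmul (K : Type) [Field K] [Algebra k K] {V : Type} [AddCommGroup V]
    [Module k V] (f : V →ₗ[k] k) (c : K) (v : V) :
    evalFun K f (c ⊗ₜ[k] v) = f v • c := by
  simp [evalFun]

/-- A vector whose line is stable contradicts absolute irreducibility. -/
theorem exists_not_smul (ρbar : ResidualGaloisRep k) (habs : ρbar.IsAbsolutelyIrreducible)
    (v₀ : ρbar.V) (hv₀ : v₀ ≠ 0) : ∃ g : Gal, ∀ a : k, ρbar.ρ g v₀ ≠ a • v₀ := by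
  by_contra hcon
  simp only [not_exists, not_forall, not_not] at hcon
  let K := AlgebraicClosure k
  let x : K ⊗[k] ρbar.V := (1 : K) ⊗ₜ[k] v₀
  have hstab : ∀ σ : AlgebraicClosure ℚ ≃ₐ[ℚ] AlgebraicClosure ℚ,
      ∀ y ∈ (K ∙ x : Submodule K (K ⊗[k] ρbar.V)),
        (ρbar.baseChange K).ρ σ y ∈ (K ∙ x : Submodule K (K ⊗[k] ρbar.V)) := by
    intro σ y hy
    obtain ⟨c, rfl⟩ := Submodule.mem_span_singleton.mp hy
    obtain ⟨a, ha⟩ := hcon σ
    have h1 : (ρbar.baseChange K).ρ σ (c • x) = (c * algebraMap k K a) • x := by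
      show (ρbar.ρ σ).baseChange K (c • x) = _
      rw [map_smul, LinearMap.baseChange_tmul, ha, TensorProduct.tmul_smul, mul_smul,
        algebraMap_smul]
    rw [h1]
    exact Submodule.smul_mem _ _ (Submodule.mem_span_singleton_self x)
  rcases habs _ hstab with h | h
  · -- the line is nonzero
    obtain ⟨f, hf⟩ : ∃ f : ρbar.V →ₗ[k] k, f v₀ ≠ 0 := by
      by_contra hne
      simp only [not_exists, not_not] at hne
      exact hv₀ ((Module.forall_dual_apply_eq_zero_iff k v₀).mp hne)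
    have hx : x = 0 := by
      have : x ∈ (K ∙ x : Submodule K (K ⊗[k] ρbar.V)) := Submodule.mem_span_singleton_self x
      rw [h] at this
      exact (Submodule.mem_bot K).mp this
    have h2 := congrArg (evalFun K f) hx
    rw [evalFun_tmul, map_zero] at h2
    simp only [smul_eq_zero, one_ne_zero, or_false] at h2
    exact hf h2
  · -- the line is proper
    have h2 : Module.finrank K (K ⊗[k] ρbar.V) = 2 := by
      rw [Module.finrank_baseChange, ρbar.finrank_eq]
    have h3 : Module.finrank K (K ∙ x : Submodule K (K ⊗[k] ρbar.V)) ≤ 1 := by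
      simpa using finrank_span_le_card (R := K) ({x} : Set (K ⊗[k] ρbar.V))
    rw [h, finrank_top, h2] at h3
    omega

/-- An endomorphism in the image which moves `v₀` off its line cannot commute with the whole
image, by absolute irreducibility. -/
theorem exists_not_commute (ρbar : ResidualGaloisRep k) (habs : ρbar.IsAbsolutelyIrreducible)
    (v₀ : ρbar.V) (g : Gal) (f : ρbar.V →ₗ[k] k) (hf0 : f v₀ = 0) (hf1 : f (ρbar.ρ g v₀) = 1) :
    ∃ h : Gal, ρbar.ρ h * ρbar.ρ g ≠ ρbar.ρ g * ρbar.ρ h := by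
  by_contra hcon
  simp only [not_exists, not_not] at hcon
  let K := AlgebraicClosure k
  let τ : Module.End K (K ⊗[k] ρbar.V) := (ρbar.ρ g).baseChange K
  have hfin : Module.finrank K (K ⊗[k] ρbar.V) = 2 := by
    rw [Module.finrank_baseChange, ρbar.finrank_eq]
  have : FiniteDimensional K (K ⊗[k] ρbar.V) := Module.finite_of_finrank_eq_succ hfin
  have : Nontrivial (K ⊗[k] ρbar.V) := Module.nontrivial_of_finrank_eq_succ hfin
  obtain ⟨lam, hlam⟩ := Module.End.exists_eigenvalue τ
  have hstab : ∀ σ : AlgebraicClosure ℚ ≃ₐ[ℚ] AlgebraicClosure ℚ,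
      ∀ y ∈ Module.End.eigenspace τ lam, (ρbar.baseChange K).ρ σ y ∈ Module.End.eigenspace τ lam := by
    intro σ y hy
    rw [Module.End.mem_eigenspace_iff] at hy ⊢
    have hc : τ ((ρbar.baseChange K).ρ σ y) = (ρbar.baseChange K).ρ σ (τ y) := by
      show (ρbar.ρ g).baseChange K ((ρbar.ρ σ).baseChange K y) =
        (ρbar.ρ σ).baseChange K ((ρbar.ρ g).baseChange K y)
      rw [← LinearMap.comp_apply, ← LinearMap.comp_apply, ← LinearMap.baseChange_comp,
        ← LinearMap.baseChange_comp]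
      have h1 : (ρbar.ρ g) ∘ₗ (ρbar.ρ σ) = (ρbar.ρ σ) ∘ₗ (ρbar.ρ g) := (hcon σ).symm
      rw [h1]
    rw [hc, hy, map_smul]
  rcases habs _ hstab with h | h
  · exact hlam h
  · have hx : ((1 : K) ⊗ₜ[k] v₀ : K ⊗[k] ρbar.V) ∈ Module.End.eigenspace τ lam := by
      rw [h]
      trivial
    rw [Module.End.mem_eigenspace_iff] at hx
    have hx' : ((1 : K) ⊗ₜ[k] (ρbar.ρ g v₀) : K ⊗[k] ρbar.V) = lam ⊗ₜ[k] v₀ := by
      have h2 : τ ((1 : K) ⊗ₜ[k] v₀) = (1 : K) ⊗ₜ[k] (ρbar.ρ g v₀) :=
        LinearMap.baseChange_tmul _ _ _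
      rw [← h2, hx, TensorProduct.smul_tmul', smul_eq_mul, mul_one]
    have h3 := congrArg (evalFun K f) hx'
    rw [evalFun_tmul, evalFun_tmul, hf0, hf1, one_smul, zero_smul] at h3
    exact one_ne_zero h3

end AbsIrrAux

open AbsIrrAux in
theorem exists_good_basis {k : Type} [Field k] (ρbar : ResidualGaloisRep k)
    (habs : ρbar.IsAbsolutelyIrreducible) :
    ∃ (b : Module.Basis (Fin 2) k ρbar.V) (g h : Gal) (i0 j0 : Fin 2),
      matOfResidual ρbar b g 0 0 = 0 ∧ matOfResidual ρbar b g 1 0 = 1 ∧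
      (matOfResidual ρbar b h * matOfResidual ρbar b g -
        matOfResidual ρbar b g * matOfResidual ρbar b h) i0 j0 ≠ 0 := by
  have : Nontrivial ρbar.V := Module.nontrivial_of_finrank_eq_succ ρbar.finrank_eq
  obtain ⟨v₀, hv₀⟩ := exists_ne (0 : ρbar.V)
  obtain ⟨g, hg⟩ := exists_not_smul ρbar habs v₀ hv₀
  have hli : LinearIndependent k ![v₀, ρbar.ρ g v₀] := by
    rw [LinearIndependent.pair_iff]
    intro s t hst
    have ht : t = 0 := by
      by_contra ht
      apply hg (-(t⁻¹ * s))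
      have h1 : t • ρbar.ρ g v₀ = -(s • v₀) := eq_neg_of_add_eq_zero_right hst
      have h2 : ρbar.ρ g v₀ = t⁻¹ • (t • ρbar.ρ g v₀) := by
        rw [smul_smul, inv_mul_cancel₀ ht, one_smul]
      rw [h2, h1, smul_neg, smul_smul, neg_smul]
    refine ⟨?_, ht⟩
    rw [ht, zero_smul, add_zero] at hst
    exact (smul_eq_zero.mp hst).resolve_right hv₀
  let b : Module.Basis (Fin 2) k ρbar.V :=
    basisOfLinearIndependentOfCardEqFinrank hli (by rw [ρbar.finrank_eq, Fintype.card_fin])
  have hb0 : b 0 = v₀ := by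
    simp [b]
  have hb1 : b 1 = ρbar.ρ g v₀ := by
    simp [b]
  have hMg : ∀ i, matOfResidual ρbar b g i 0 = (Finsupp.single (1 : Fin 2) (1 : k)) i := by
    intro i
    show LinearMap.toMatrixAlgEquiv b (ρbar.ρ g) i 0 = _
    rw [LinearMap.toMatrixAlgEquiv_apply, hb0, ← hb1, Module.Basis.repr_self]
  obtain ⟨h, hh⟩ := exists_not_commute ρbar habs v₀ g (b.coord 1)
    (by rw [← hb0]; simp) (by rw [← hb1]; simp)
  have hne : matOfResidual ρbar b h * matOfResidual ρbar b g -
      matOfResidual ρbar b g * matOfResidual ρbar b h ≠ 0 := by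
    intro h0
    apply hh
    have h1 : matOfResidual ρbar b h * matOfResidual ρbar b g =
        matOfResidual ρbar b g * matOfResidual ρbar b h := sub_eq_zero.mp h0
    have h2 : LinearMap.toMatrixAlgEquiv b (ρbar.ρ h * ρbar.ρ g) =
        LinearMap.toMatrixAlgEquiv b (ρbar.ρ g * ρbar.ρ h) := by
      rw [map_mul, map_mul]
      exact h1
    exact (LinearMap.toMatrixAlgEquiv b).injective h2
  obtain ⟨i0, j0, hij⟩ : ∃ i0 j0, (matOfResidual ρbar b h * matOfResidual ρbar b g -
      matOfResidual ρbar b g * matOfResidual ρbar b h) i0 j0 ≠ 0 := by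
    by_contra hcon
    simp only [not_exists, not_not] at hcon
    exact hne (Matrix.ext hcon)
  refine ⟨b, g, h, i0, j0, ?_, ?_, hij⟩
  · rw [hMg 0]
    simp
  · rw [hMg 1]
    simp

end Fermat.Agent.S53
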