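import Mathlib
import Fermat.Prelude.Def_GaloisRep_DeformationCondition

set_option autoImplicit false

/-!
# S53, component R3: the family of "good" ideals (abstract form)

`Λ` is a commutative `𝒪`-algebra, `𝔐` a maximal ideal of `Λ` with residue field generated by `𝒪`,
and `G` a predicate on `𝒪`-algebra maps `Λ →ₐ[𝒪] A` into local `𝒪`-algebras which is stable under
base change between Artinian test algebras, descends along injections and glues along fibre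
products.  We study `family G 𝔐 n`, the set of ideals `I` with `𝔐 ^ n ≤ I ≤ 𝔐`, `Λ ⧸ I` finite
and `G (Λ → Λ ⧸ I)`.
-/

namespace Fermat.Agent.S53.Family

open IsLocalRing GaloisRep

section QuotLocal

variable {Λ : Type} [CommRing Λ]

theorem isUnit_mk_of_notMem {𝔐 I : Ideal Λ} (h𝔐 : 𝔐.IsMaximal) {n : ℕ} (hn : 𝔐 ^ n ≤ I)
    {a : Λ} (ha : a ∉ 𝔐) : IsUnit (Ideal.Quotient.mk I a) := by
  obtain ⟨y, i, hi, hyi⟩ := h𝔐.exists_inv ha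
  have hnil : IsNilpotent (Ideal.Quotient.mk I i) :=
    ⟨n, by rw [← map_pow]; exact Ideal.Quotient.eq_zero_iff_mem.mpr (hn (Ideal.pow_mem_pow hi n))⟩
  have h1 : Ideal.Quotient.mk I y * Ideal.Quotient.mk I a = 1 - Ideal.Quotient.mk I i := by
    rw [← map_mul, ← map_one (Ideal.Quotient.mk I), ← map_sub]
    congr 1
    linear_combination hyi
  have hu : IsUnit (Ideal.Quotient.mk I y * Ideal.Quotient.mk I a) := h1 ▸ hnil.isUnit_one_sub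
  exact isUnit_of_mul_isUnit_right hu

theorem notMem_of_isUnit_mk {𝔐 I : Ideal Λ} (h𝔐 : 𝔐.IsMaximal) (hI : I ≤ 𝔐)
    {a : Λ} (hu : IsUnit (Ideal.Quotient.mk I a)) : a ∉ 𝔐 := by
  intro ha
  obtain ⟨y, hy⟩ := hu.exists_right_inv
  obtain ⟨b, rfl⟩ := Ideal.Quotient.mk_surjective y
  rw [← map_mul, ← map_one (Ideal.Quotient.mk I), Ideal.Quotient.eq] at hy
  refine h𝔐.ne_top ((Ideal.eq_top_iff_one _).mpr ?_)
  have h1 := hI hy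
  have h2 : a * b ∈ 𝔐 := 𝔐.mul_mem_right b ha
  simpa using 𝔐.sub_mem h2 h1

/-- If `𝔐` is maximal and `𝔐 ^ n ≤ I ≤ 𝔐`, then `Λ ⧸ I` is a local ring. -/
theorem isLocalRing_quotient {𝔐 I : Ideal Λ} (h𝔐 : 𝔐.IsMaximal) {n : ℕ} (hn : 𝔐 ^ n ≤ I)
    (hI : I ≤ 𝔐) : IsLocalRing (Λ ⧸ I) := by
  have : Nontrivial (Λ ⧸ I) :=
    Ideal.Quotient.nontrivial_iff.mpr (fun h => h𝔐.ne_top (top_le_iff.mp (h ▸ hI)))
  refine IsLocalRing.of_isUnit_or_isUnit_one_sub_self fun x => ?_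
  obtain ⟨a, rfl⟩ := Ideal.Quotient.mk_surjective x
  by_cases ha : a ∈ 𝔐
  · right
    have h1 : (1 - a) ∉ 𝔐 := fun h =>
      h𝔐.ne_top ((Ideal.eq_top_iff_one _).mpr (by simpa using 𝔐.add_mem h ha))
    rw [← map_one (Ideal.Quotient.mk I), ← map_sub]
    exact isUnit_mk_of_notMem h𝔐 hn h1
  · exact Or.inl (isUnit_mk_of_notMem h𝔐 hn ha)

theorem mk_mem_maximalIdeal_iff {𝔐 I : Ideal Λ} (h𝔐 : 𝔐.IsMaximal) {n : ℕ} (hn : 𝔐 ^ n ≤ I)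
    (hI : I ≤ 𝔐) [IsLocalRing (Λ ⧸ I)] (a : Λ) :
    Ideal.Quotient.mk I a ∈ maximalIdeal (Λ ⧸ I) ↔ a ∈ 𝔐 := by
  rw [IsLocalRing.mem_maximalIdeal, mem_nonunits_iff]
  constructor
  · intro h
    by_contra ha
    exact h (isUnit_mk_of_notMem h𝔐 hn ha)
  · intro ha hu
    exact notMem_of_isUnit_mk h𝔐 hI hu ha

theorem maximalIdeal_quotient_eq_map {𝔐 I : Ideal Λ} (h𝔐 : 𝔐.IsMaximal) {n : ℕ}
    (hn : 𝔐 ^ n ≤ I) (hI : I ≤ 𝔐) [IsLocalRing (Λ ⧸ I)] :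
    maximalIdeal (Λ ⧸ I) = 𝔐.map (Ideal.Quotient.mk I) := by
  ext x
  obtain ⟨a, rfl⟩ := Ideal.Quotient.mk_surjective x
  rw [mk_mem_maximalIdeal_iff h𝔐 hn hI]
  constructor
  · exact fun ha => Ideal.mem_map_of_mem _ ha
  · intro ha
    rw [Ideal.mem_map_iff_of_surjective _ Ideal.Quotient.mk_surjective] at ha
    obtain ⟨b, hb, hab⟩ := ha
    have : a - b ∈ I := Ideal.Quotient.eq.mp hab.symm
    have h2 := 𝔐.add_mem (hI this) hb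
    simpa using h2

theorem maximalIdeal_quotient_pow_eq_bot {𝔐 I : Ideal Λ} (h𝔐 : 𝔐.IsMaximal) {n : ℕ}
    (hn : 𝔐 ^ n ≤ I) (hI : I ≤ 𝔐) [IsLocalRing (Λ ⧸ I)] :
    maximalIdeal (Λ ⧸ I) ^ n = ⊥ := by
  rw [maximalIdeal_quotient_eq_map h𝔐 hn hI, ← Ideal.map_pow, Ideal.map_eq_bot_iff_le_ker,
    Ideal.mk_ker]
  exact hn

theorem isLocalHom_factor {𝔐 I J : Ideal Λ} (h𝔐 : 𝔐.IsMaximal) {n : ℕ} (hn : 𝔐 ^ n ≤ I)
    (hIJ : I ≤ J) (hJ : J ≤ 𝔐) : IsLocalHom (Ideal.Quotient.factor hIJ) := by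
  refine ⟨fun x hx => ?_⟩
  obtain ⟨a, rfl⟩ := Ideal.Quotient.mk_surjective x
  rw [Ideal.Quotient.factor_mk] at hx
  exact isUnit_mk_of_notMem h𝔐 hn (notMem_of_isUnit_mk h𝔐 hJ hx)

end QuotLocal

section TestAlgebra

variable {𝒪 : Type} [CommRing 𝒪] [IsLocalRing 𝒪]
variable {Λ : Type} [CommRing Λ] [Algebra 𝒪 Λ]

/-- `𝔐` is a maximal ideal of the `𝒪`-algebra `Λ` whose residue field is generated by `𝒪`
and which contains the image of the maximal ideal of `𝒪`. -/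
structure IsBasePoint (𝒪 : Type) [CommRing 𝒪] [IsLocalRing 𝒪] {Λ : Type} [CommRing Λ]
    [Algebra 𝒪 Λ] (𝔐 : Ideal Λ) : Prop where
  isMaximal : 𝔐.IsMaximal
  exists_sub_mem : ∀ x : Λ, ∃ a : 𝒪, x - algebraMap 𝒪 Λ a ∈ 𝔐
  algebraMap_mem : ∀ a ∈ maximalIdeal 𝒪, algebraMap 𝒪 Λ a ∈ 𝔐

theorem isArtinianTestAlgebra_quotient {𝔐 I : Ideal Λ} (h𝔐 : IsBasePoint 𝒪 𝔐) {n : ℕ}
    (hn : 𝔐 ^ n ≤ I) (hI : I ≤ 𝔐) [IsLocalRing (Λ ⧸ I)] [Finite (Λ ⧸ I)] :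
    IsArtinianTestAlgebra 𝒪 (Λ ⧸ I) where
  isLocalHom := ⟨fun a ha => by
    by_contra hna
    have h1 : algebraMap 𝒪 Λ a ∈ 𝔐 := h𝔐.algebraMap_mem a hna
    exact notMem_of_isUnit_mk h𝔐.isMaximal hI ha h1⟩
  residue_surjective := fun x => by
    obtain ⟨y, rfl⟩ := IsLocalRing.residue_surjective x
    obtain ⟨b, rfl⟩ := Ideal.Quotient.mk_surjective y
    obtain ⟨a, ha⟩ := h𝔐.exists_sub_mem b
    refine ⟨a, ?_⟩
    rw [Function.comp_apply, eq_comm, ← sub_eq_zero, ← map_sub, IsLocalRing.residue_eq_zero_iff]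
    have : Ideal.Quotient.mk I b - algebraMap 𝒪 (Λ ⧸ I) a = Ideal.Quotient.mk I (b - algebraMap 𝒪 Λ a) := by
      rw [map_sub]; rfl
    rw [this, mk_mem_maximalIdeal_iff h𝔐.isMaximal hn hI]
    exact ha
  isArtinian := inferInstance

end TestAlgebra

section Family

variable {𝒪 : Type} [CommRing 𝒪] [IsLocalRing 𝒪]
variable {Λ : Type} [CommRing Λ] [Algebra 𝒪 Λ]

/-- A predicate on `𝒪`-algebra maps from `Λ` to local `𝒪`-algebras. -/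
abbrev Pred (𝒪 Λ : Type) [CommRing 𝒪] [CommRing Λ] [Algebra 𝒪 Λ] : Type 1 :=
  ∀ ⦃A : Type⦄ [CommRing A] [IsLocalRing A] [Algebra 𝒪 A], (Λ →ₐ[𝒪] A) → Prop

/-- The closure properties of a "lift condition" on Artinian test algebras. -/
structure IsLiftCondition (G : Pred 𝒪 Λ) : Prop where
  comp : ∀ ⦃A B : Type⦄ [CommRing A] [IsLocalRing A] [Algebra 𝒪 A]
    [CommRing B] [IsLocalRing B] [Algebra 𝒪 B],
    IsArtinianTestAlgebra 𝒪 A → IsArtinianTestAlgebra 𝒪 B →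
    ∀ (φ : A →ₐ[𝒪] B), IsLocalHom (φ : A →+* B) → ∀ f : Λ →ₐ[𝒪] A, G f → G (φ.comp f)
  of_comp_injective : ∀ ⦃A B : Type⦄ [CommRing A] [IsLocalRing A] [Algebra 𝒪 A]
    [CommRing B] [IsLocalRing B] [Algebra 𝒪 B],
    IsArtinianTestAlgebra 𝒪 A → IsArtinianTestAlgebra 𝒪 B →
    ∀ (φ : A →ₐ[𝒪] B), IsLocalHom (φ : A →+* B) → Function.Injective φ →
      ∀ f : Λ →ₐ[𝒪] A, G (φ.comp f) → G f
  of_fibre : ∀ ⦃A B C P : Type⦄ [CommRing A] [IsLocalRing A] [Algebra 𝒪 A]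
    [CommRing B] [IsLocalRing B] [Algebra 𝒪 B] [CommRing C] [IsLocalRing C] [Algebra 𝒪 C]
    [CommRing P] [IsLocalRing P] [Algebra 𝒪 P],
    IsArtinianTestAlgebra 𝒪 A → IsArtinianTestAlgebra 𝒪 B → IsArtinianTestAlgebra 𝒪 C →
    IsArtinianTestAlgebra 𝒪 P →
    ∀ (f : A →ₐ[𝒪] C) (g : B →ₐ[𝒪] C) (pA : P →ₐ[𝒪] A) (pB : P →ₐ[𝒪] B),
      IsLocalHom (pA : P →+* A) → IsLocalHom (pB : P →+* B) →
      f.comp pA = g.comp pB →
      Function.Injective (fun x => (pA x, pB x)) →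
      (∀ a b, f a = g b → ∃ x, pA x = a ∧ pB x = b) →
      ∀ F : Λ →ₐ[𝒪] P, G (pA.comp F) → G (pB.comp F) → G F

/-- The family `𝓘_n` of good ideals: `𝔐 ^ n ≤ I ≤ 𝔐`, `Λ ⧸ I` finite, and `G` holds for
the quotient map `Λ → Λ ⧸ I`. -/
def family (G : Pred 𝒪 Λ) (𝔐 : Ideal Λ) (n : ℕ) : Set (Ideal Λ) :=
  {I | 𝔐 ^ n ≤ I ∧ I ≤ 𝔐 ∧ Finite (Λ ⧸ I) ∧
    ∃ h : IsLocalRing (Λ ⧸ I), letI := h; G (Ideal.Quotient.mkₐ 𝒪 I)}

variable {G : Pred 𝒪 Λ} {𝔐 : Ideal Λ}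

set_option linter.unusedSectionVars false

theorem family_mono {m n : ℕ} (hmn : m ≤ n) : family G 𝔐 m ⊆ family G 𝔐 n :=
  fun _ ⟨h1, h2, h3, h4⟩ => ⟨(Ideal.pow_le_pow_right hmn).trans h1, h2, h3, h4⟩

theorem isLocalRing_of_mem (h𝔐 : IsBasePoint 𝒪 𝔐) {n : ℕ} {I : Ideal Λ}
    (hI : I ∈ family G 𝔐 n) : IsLocalRing (Λ ⧸ I) :=
  isLocalRing_quotient h𝔐.isMaximal hI.1 hI.2.1

theorem finite_of_mem {n : ℕ} {I : Ideal Λ} (hI : I ∈ family G 𝔐 n) : Finite (Λ ⧸ I) :=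
  hI.2.2.1

theorem pred_of_mem {n : ℕ} {I : Ideal Λ} (hI : I ∈ family G 𝔐 n) [IsLocalRing (Λ ⧸ I)] :
    G (Ideal.Quotient.mkₐ 𝒪 I) := by
  obtain ⟨-, -, -, h, hG⟩ := hI
  exact hG

/-- (a) The base point itself belongs to the family. -/
theorem base_mem (h𝔐 : IsBasePoint 𝒪 𝔐) [Finite (Λ ⧸ 𝔐)] {n : ℕ} (hn : n ≠ 0)
    (hG : haveI := isLocalRing_quotient h𝔐.isMaximal (Ideal.pow_le_self hn) le_rfl;
      G (Ideal.Quotient.mkₐ 𝒪 𝔐)) : 𝔐 ∈ family G 𝔐 n :=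
  ⟨Ideal.pow_le_self hn, le_rfl, inferInstance,
    isLocalRing_quotient h𝔐.isMaximal (Ideal.pow_le_self hn) le_rfl, hG⟩

/-- (b) The family is upward closed (below `𝔐`). -/
theorem mem_of_le (hG : IsLiftCondition G) (h𝔐 : IsBasePoint 𝒪 𝔐) {m n : ℕ} {I J : Ideal Λ}
    (hI : I ∈ family G 𝔐 m) (hIJ : I ≤ J) (hJ : J ≤ 𝔐) (hn : 𝔐 ^ n ≤ J) :
    J ∈ family G 𝔐 n := by
  obtain ⟨hIm, hI𝔐, hIfin, hIloc, hIG⟩ := hI
  have hJm : 𝔐 ^ m ≤ J := hIm.trans hIJ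
  have hJloc : IsLocalRing (Λ ⧸ J) := isLocalRing_quotient h𝔐.isMaximal hn hJ
  have hJfin : Finite (Λ ⧸ J) :=
    Finite.of_surjective (Ideal.Quotient.factor hIJ) (Ideal.Quotient.factor_surjective hIJ)
  refine ⟨hn, hJ, hJfin, hJloc, ?_⟩
  have h1 := hG.comp (isArtinianTestAlgebra_quotient h𝔐 hIm hI𝔐)
    (isArtinianTestAlgebra_quotient h𝔐 hn hJ) (Ideal.Quotient.factorₐ 𝒪 hIJ)
    (isLocalHom_factor h𝔐.isMaximal hIm hIJ hJ) _ hIG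
  exact h1

/-- (c) The family is closed under binary intersections (via the fibre product axiom). -/
theorem inf_mem (hG : IsLiftCondition G) (h𝔐 : IsBasePoint 𝒪 𝔐) {n : ℕ} {I J : Ideal Λ}
    (hI : I ∈ family G 𝔐 n) (hJ : J ∈ family G 𝔐 n) : I ⊓ J ∈ family G 𝔐 n := by
  obtain ⟨hIn, hI𝔐, hIfin, hIloc, hIG⟩ := hI
  obtain ⟨hJn, hJ𝔐, hJfin, hJloc, hJG⟩ := hJ
  have hKn : 𝔐 ^ n ≤ I ⊓ J := le_inf hIn hJn
  have hK𝔐 : I ⊓ J ≤ 𝔐 := inf_le_left.trans hI𝔐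
  have hSn : 𝔐 ^ n ≤ I ⊔ J := hIn.trans le_sup_left
  have hS𝔐 : I ⊔ J ≤ 𝔐 := sup_le hI𝔐 hJ𝔐
  have hKloc : IsLocalRing (Λ ⧸ I ⊓ J) := isLocalRing_quotient h𝔐.isMaximal hKn hK𝔐
  have hSloc : IsLocalRing (Λ ⧸ I ⊔ J) := isLocalRing_quotient h𝔐.isMaximal hSn hS𝔐
  have hinj : Function.Injective (fun x : Λ ⧸ I ⊓ J =>
      (Ideal.Quotient.factorₐ 𝒪 (inf_le_left : I ⊓ J ≤ I) x,
        Ideal.Quotient.factorₐ 𝒪 (inf_le_right : I ⊓ J ≤ J) x)) := by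
    intro x y hxy
    obtain ⟨a, rfl⟩ := Ideal.Quotient.mk_surjective x
    obtain ⟨b, rfl⟩ := Ideal.Quotient.mk_surjective y
    simp only [Prod.mk.injEq, Ideal.Quotient.factorₐ_apply_mk] at hxy
    obtain ⟨h1, h2⟩ := hxy
    rw [Ideal.Quotient.eq] at h1 h2 ⊢
    exact ⟨h1, h2⟩
  have hKfin : Finite (Λ ⧸ I ⊓ J) := Finite.of_injective _ hinj
  have hSfin : Finite (Λ ⧸ I ⊔ J) :=
    Finite.of_surjective (Ideal.Quotient.factor (le_sup_left : I ≤ I ⊔ J))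
      (Ideal.Quotient.factor_surjective _)
  refine ⟨hKn, hK𝔐, hKfin, hKloc, ?_⟩
  refine hG.of_fibre (isArtinianTestAlgebra_quotient h𝔐 hIn hI𝔐)
    (isArtinianTestAlgebra_quotient h𝔐 hJn hJ𝔐)
    (isArtinianTestAlgebra_quotient h𝔐 hSn hS𝔐)
    (isArtinianTestAlgebra_quotient h𝔐 hKn hK𝔐)
    (Ideal.Quotient.factorₐ 𝒪 (le_sup_left : I ≤ I ⊔ J))
    (Ideal.Quotient.factorₐ 𝒪 (le_sup_right : J ≤ I ⊔ J))
    (Ideal.Quotient.factorₐ 𝒪 (inf_le_left : I ⊓ J ≤ I))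
    (Ideal.Quotient.factorₐ 𝒪 (inf_le_right : I ⊓ J ≤ J))
    (isLocalHom_factor h𝔐.isMaximal hKn inf_le_left hI𝔐)
    (isLocalHom_factor h𝔐.isMaximal hKn inf_le_right hJ𝔐)
    ?_ hinj ?_ (Ideal.Quotient.mkₐ 𝒪 (I ⊓ J)) hIG hJG
  · rw [Ideal.Quotient.factorₐ_comp, Ideal.Quotient.factorₐ_comp]
  · intro a b hab
    obtain ⟨a', rfl⟩ := Ideal.Quotient.mk_surjective a
    obtain ⟨b', rfl⟩ := Ideal.Quotient.mk_surjective b
    rw [Ideal.Quotient.factorₐ_apply_mk, Ideal.Quotient.factorₐ_apply_mk, Ideal.Quotient.eq,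
      Submodule.mem_sup] at hab
    obtain ⟨i, hi, j, hj, hij⟩ := hab
    refine ⟨Ideal.Quotient.mk _ (a' - i), ?_, ?_⟩
    · rw [Ideal.Quotient.factorₐ_apply_mk, Ideal.Quotient.eq]
      simpa using I.neg_mem hi
    · rw [Ideal.Quotient.factorₐ_apply_mk, Ideal.Quotient.eq]
      have : a' - i - b' = j := by linear_combination (-1 : Λ) * hij
      rw [this]; exact hj

/-- (d) The kernel of a `G`-map into a finite Artinian test algebra killed by the `n`-th power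
of its maximal ideal, reducing to the base point, belongs to the family. -/
theorem ker_mem (hG : IsLiftCondition G) (h𝔐 : IsBasePoint 𝒪 𝔐) {B : Type} [CommRing B]
    [IsLocalRing B] [Algebra 𝒪 B] [Finite B] (hB : IsArtinianTestAlgebra 𝒪 B) {n : ℕ}
    (hBn : maximalIdeal B ^ n = ⊥) (f : Λ →ₐ[𝒪] B) (hf : ∀ x ∈ 𝔐, f x ∈ maximalIdeal B)
    (hGf : G f) : RingHom.ker f ∈ family G 𝔐 n := by
  have hcomap : (maximalIdeal B).comap (f : Λ →+* B) = 𝔐 := by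
    refine (h𝔐.isMaximal.eq_of_le ?_ (fun x hx => hf x hx)).symm
    exact Ideal.comap_ne_top _ (IsLocalRing.maximalIdeal.isMaximal B).ne_top
  have hK𝔐 : RingHom.ker f ≤ 𝔐 := by
    rw [← hcomap]
    exact Ideal.comap_mono bot_le
  have hKn : 𝔐 ^ n ≤ RingHom.ker f := by
    have h1 : 𝔐 ≤ (maximalIdeal B).comap (f : Λ →+* B) := hcomap.ge
    have h2 : (𝔐 ^ n).map (f : Λ →+* B) ≤ maximalIdeal B ^ n := by
      rw [Ideal.map_pow]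
      exact Ideal.pow_right_mono (Ideal.map_le_iff_le_comap.mpr h1) n
    rw [hBn, le_bot_iff, Ideal.map_eq_bot_iff_le_ker] at h2
    exact h2
  have hKloc : IsLocalRing (Λ ⧸ RingHom.ker f) :=
    isLocalRing_quotient h𝔐.isMaximal hKn hK𝔐
  have hKfin : Finite (Λ ⧸ RingHom.ker f) :=
    Finite.of_injective _ (Ideal.kerLiftAlg_injective f)
  refine ⟨hKn, hK𝔐, hKfin, hKloc, ?_⟩
  refine hG.of_comp_injective (isArtinianTestAlgebra_quotient h𝔐 hKn hK𝔐) hB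
    (Ideal.kerLiftAlg f) ⟨fun x hx => ?_⟩ (Ideal.kerLiftAlg_injective f) _ ?_
  · obtain ⟨a, rfl⟩ := Ideal.Quotient.mk_surjective x
    refine isUnit_mk_of_notMem h𝔐.isMaximal hKn (fun ha => ?_)
    have h3 : f a ∈ maximalIdeal B := hf a ha
    exact h3 hx
  · have : (Ideal.kerLiftAlg f).comp (Ideal.Quotient.mkₐ 𝒪 (RingHom.ker f)) = f :=
      AlgHom.ext fun x => rfl
    rw [this]
    exact hGf

/-- Converse of `ker_mem`: if the kernel of `f` is in the family, then `G f`. -/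
theorem pred_of_ker_mem (hG : IsLiftCondition G) (h𝔐 : IsBasePoint 𝒪 𝔐) {B : Type} [CommRing B]
    [IsLocalRing B] [Algebra 𝒪 B] (hB : IsArtinianTestAlgebra 𝒪 B) (f : Λ →ₐ[𝒪] B) {n : ℕ}
    (hf : RingHom.ker f ∈ family G 𝔐 n) : G f := by
  obtain ⟨hKn, hK𝔐, hKfin, hKloc, hKG⟩ := hf
  have h1 := hG.comp (isArtinianTestAlgebra_quotient h𝔐 hKn hK𝔐) hB (Ideal.kerLiftAlg f)
    ⟨fun x hx => ?_⟩ _ hKG
  · have : (Ideal.kerLiftAlg f).comp (Ideal.Quotient.mkₐ 𝒪 (RingHom.ker f)) = f :=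
      AlgHom.ext fun x => rfl
    rw [this] at h1
    exact h1
  · obtain ⟨a, rfl⟩ := Ideal.Quotient.mk_surjective x
    refine isUnit_mk_of_notMem h𝔐.isMaximal hKn (fun ha => ?_)
    have h2 : a ^ n ∈ RingHom.ker f := hKn (Ideal.pow_mem_pow ha n)
    have h3 : (f a) ^ n = 0 := by rw [← map_pow]; exact h2
    have h4 : IsUnit ((f a) ^ n) := IsUnit.pow n hx
    rw [h3] at h4
    exact not_isUnit_zero h4

/-- The union over `n` of the families `family G 𝔐 n`. -/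
def familyAll (G : Pred 𝒪 Λ) (𝔐 : Ideal Λ) : Set (Ideal Λ) :=
  {I | ∃ n : ℕ, I ∈ family G 𝔐 n}

/-- (F0) -/
theorem familyAll_le {I : Ideal Λ} (hI : I ∈ familyAll G 𝔐) : I ≤ 𝔐 := by
  obtain ⟨n, hn⟩ := hI
  exact hn.2.1

/-- (F0) -/
theorem familyAll_pow_le {I : Ideal Λ} (hI : I ∈ familyAll G 𝔐) : ∃ n : ℕ, 𝔐 ^ n ≤ I := by
  obtain ⟨n, hn⟩ := hI
  exact ⟨n, hn.1⟩

/-- (F0) -/
theorem familyAll_finite {I : Ideal Λ} (hI : I ∈ familyAll G 𝔐) : Finite (Λ ⧸ I) := by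
  obtain ⟨n, hn⟩ := hI
  exact hn.2.2.1

/-- (F1) -/
theorem familyAll_inf (hG : IsLiftCondition G) (h𝔐 : IsBasePoint 𝒪 𝔐) {I J : Ideal Λ}
    (hI : I ∈ familyAll G 𝔐) (hJ : J ∈ familyAll G 𝔐) : I ⊓ J ∈ familyAll G 𝔐 := by
  obtain ⟨n, hn⟩ := hI
  obtain ⟨m, hm⟩ := hJ
  exact ⟨max n m, inf_mem hG h𝔐 (family_mono (le_max_left n m) hn)
    (family_mono (le_max_right n m) hm)⟩

/-- (F2) -/
theorem familyAll_of_le (hG : IsLiftCondition G) (h𝔐 : IsBasePoint 𝒪 𝔐) {I J : Ideal Λ}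
    (hI : I ∈ familyAll G 𝔐) (hIJ : I ≤ J) (hJ : J ≤ 𝔐) : J ∈ familyAll G 𝔐 := by
  obtain ⟨n, hn⟩ := hI
  exact ⟨n, mem_of_le hG h𝔐 hn hIJ hJ (hn.1.trans hIJ)⟩

/-- (F3) -/
theorem familyAll_base (h𝔐 : IsBasePoint 𝒪 𝔐) [Finite (Λ ⧸ 𝔐)]
    (hG : haveI := isLocalRing_quotient h𝔐.isMaximal (Ideal.pow_le_self one_ne_zero) le_rfl;
      G (Ideal.Quotient.mkₐ 𝒪 𝔐)) : 𝔐 ∈ familyAll G 𝔐 :=
  ⟨1, base_mem h𝔐 one_ne_zero hG⟩

end Family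

end Fermat.Agent.S53.Family
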