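import Fermat.Agent.S53.Defs

set_option autoImplicit false

/-!
Abstract pro-representability: definitions.
-/

namespace Fermat.Agent.S53

open IsLocalRing

/-- The algebra structure on the dual numbers over the residue field used by the Prelude in
`GaloisRep.TangentFinite`. -/
@[reducible] noncomputable def algDN (𝒪 : Type) [CommRing 𝒪] [IsLocalRing 𝒪] :
    Algebra 𝒪 (DualNumber (ResidueField 𝒪)) :=
  ((algebraMap (ResidueField 𝒪) (DualNumber (ResidueField 𝒪))).comp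
    (algebraMap 𝒪 (ResidueField 𝒪))).toAlgebra

/-- A family of ideals of an `𝒪`-algebra `Λ` with a character `χ` to the residue field, of the
kind produced by a deformation problem: all members lie between a power of `ker χ` and `ker χ`
and have finite quotient; the family is stable under binary intersections and under enlarging
(below `ker χ`), contains `ker χ`, and has finitely many "tangent vectors". -/
structure IsProFamily {𝒪 : Type} [CommRing 𝒪] [IsLocalRing 𝒪] {Λ : Type} [CommRing Λ]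
    [Algebra 𝒪 Λ] (χ : Λ →ₐ[𝒪] ResidueField 𝒪) (𝓕 : Set (Ideal Λ)) : Prop where
  le_ker : ∀ I ∈ 𝓕, I ≤ RingHom.ker χ
  pow_le : ∀ I ∈ 𝓕, ∃ n : ℕ, RingHom.ker χ ^ n ≤ I
  finite : ∀ I ∈ 𝓕, Finite (Λ ⧸ I)
  inf_mem : ∀ I ∈ 𝓕, ∀ J ∈ 𝓕, I ⊓ J ∈ 𝓕
  mem_of_le : ∀ I ∈ 𝓕, ∀ J : Ideal Λ, I ≤ J → J ≤ RingHom.ker χ → J ∈ 𝓕
  ker_mem : RingHom.ker χ ∈ 𝓕
  tangent : letI := algDN 𝒪
    Finite {ψ : Λ →ₐ[𝒪] DualNumber (ResidueField 𝒪) // RingHom.ker ψ ∈ 𝓕}

end Fermat.Agent.S53
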