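import Fermat.Agent.S53.Rep
import Fermat.Agent.S53.Family
import Fermat.Agent.S53.ProDefs

set_option autoImplicit false
set_option linter.style.haveILetI false
set_option linter.unusedSectionVars false

/-!
# S53, component R3 (concrete form): good ideals of the universal polynomial ring

`Lam 𝒪 = MvPolynomial (Gal × Fin 2 × Fin 2) 𝒪` carries the tautological family of matrices.
For a normalisation datum `N` and a deformation condition `𝒟`, an algebra map `f : Lam 𝒪 →ₐ A`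
is *good* if the matrices `f (X (σ, i, j))` form a normalised lift of type `𝒟`.
We show this predicate is a lift condition in the sense of `Family.lean`, so that the family of
good ideals satisfies (F0)-(F3), and that kernels of evaluations at good lifts are good ideals.
-/

namespace Fermat.Agent.S53.GoodIdeals

open IsLocalRing GaloisRep Fermat.Agent.S53 Fermat.Agent.S53.Family

/-- The polynomial ring on the matrix entries of a universal representation. -/
abbrev Lam (𝒪 : Type) [CommRing 𝒪] : Type := MvPolynomial (Gal × Fin 2 × Fin 2) 𝒪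

section Ev

variable {𝒪 : Type} [CommRing 𝒪] {A : Type} [CommRing A] [Algebra 𝒪 A]

/-- Evaluation at a family of matrices. -/
noncomputable def ev (r : Gal → M2 A) : Lam 𝒪 →ₐ[𝒪] A :=
  MvPolynomial.aeval fun p : Gal × Fin 2 × Fin 2 => r p.1 p.2.1 p.2.2

@[simp] theorem ev_X (r : Gal → M2 A) (σ : Gal) (i j : Fin 2) :
    ev (𝒪 := 𝒪) r (MvPolynomial.X (σ, i, j)) = r σ i j := by
  simp [ev]

/-- The matrices read off from an algebra map out of `Lam 𝒪`. -/
noncomputable def matOf (f : Lam 𝒪 →ₐ[𝒪] A) (σ : Gal) : M2 A :=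
  Matrix.of fun i j => f (MvPolynomial.X (σ, i, j))

@[simp] theorem matOf_apply (f : Lam 𝒪 →ₐ[𝒪] A) (σ : Gal) (i j : Fin 2) :
    matOf f σ i j = f (MvPolynomial.X (σ, i, j)) := rfl

theorem ev_matOf (f : Lam 𝒪 →ₐ[𝒪] A) : ev (matOf f) = f :=
  MvPolynomial.algHom_ext fun ⟨σ, i, j⟩ => by simp

end Ev

section FiniteLevel

variable {A : Type} [CommRing A] [IsLocalRing A]

/-- A matrix representation which is trivial on the absolute Galois group of a number field. -/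
def FiniteLevel (r : Gal →* M2 A) : Prop :=
  ∃ L : IntermediateField ℚ (AlgebraicClosure ℚ), FiniteDimensional ℚ L ∧
    ∀ σ : Gal, (∀ x ∈ L, σ x = x) → r σ = 1

theorem isCont_of_finiteLevel {r : Gal →* M2 A} (h : FiniteLevel r) : IsCont r := by
  obtain ⟨L, hL, h1⟩ := h
  intro n
  refine ⟨L, hL, fun σ hσ i j => ?_⟩
  rw [h1 σ hσ, sub_self]
  exact Ideal.zero_mem _

theorem exists_maximalIdeal_pow_eq_bot' [IsArtinianRing A] : ∃ n : ℕ, maximalIdeal A ^ n = ⊥ := by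
  have h := IsArtinianRing.isNilpotent_jacobson_bot (R := A)
  rw [IsLocalRing.jacobson_eq_maximalIdeal ⊥ bot_ne_top] at h
  exact h

theorem finiteLevel_of_isCont [IsArtinianRing A] {r : Gal →* M2 A} (h : IsCont r) :
    FiniteLevel r := by
  obtain ⟨n, hn⟩ := exists_maximalIdeal_pow_eq_bot' (A := A)
  obtain ⟨L, hL, h1⟩ := h n
  refine ⟨L, hL, fun σ hσ => ?_⟩
  ext i j
  have h2 := h1 σ hσ i j
  rw [hn, Ideal.mem_bot, Matrix.sub_apply, sub_eq_zero] at h2
  exact h2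

end FiniteLevel

section Base

variable {𝒪 : Type} [CommRing 𝒪] [IsLocalRing 𝒪] (N : NData 𝒪)

/-- The character of `Lam 𝒪` given by the residual representation. -/
noncomputable def chi : Lam 𝒪 →ₐ[𝒪] ResidueField 𝒪 := ev fun σ => N.rbar σ

theorem chi_X (σ : Gal) (i j : Fin 2) : chi N (MvPolynomial.X (σ, i, j)) = N.rbar σ i j := by
  simp [chi]

theorem chi_algebraMap (a : 𝒪) : chi N (algebraMap 𝒪 (Lam 𝒪) a) = residue 𝒪 a := by
  rw [AlgHom.commutes, IsLocalRing.ResidueField.algebraMap_eq]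

theorem chi_surjective : Function.Surjective (chi N) := fun x => by
  obtain ⟨a, rfl⟩ := IsLocalRing.residue_surjective x
  exact ⟨algebraMap 𝒪 (Lam 𝒪) a, chi_algebraMap N a⟩

/-- The base point: the kernel of the residual character. -/
noncomputable def base : Ideal (Lam 𝒪) := RingHom.ker (chi N)

theorem mem_base_iff (x : Lam 𝒪) : x ∈ base N ↔ chi N x = 0 := RingHom.mem_ker

theorem isBasePoint : IsBasePoint 𝒪 (base N) where
  isMaximal := RingHom.ker_isMaximal_of_surjective (chi N) (chi_surjective N)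
  exists_sub_mem := fun x => by
    obtain ⟨a, ha⟩ := IsLocalRing.residue_surjective (chi N x)
    refine ⟨a, ?_⟩
    rw [mem_base_iff, map_sub, chi_algebraMap, ha, sub_self]
  algebraMap_mem := fun a ha => by
    rw [mem_base_iff, chi_algebraMap]
    exact (IsLocalRing.residue_eq_zero_iff a).mpr ha

instance finite_quotient_base [Finite (ResidueField 𝒪)] : Finite (Lam 𝒪 ⧸ base N) :=
  Finite.of_injective _ (Ideal.kerLiftAlg_injective (chi N))

end Base

section Pred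

variable {𝒪 : Type} [CommRing 𝒪] [IsLocalRing 𝒪] (N : NData 𝒪)
variable (𝒟 : ∀ ⦃A : Type⦄ [CommRing A] [IsLocalRing A] [Algebra 𝒪 A], GaloisRepAdic A → Prop)

/-- An algebra map out of `Lam 𝒪` is good if its matrices form a normalised lift of type `𝒟`. -/
def goodPred : Pred 𝒪 (Lam 𝒪) := fun A _ _ _ f =>
  ∃ r : Gal →* M2 A, (∀ σ i j, r σ i j = f (MvPolynomial.X (σ, i, j))) ∧ IsGood N 𝒟 r

variable {N 𝒟}

theorem goodPred_ev {A : Type} [CommRing A] [IsLocalRing A] [Algebra 𝒪 A] {r : Gal →* M2 A}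
    (hr : IsGood N 𝒟 r) : goodPred N 𝒟 (ev (𝒪 := 𝒪) fun σ => r σ) :=
  ⟨r, fun σ i j => (ev_X _ σ i j).symm, hr⟩

section Transfer

variable {A B : Type} [CommRing A] [IsLocalRing A] [Algebra 𝒪 A]
  [CommRing B] [IsLocalRing B] [Algebra 𝒪 B]

theorem mem_maximalIdeal_of_map_mem (φ : A →+* B) {x : A}
    (hx : φ x ∈ maximalIdeal B) : x ∈ maximalIdeal A := by
  rw [IsLocalRing.mem_maximalIdeal, mem_nonunits_iff] at hx ⊢
  exact fun h => hx (h.map φ)

theorem map_mem_maximalIdeal (φ : A →+* B) (hφ : IsLocalHom φ) {x : A}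
    (hx : x ∈ maximalIdeal A) : φ x ∈ maximalIdeal B :=
  haveI := hφ; map_nonunit φ x hx

theorem isLift_mapRep (φ : A →ₐ[𝒪] B) (hφ : IsLocalHom (φ : A →+* B)) {r : Gal →* M2 A}
    (hr : IsLift N r) : IsLift N (mapRep (φ : A →+* B) r) := by
  intro σ i j
  have h := map_mem_maximalIdeal (φ : A →+* B) hφ (hr σ i j)
  rw [map_sub] at h
  simpa using h

theorem isNorm_mapRep (φ : A →ₐ[𝒪] B) {r : Gal →* M2 A}
    (hr : IsNorm N r) : IsNorm N (mapRep (φ : A →+* B) r) := by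
  obtain ⟨h1, h2, h3⟩ := hr
  refine ⟨?_, ?_, ?_⟩
  · rw [mapRep_apply, h1, map_zero]
  · rw [mapRep_apply, h2, map_one]
  · rw [mapRep_apply, h3]
    simp

/-- Descent of the lift property along a ring map. -/
theorem isLift_of_mapRep (φ : A →ₐ[𝒪] B) {r : Gal →* M2 A}
    (hr : IsLift N (mapRep (φ : A →+* B) r)) : IsLift N r := by
  intro σ i j
  refine mem_maximalIdeal_of_map_mem (φ : A →+* B) ?_
  have h := hr σ i j
  rw [mapRep_apply] at h
  rw [map_sub]
  simpa using h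

end Transfer

end Pred

section LiftCondition

variable {𝒪 : Type} [CommRing 𝒪] [IsLocalRing 𝒪] {N : NData 𝒪}
variable {𝒟 : ∀ ⦃A : Type⦄ [CommRing A] [IsLocalRing A] [Algebra 𝒪 A], GaloisRepAdic A → Prop}

theorem mapMatrix_matOf {A B : Type} [CommRing A] [Algebra 𝒪 A] [CommRing B] [Algebra 𝒪 B]
    (φ : A →ₐ[𝒪] B) (f : Lam 𝒪 →ₐ[𝒪] A) (σ : Gal) :
    (φ : A →+* B).mapMatrix (matOf f σ) = matOf (φ.comp f) σ := by
  ext i j
  rfl

theorem eq_matOf {A : Type} [CommRing A] [Algebra 𝒪 A] {f : Lam 𝒪 →ₐ[𝒪] A} {r : Gal →* M2 A}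
    (hr : ∀ σ i j, r σ i j = f (MvPolynomial.X (σ, i, j))) (σ : Gal) : r σ = matOf f σ := by
  ext i j
  exact hr σ i j

/-- If the matrices of `f` are multiplicative, they form a representation. -/
theorem exists_rep {A : Type} [CommRing A] [Algebra 𝒪 A] (f : Lam 𝒪 →ₐ[𝒪] A)
    (h1 : matOf f 1 = 1) (hmul : ∀ σ τ, matOf f (σ * τ) = matOf f σ * matOf f τ) :
    ∃ r : Gal →* M2 A, ∀ σ, r σ = matOf f σ :=
  ⟨{ toFun := matOf f, map_one' := h1, map_mul' := hmul }, fun _ => rfl⟩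

theorem goodPred_comp (h𝒟 : IsDeformationCondition 𝒪 𝒟)
    {A B : Type} [CommRing A] [IsLocalRing A] [Algebra 𝒪 A]
    [CommRing B] [IsLocalRing B] [Algebra 𝒪 B]
    (hA : IsArtinianTestAlgebra 𝒪 A) (hB : IsArtinianTestAlgebra 𝒪 B)
    (φ : A →ₐ[𝒪] B) (hφ : IsLocalHom (φ : A →+* B)) (f : Lam 𝒪 →ₐ[𝒪] A)
    (hf : goodPred N 𝒟 f) : goodPred N 𝒟 (φ.comp f) := by
  obtain ⟨r, hr, hlift, hnorm, hc, hD⟩ := hf
  have hc' : IsCont (mapRep (φ : A →+* B) r) := hc.map (φ : A →+* B) hφ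
  refine ⟨mapRep (φ : A →+* B) r, fun σ i j => ?_, isLift_mapRep φ hφ hlift,
    isNorm_mapRep φ hnorm, hc', ?_⟩
  · rw [mapRep_apply, hr]
    rfl
  · exact h𝒟.of_isEquiv hB (baseChangeAlong_toRep_isEquiv (φ : A →+* B) hφ r hc hc')
      (h𝒟.baseChangeAlong hA hB φ hφ hD)

theorem goodPred_of_comp_injective (h𝒟 : IsDeformationCondition 𝒪 𝒟)
    {A B : Type} [CommRing A] [IsLocalRing A] [Algebra 𝒪 A]
    [CommRing B] [IsLocalRing B] [Algebra 𝒪 B]
    (hA : IsArtinianTestAlgebra 𝒪 A) (hB : IsArtinianTestAlgebra 𝒪 B)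
    (φ : A →ₐ[𝒪] B) (hφ : IsLocalHom (φ : A →+* B)) (hinj : Function.Injective φ)
    (f : Lam 𝒪 →ₐ[𝒪] A) (hf : goodPred N 𝒟 (φ.comp f)) : goodPred N 𝒟 f := by
  obtain ⟨r', hr', hlift', hnorm', hc', hD'⟩ := hf
  have hMinj : Function.Injective ((φ : A →+* B).mapMatrix (m := Fin 2)) := by
    intro X Y hXY
    ext i j
    exact hinj (congrFun (congrFun hXY i) j)
  have key : ∀ σ, (φ : A →+* B).mapMatrix (matOf f σ) = r' σ := fun σ => by
    rw [mapMatrix_matOf, eq_matOf hr' σ]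
  obtain ⟨r, hr⟩ := exists_rep f
    (hMinj (by rw [key, map_one, map_one]))
    (fun σ τ => hMinj (by rw [key, map_mul, map_mul, key, key]))
  have hmap : mapRep (φ : A →+* B) r = r' := MonoidHom.ext fun σ => by
    rw [← key σ, ← hr σ]
    rfl
  subst hmap
  have hc : IsCont r := by
    haveI := hB.isArtinian
    obtain ⟨L, hL, h1⟩ := finiteLevel_of_isCont hc'
    refine isCont_of_finiteLevel ⟨L, hL, fun σ hσ => hMinj ?_⟩
    have h2 := h1 σ hσ
    rw [map_one]
    exact h2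
  refine ⟨r, fun σ i j => by rw [hr σ]; rfl, isLift_of_mapRep φ hlift', ?_, hc, ?_⟩
  · obtain ⟨h1, h2, h3⟩ := hnorm'
    refine ⟨hinj ?_, hinj ?_, hinj ?_⟩
    · rw [map_zero]; exact h1
    · rw [map_one]; exact h2
    · rw [AlgHom.commutes]; exact h3
  · exact h𝒟.of_baseChangeAlong_injective hA hB φ hφ hinj
      (h𝒟.of_isEquiv hB
        ((baseChangeAlong_toRep_isEquiv (φ : A →+* B) hφ r hc hc').elim fun e => ⟨e.symm⟩) hD')

theorem goodPred_of_fibre (h𝒟 : IsDeformationCondition 𝒪 𝒟)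
    {A B C P : Type} [CommRing A] [IsLocalRing A] [Algebra 𝒪 A]
    [CommRing B] [IsLocalRing B] [Algebra 𝒪 B] [CommRing C] [IsLocalRing C] [Algebra 𝒪 C]
    [CommRing P] [IsLocalRing P] [Algebra 𝒪 P]
    (hA : IsArtinianTestAlgebra 𝒪 A) (hB : IsArtinianTestAlgebra 𝒪 B)
    (hC : IsArtinianTestAlgebra 𝒪 C) (hP : IsArtinianTestAlgebra 𝒪 P)
    (f : A →ₐ[𝒪] C) (g : B →ₐ[𝒪] C) (pA : P →ₐ[𝒪] A) (pB : P →ₐ[𝒪] B)
    (hpA : IsLocalHom (pA : P →+* A)) (hpB : IsLocalHom (pB : P →+* B))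
    (hcomm : f.comp pA = g.comp pB)
    (hinj : Function.Injective (fun x => (pA x, pB x)))
    (hsurj : ∀ a b, f a = g b → ∃ x, pA x = a ∧ pB x = b)
    (F : Lam 𝒪 →ₐ[𝒪] P) (hFA : goodPred N 𝒟 (pA.comp F)) (hFB : goodPred N 𝒟 (pB.comp F)) :
    goodPred N 𝒟 F := by
  obtain ⟨rA, hrA, hliftA, hnormA, hcA, hDA⟩ := hFA
  obtain ⟨rB, hrB, hliftB, hnormB, hcB, hDB⟩ := hFB
  have hpair : ∀ x y : P, pA x = pA y → pB x = pB y → x = y := fun x y h1 h2 =>
    hinj (Prod.ext h1 h2)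
  have hMinj : ∀ X Y : M2 P, (pA : P →+* A).mapMatrix X = (pA : P →+* A).mapMatrix Y →
      (pB : P →+* B).mapMatrix X = (pB : P →+* B).mapMatrix Y → X = Y := by
    intro X Y h1 h2
    ext i j
    exact hpair _ _ (congrFun (congrFun h1 i) j) (congrFun (congrFun h2 i) j)
  have keyA : ∀ σ, (pA : P →+* A).mapMatrix (matOf F σ) = rA σ := fun σ => by
    rw [mapMatrix_matOf, eq_matOf hrA σ]
  have keyB : ∀ σ, (pB : P →+* B).mapMatrix (matOf F σ) = rB σ := fun σ => by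
    rw [mapMatrix_matOf, eq_matOf hrB σ]
  obtain ⟨r, hr⟩ := exists_rep F
    (hMinj _ _ (by rw [keyA, map_one, map_one]) (by rw [keyB, map_one, map_one]))
    (fun σ τ => hMinj _ _ (by rw [keyA, map_mul, map_mul, keyA, keyA])
      (by rw [keyB, map_mul, map_mul, keyB, keyB]))
  have hmapA : mapRep (pA : P →+* A) r = rA := MonoidHom.ext fun σ => by
    rw [← keyA σ, ← hr σ]
    rfl
  have hmapB : mapRep (pB : P →+* B) r = rB := MonoidHom.ext fun σ => by
    rw [← keyB σ, ← hr σ]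
    rfl
  subst hmapA
  subst hmapB
  have hc : IsCont r := by
    haveI := hA.isArtinian
    haveI := hB.isArtinian
    obtain ⟨LA, hLA, h1⟩ := finiteLevel_of_isCont hcA
    obtain ⟨LB, hLB, h2⟩ := finiteLevel_of_isCont hcB
    haveI := hLA
    haveI := hLB
    refine isCont_of_finiteLevel ⟨LA ⊔ LB, IntermediateField.finiteDimensional_sup LA LB,
      fun σ hσ => hMinj _ _ ?_ ?_⟩
    · have h3 := h1 σ fun x hx => hσ x ((le_sup_left : LA ≤ LA ⊔ LB) hx)
      rw [map_one]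
      exact h3
    · have h3 := h2 σ fun x hx => hσ x ((le_sup_right : LB ≤ LA ⊔ LB) hx)
      rw [map_one]
      exact h3
  refine ⟨r, fun σ i j => by rw [hr σ]; rfl, isLift_of_mapRep pA hliftA, ?_, hc, ?_⟩
  · obtain ⟨a1, a2, a3⟩ := hnormA
    obtain ⟨b1, b2, b3⟩ := hnormB
    refine ⟨hpair _ _ ?_ ?_, hpair _ _ ?_ ?_, hpair _ _ ?_ ?_⟩
    · rw [map_zero]; exact a1
    · rw [map_zero]; exact b1
    · rw [map_one]; exact a2
    · rw [map_one]; exact b2
    · rw [AlgHom.commutes]; exact a3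
    · rw [AlgHom.commutes]; exact b3
  · refine h𝒟.of_fibreProduct hA hB hC hP f g pA pB hpA hpB hcomm hinj hsurj ?_ ?_
    · exact h𝒟.of_isEquiv hA
        ((baseChangeAlong_toRep_isEquiv (pA : P →+* A) hpA r hc hcA).elim fun e => ⟨e.symm⟩) hDA
    · exact h𝒟.of_isEquiv hB
        ((baseChangeAlong_toRep_isEquiv (pB : P →+* B) hpB r hc hcB).elim fun e => ⟨e.symm⟩) hDB

variable (N 𝒟) in
/-- The good-lift predicate is a lift condition in the sense of `Family.lean`. -/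
theorem isLiftCondition (h𝒟 : IsDeformationCondition 𝒪 𝒟) : IsLiftCondition (goodPred N 𝒟) where
  comp := fun _ _ _ _ _ _ _ _ hA hB φ hφ f hf => goodPred_comp h𝒟 hA hB φ hφ f hf
  of_comp_injective := fun _ _ _ _ _ _ _ _ hA hB φ hφ hinj f hf =>
    goodPred_of_comp_injective h𝒟 hA hB φ hφ hinj f hf
  of_fibre := fun _ _ _ _ _ _ _ _ _ _ _ _ _ _ _ _ hA hB hC hP f g pA pB hpA hpB hcomm hinj
      hsurj F hFA hFB =>
    goodPred_of_fibre h𝒟 hA hB hC hP f g pA pB hpA hpB hcomm hinj hsurj F hFA hFB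

end LiftCondition

section TestAlgebras

variable (𝒪 : Type) [CommRing 𝒪] [IsLocalRing 𝒪]

/-- The residue field is an Artinian test algebra. -/
theorem isArtinianTestAlgebra_residueField : IsArtinianTestAlgebra 𝒪 (ResidueField 𝒪) where
  isLocalHom := by
    rw [IsLocalRing.ResidueField.algebraMap_eq]
    infer_instance
  residue_surjective := by
    refine (IsLocalRing.residue_surjective (R := ResidueField 𝒪)).comp ?_
    rw [IsLocalRing.ResidueField.algebraMap_eq]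
    exact IsLocalRing.residue_surjective
  isArtinian := inferInstance

theorem finite_dualNumber (k : Type) [Finite k] : Finite (DualNumber k) :=
  inferInstanceAs (Finite (k × k))

theorem algebraMap_dualNumber (a : 𝒪) :
    letI := algDN 𝒪
    algebraMap 𝒪 (DualNumber (ResidueField 𝒪)) a = TrivSqZeroExt.inl (residue 𝒪 a) := rfl

/-- The dual numbers over the residue field are an Artinian test algebra. -/
theorem isArtinianTestAlgebra_dualNumber [Finite (ResidueField 𝒪)] :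
    letI := algDN 𝒪
    IsArtinianTestAlgebra 𝒪 (DualNumber (ResidueField 𝒪)) := by
  letI := algDN 𝒪
  haveI := finite_dualNumber (ResidueField 𝒪)
  refine ⟨⟨fun a ha => ?_⟩, fun y => ?_, inferInstance⟩
  · rw [algebraMap_dualNumber, TrivSqZeroExt.isUnit_iff_isUnit_fst, TrivSqZeroExt.fst_inl] at ha
    exact isUnit_of_map_unit (residue 𝒪) a ha
  · obtain ⟨x, rfl⟩ := IsLocalRing.residue_surjective y
    obtain ⟨a, ha⟩ := IsLocalRing.residue_surjective x.fst
    refine ⟨a, ?_⟩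
    rw [Function.comp_apply, algebraMap_dualNumber, ha, eq_comm, ← sub_eq_zero, ← map_sub,
      IsLocalRing.residue_eq_zero_iff, IsLocalRing.mem_maximalIdeal, mem_nonunits_iff,
      TrivSqZeroExt.isUnit_iff_isUnit_fst]
    simp

end TestAlgebras

section ProFamily

variable {𝒪 : Type} [CommRing 𝒪] [IsLocalRing 𝒪] (N : NData 𝒪)
variable (𝒟 : ∀ ⦃A : Type⦄ [CommRing A] [IsLocalRing A] [Algebra 𝒪 A], GaloisRepAdic A → Prop)

/-- The family of all good ideals of `Lam 𝒪`. -/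
def goodFamily : Set (Ideal (Lam 𝒪)) := familyAll (goodPred N 𝒟) (base N)

variable {N 𝒟}

theorem goodPred_chi (hbar : IsGood N 𝒟 N.rbar) : goodPred N 𝒟 (chi N) :=
  ⟨N.rbar, fun σ i j => (chi_X N σ i j).symm, hbar⟩

/-- A good map sends the base point into the maximal ideal. -/
theorem map_mem_maximalIdeal_of_goodPred {B : Type} [CommRing B] [IsLocalRing B] [Algebra 𝒪 B]
    (hloc : IsLocalHom (algebraMap 𝒪 B)) {f : Lam 𝒪 →ₐ[𝒪] B} (hf : goodPred N 𝒟 f)
    {x : Lam 𝒪} (hx : x ∈ base N) : f x ∈ maximalIdeal B := by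
  haveI := hloc
  obtain ⟨r, hr, hlift, -⟩ := hf
  have key : (residue B).comp (f : Lam 𝒪 →+* B) =
      (IsLocalRing.ResidueField.map (algebraMap 𝒪 B)).comp (chi N : Lam 𝒪 →+* ResidueField 𝒪) := by
    refine MvPolynomial.ringHom_ext (fun a => ?_) (fun ⟨σ, i, j⟩ => ?_)
    · have h1 : (MvPolynomial.C a : Lam 𝒪) = algebraMap 𝒪 (Lam 𝒪) a := rfl
      rw [RingHom.comp_apply, RingHom.comp_apply, h1, AlgHom.coe_toRingHom, AlgHom.coe_toRingHom,
        AlgHom.commutes, chi_algebraMap, IsLocalRing.ResidueField.map_residue]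
    · rw [RingHom.comp_apply, RingHom.comp_apply, AlgHom.coe_toRingHom, AlgHom.coe_toRingHom,
        chi_X, ← hr, ← N.hc, IsLocalRing.ResidueField.map_residue, ← sub_eq_zero, ← map_sub,
        IsLocalRing.residue_eq_zero_iff]
      exact hlift σ i j
  have h2 := RingHom.congr_fun key x
  rw [RingHom.comp_apply, RingHom.comp_apply, AlgHom.coe_toRingHom, AlgHom.coe_toRingHom,
    (mem_base_iff N x).mp hx, map_zero, IsLocalRing.residue_eq_zero_iff] at h2
  exact h2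

/-- Kernel lemma: the kernel of a good map to a finite test algebra is a good ideal. -/
theorem ker_mem_family (h𝒟 : IsDeformationCondition 𝒪 𝒟) {B : Type} [CommRing B] [IsLocalRing B]
    [Algebra 𝒪 B] [Finite B] (hB : IsArtinianTestAlgebra 𝒪 B) {n : ℕ}
    (hBn : maximalIdeal B ^ n = ⊥) {f : Lam 𝒪 →ₐ[𝒪] B} (hf : goodPred N 𝒟 f) :
    RingHom.ker f ∈ family (goodPred N 𝒟) (base N) n :=
  Family.ker_mem (isLiftCondition N 𝒟 h𝒟) (isBasePoint N) hB hBn f
    (fun _ hx => map_mem_maximalIdeal_of_goodPred hB.isLocalHom hf hx) hf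

theorem ker_mem_goodFamily (h𝒟 : IsDeformationCondition 𝒪 𝒟) {B : Type} [CommRing B]
    [IsLocalRing B] [Algebra 𝒪 B] [Finite B] (hB : IsArtinianTestAlgebra 𝒪 B)
    {f : Lam 𝒪 →ₐ[𝒪] B} (hf : goodPred N 𝒟 f) : RingHom.ker f ∈ goodFamily N 𝒟 := by
  haveI := hB.isArtinian
  obtain ⟨n, hn⟩ := exists_maximalIdeal_pow_eq_bot' (A := B)
  exact ⟨n, ker_mem_family h𝒟 hB hn hf⟩

theorem goodPred_of_ker_mem (h𝒟 : IsDeformationCondition 𝒪 𝒟) {B : Type} [CommRing B]
    [IsLocalRing B] [Algebra 𝒪 B] (hB : IsArtinianTestAlgebra 𝒪 B)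
    {f : Lam 𝒪 →ₐ[𝒪] B} (hf : RingHom.ker f ∈ goodFamily N 𝒟) : goodPred N 𝒟 f := by
  obtain ⟨n, hn⟩ := hf
  exact Family.pred_of_ker_mem (isLiftCondition N 𝒟 h𝒟) (isBasePoint N) hB f hn

/-- For finite test algebras, good maps are exactly those whose kernel is a good ideal. -/
theorem ker_mem_goodFamily_iff (h𝒟 : IsDeformationCondition 𝒪 𝒟) {B : Type} [CommRing B]
    [IsLocalRing B] [Algebra 𝒪 B] [Finite B] (hB : IsArtinianTestAlgebra 𝒪 B)
    (f : Lam 𝒪 →ₐ[𝒪] B) : RingHom.ker f ∈ goodFamily N 𝒟 ↔ goodPred N 𝒟 f :=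
  ⟨goodPred_of_ker_mem h𝒟 hB, ker_mem_goodFamily h𝒟 hB⟩

/-- Evaluation at a representation is good exactly when the representation is. -/
theorem goodPred_ev_iff {A : Type} [CommRing A] [IsLocalRing A] [Algebra 𝒪 A] (r : Gal →* M2 A) :
    goodPred N 𝒟 (ev (𝒪 := 𝒪) fun σ => r σ) ↔ IsGood N 𝒟 r := by
  refine ⟨fun ⟨r', hr', hgood⟩ => ?_, goodPred_ev⟩
  have : r' = r := MonoidHom.ext fun σ => by
    ext i j
    rw [hr' σ i j, ev_X]
  exact this ▸ hgood

/-- The base point is a good ideal. -/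
theorem base_mem_goodFamily [Finite (ResidueField 𝒪)] (h𝒟 : IsDeformationCondition 𝒪 𝒟)
    (hbar : IsGood N 𝒟 N.rbar) : base N ∈ goodFamily N 𝒟 :=
  ker_mem_goodFamily h𝒟 (isArtinianTestAlgebra_residueField 𝒪) (goodPred_chi hbar)

/-- Tangent finiteness for the family of good ideals. -/
theorem finite_tangent [Finite (ResidueField 𝒪)] (h𝒟 : IsDeformationCondition 𝒪 𝒟)
    (hfinE : letI := algDN 𝒪
      Finite {r : Gal →* M2 (DualNumber (ResidueField 𝒪)) // IsGood N 𝒟 r}) :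
    letI := algDN 𝒪
    Finite {ψ : Lam 𝒪 →ₐ[𝒪] DualNumber (ResidueField 𝒪) // RingHom.ker ψ ∈ goodFamily N 𝒟} := by
  letI := algDN 𝒪
  have hB := isArtinianTestAlgebra_dualNumber 𝒪
  haveI := hfinE
  have key : ∀ ψ : {ψ : Lam 𝒪 →ₐ[𝒪] DualNumber (ResidueField 𝒪) //
      RingHom.ker ψ ∈ goodFamily N 𝒟}, goodPred N 𝒟 ψ.1 := fun ψ => goodPred_of_ker_mem h𝒟 hB ψ.2
  choose R hR hRgood using key
  refine Finite.of_injective (fun ψ => (⟨R ψ, hRgood ψ⟩ :
    {r : Gal →* M2 (DualNumber (ResidueField 𝒪)) // IsGood N 𝒟 r})) ?_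
  intro ψ ψ' h
  have h1 : R ψ = R ψ' := congrArg Subtype.val h
  apply Subtype.ext
  refine MvPolynomial.algHom_ext fun ⟨σ, i, j⟩ => ?_
  rw [← hR ψ σ i j, ← hR ψ' σ i j, h1]

variable (N 𝒟) in
/-- The family of good ideals is a pro-family in the sense of `ProDefs.lean`. -/
theorem isProFamily_good [Finite (ResidueField 𝒪)] (h𝒟 : IsDeformationCondition 𝒪 𝒟)
    (hbar : IsGood N 𝒟 N.rbar)
    (hfinE : letI := algDN 𝒪
      Finite {r : Gal →* M2 (DualNumber (ResidueField 𝒪)) // IsGood N 𝒟 r}) :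
    IsProFamily (chi N) (goodFamily N 𝒟) where
  le_ker := fun _ hI => familyAll_le hI
  pow_le := fun _ hI => familyAll_pow_le hI
  finite := fun _ hI => familyAll_finite hI
  inf_mem := fun _ hI _ hJ => familyAll_inf (isLiftCondition N 𝒟 h𝒟) (isBasePoint N) hI hJ
  mem_of_le := fun _ hI _ hIJ hJ =>
    familyAll_of_le (isLiftCondition N 𝒟 h𝒟) (isBasePoint N) hI hIJ hJ
  ker_mem := base_mem_goodFamily h𝒟 hbar
  tangent := finite_tangent h𝒟 hfinE

/-- The same statement with everything unfolded. -/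
theorem isProFamily_good' [Finite (ResidueField 𝒪)] (h𝒟 : IsDeformationCondition 𝒪 𝒟)
    (hbar : IsGood N 𝒟 N.rbar)
    (hfinE : letI := algDN 𝒪
      Finite {r : Gal →* M2 (DualNumber (ResidueField 𝒪)) // IsGood N 𝒟 r}) :
    IsProFamily (ev (𝒪 := 𝒪) N.rbar)
      (familyAll (goodPred N 𝒟) (RingHom.ker (ev (𝒪 := 𝒪) N.rbar))) :=
  isProFamily_good N 𝒟 h𝒟 hbar hfinE

/-- A good ideal carries the tautological good representation on its quotient. -/
theorem goodPred_mk_of_mem {I : Ideal (Lam 𝒪)} (hI : I ∈ goodFamily N 𝒟)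
    [IsLocalRing (Lam 𝒪 ⧸ I)] : goodPred N 𝒟 (Ideal.Quotient.mkₐ 𝒪 I) := by
  obtain ⟨n, hn⟩ := hI
  exact Family.pred_of_mem hn

theorem isLocalRing_of_mem_goodFamily {I : Ideal (Lam 𝒪)} (hI : I ∈ goodFamily N 𝒟) :
    IsLocalRing (Lam 𝒪 ⧸ I) := by
  obtain ⟨n, hn⟩ := hI
  exact Family.isLocalRing_of_mem (isBasePoint N) hn


end ProFamily

end Fermat.Agent.S53.GoodIdeals
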