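import Fermat.Agent.S53.Defs

set_option autoImplicit false

/-!
Piece C: normal forms of lifts: uniqueness and existence.
-/

namespace Fermat.Agent.S53

open IsLocalRing

namespace NormalAux

section Alg

variable {A : Type} [CommRing A]

/-- Inverse of `1 + β τ` for two by two matrices. -/
theorem inv_one_add_smul (τ : M2 A) (β e' : A)
    (he : e' * (1 + β * (τ 0 0 + τ 1 1) + β ^ 2 * (τ 0 0 * τ 1 1 - τ 0 1 * τ 1 0)) = 1) :
    (e' • ((1 + β * (τ 0 0 + τ 1 1)) • (1 : M2 A) - β • τ)) * (1 + β • τ) = 1 := by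
  ext i j
  fin_cases i <;> fin_cases j <;>
    simp [Matrix.mul_apply, Fin.sum_univ_two] <;>
    first | linear_combination he | ring

/-- The entry formula for conjugation by `1 + β τ`. -/
theorem conj_entry (X τ : M2 A) (β c0 : A) (i j : Fin 2) :
    (((1 + β * (τ 0 0 + τ 1 1)) • (1 : M2 A) - β • τ) * X * (1 + β • τ)) i j
      = c0 * (1 + β * (τ 0 0 + τ 1 1) + β ^ 2 * (τ 0 0 * τ 1 1 - τ 0 1 * τ 1 0))
        + ((X i j - c0) + β * ((τ 0 0 + τ 1 1) * (X i j - c0) + (X * τ - τ * X) i j)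
        + β ^ 2 * ((((τ 0 0 + τ 1 1) • (1 : M2 A) - τ) * X * τ) i j
            - c0 * (τ 0 0 * τ 1 1 - τ 0 1 * τ 1 0))) := by
  fin_cases i <;> fin_cases j <;>
    simp [Matrix.mul_apply, Fin.sum_univ_two] <;> ring

end Alg

variable {𝒪 : Type} [CommRing 𝒪] [IsLocalRing 𝒪] (N : NData 𝒪)
variable {A : Type} [CommRing A] [IsLocalRing A] [Algebra 𝒪 A]

/-- Reduction of matrices modulo the maximal ideal. -/
noncomputable abbrev red (A : Type) [CommRing A] [IsLocalRing A] : M2 A →+* M2 (ResidueField A) :=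
  (residue A).mapMatrix

/-- The composite of the structure map with the residue map. -/
noncomputable abbrev psi (𝒪 A : Type) [CommRing 𝒪] [CommRing A] [IsLocalRing A] [Algebra 𝒪 A] :
    𝒪 →+* ResidueField A :=
  (residue A).comp (algebraMap 𝒪 A)

theorem isLift_iff (r : Gal →* M2 A) :
    IsLift N r ↔ ∀ σ, red A (r σ) = (psi 𝒪 A).mapMatrix (N.c σ) := by
  constructor
  · intro h σ
    ext i j
    have := h σ i j
    rw [← residue_eq_zero_iff, map_sub, sub_eq_zero] at this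
    exact this
  · intro h σ i j
    have := congrFun (congrFun (h σ) i) j
    rw [← residue_eq_zero_iff, map_sub, sub_eq_zero]
    exact this

theorem mapMatrix_c (σ : Gal) : (residue 𝒪).mapMatrix (N.c σ) = N.rbar σ := by
  ext i j
  exact N.hc σ i j

/-- The commutator entry of the chosen entrywise lift is a unit. -/
theorem isUnit_c_comm : IsUnit ((N.c N.h * N.c N.g - N.c N.g * N.c N.h) N.i0 N.j0) := by
  rw [← residue_ne_zero_iff_isUnit]
  have : residue 𝒪 ((N.c N.h * N.c N.g - N.c N.g * N.c N.h) N.i0 N.j0)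
      = ((residue 𝒪).mapMatrix (N.c N.h * N.c N.g - N.c N.g * N.c N.h)) N.i0 N.j0 := rfl
  rw [this, map_sub, map_mul, map_mul, mapMatrix_c, mapMatrix_c]
  exact N.hcomm

/-- The commutator entry is a unit for matrices reducing to the residual ones. -/
theorem isUnit_comm_gen (H1 H2 G1 G2 : M2 A)
    (hH1 : red A H1 = (psi 𝒪 A).mapMatrix (N.c N.h))
    (hH2 : red A H2 = (psi 𝒪 A).mapMatrix (N.c N.h))
    (hG1 : red A G1 = (psi 𝒪 A).mapMatrix (N.c N.g))
    (hG2 : red A G2 = (psi 𝒪 A).mapMatrix (N.c N.g)) :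
    IsUnit ((H1 * G1 - G2 * H2) N.i0 N.j0) := by
  rw [← residue_ne_zero_iff_isUnit]
  have : residue A ((H1 * G1 - G2 * H2) N.i0 N.j0)
      = (red A (H1 * G1 - G2 * H2)) N.i0 N.j0 := rfl
  rw [this, map_sub, map_mul, map_mul, hH1, hH2, hG1, hG2, ← map_mul, ← map_mul, ← map_sub]
  exact ((isUnit_c_comm N).map (psi 𝒪 A)).ne_zero

theorem isUnit_add_of_mem {u x : A} (hu : IsUnit u) (hx : x ∈ maximalIdeal A) :
    IsUnit (u + x) := by
  rw [← residue_ne_zero_iff_isUnit] at hu ⊢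
  rw [map_add, (residue_eq_zero_iff x).mpr hx, add_zero]
  exact hu

/-- Conjugation by a matrix congruent to one preserves lifts. -/
theorem exists_conj (r : Gal →* M2 A) (hl : IsLift N r) (P P' : M2 A) (h1 : P * P' = 1)
    (h2 : P' * P = 1) (hP : red A P' = 1) :
    ∃ r' : Gal →* M2 A, (∀ σ, r' σ = P * r σ * P') ∧ IsLift N r' := by
  have hP1 : red A P = 1 := by
    have := congrArg (red A) h1
    rw [map_mul, hP, mul_one, map_one] at this
    exact this
  refine ⟨{ toFun := fun σ => P * r σ * P', map_one' := by simp [h1],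
            map_mul' := fun σ τ => ?_ }, fun σ => rfl, ?_⟩
  · rw [map_mul]
    calc P * (r σ * r τ) * P' = P * r σ * (1 : M2 A) * r τ * P' := by simp [mul_assoc]
      _ = P * r σ * P' * (P * r τ * P') := by rw [← h2]; simp [mul_assoc]
  · rw [isLift_iff] at hl ⊢
    intro σ
    show red A (P * r σ * P') = _
    rw [map_mul, map_mul, hP, hP1, one_mul, mul_one, hl]

theorem psi_eq_zero [IsLocalHom (algebraMap 𝒪 A)] {x : 𝒪} (hx : residue 𝒪 x = 0) :
    psi 𝒪 A x = 0 := by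
  rw [residue_eq_zero_iff] at hx
  show residue A (algebraMap 𝒪 A x) = 0
  rw [residue_eq_zero_iff]
  exact map_nonunit (algebraMap 𝒪 A) x hx

/-- First step: make the first column of `r g` equal to `(0, 1)`. -/
theorem exists_step_one [IsLocalHom (algebraMap 𝒪 A)] (r : Gal →* M2 A) (hl : IsLift N r) :
    ∃ (P P' : M2 A) (r' : Gal →* M2 A), P * P' = 1 ∧ P' * P = 1 ∧
      (∀ σ, r' σ = P * r σ * P') ∧ IsLift N r' ∧ r' N.g 0 0 = 0 ∧ r' N.g 1 0 = 1 := by
  have hl0 := hl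
  rw [isLift_iff] at hl0
  obtain ⟨a, ha⟩ : ∃ a : A, a = r N.g 0 0 := ⟨_, rfl⟩
  obtain ⟨b, hb⟩ : ∃ b : A, b = r N.g 1 0 := ⟨_, rfl⟩
  have ha0 : residue A a = 0 := by
    have := congrFun (congrFun (hl0 N.g) 0) 0
    rw [ha]
    refine this.trans ?_
    show psi 𝒪 A (N.c N.g 0 0) = 0
    apply psi_eq_zero
    rw [N.hc, N.hg00]
  have hb1 : residue A b = 1 := by
    have := congrFun (congrFun (hl0 N.g) 1) 0
    rw [hb]
    refine this.trans ?_
    show psi 𝒪 A (N.c N.g 1 0) = 1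
    have h0 : psi 𝒪 A (N.c N.g 1 0 - 1) = 0 := by
      apply psi_eq_zero
      rw [map_sub, N.hc, N.hg10, map_one, sub_self]
    rw [map_sub, map_one, sub_eq_zero] at h0
    exact h0
  have hbu : IsUnit b := by
    rw [← residue_ne_zero_iff_isUnit, hb1]
    exact one_ne_zero
  obtain ⟨b', hb'⟩ := hbu.exists_right_inv
  have hb'1 : residue A b' = 1 := by
    have := congrArg (residue A) hb'
    rw [map_mul, hb1, one_mul, map_one] at this
    exact this
  have hQ'Q : (!![1, -a * b'; 0, b'] : M2 A) * !![1, a; 0, b] = 1 := by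
    ext i j
    fin_cases i <;> fin_cases j <;>
      simp [Matrix.mul_apply, Fin.sum_univ_two] <;>
      first | linear_combination (-a) * hb' | linear_combination hb'
  have hQQ' : (!![1, a; 0, b] : M2 A) * !![1, -a * b'; 0, b'] = 1 :=
    mul_eq_one_comm.mp hQ'Q
  have hred : red A (!![1, a; 0, b] : M2 A) = 1 := by
    ext i j
    fin_cases i <;> fin_cases j <;> simp [ha0, hb1]
  obtain ⟨r', hr', hl'⟩ := exists_conj N r hl _ _ hQ'Q hQQ' hred
  refine ⟨_, _, r', hQ'Q, hQQ', hr', hl', ?_, ?_⟩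
  · rw [hr']
    simp only [Matrix.mul_apply, Fin.sum_univ_two]
    rw [← ha, ← hb]
    simp
    linear_combination (-a) * hb'
  · rw [hr']
    simp only [Matrix.mul_apply, Fin.sum_univ_two]
    rw [← ha, ← hb]
    simp
    linear_combination hb'

/-- Second step: adjust the `(i0, j0)` entry of `r h`. -/
theorem exists_step_two [IsAdicComplete (maximalIdeal A) A] (r : Gal →* M2 A) (hl : IsLift N r)
    (h00 : r N.g 0 0 = 0) (h10 : r N.g 1 0 = 1) :
    ∃ (P P' : M2 A) (r' : Gal →* M2 A), P * P' = 1 ∧ P' * P = 1 ∧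
      (∀ σ, r' σ = P * r σ * P') ∧ IsLift N r' ∧ IsNorm N r' := by
  have hl0 := hl
  rw [isLift_iff] at hl0
  obtain ⟨τ, hτ⟩ : ∃ τ : M2 A, τ = r N.g := ⟨_, rfl⟩
  obtain ⟨X, hX⟩ : ∃ X : M2 A, X = r N.h := ⟨_, rfl⟩
  obtain ⟨c0, hc0⟩ : ∃ c0 : A, c0 = algebraMap 𝒪 A (N.c N.h N.i0 N.j0) := ⟨_, rfl⟩
  obtain ⟨t, ht⟩ : ∃ t : A, t = τ 0 0 + τ 1 1 := ⟨_, rfl⟩
  obtain ⟨d, hd⟩ : ∃ d : A, d = τ 0 0 * τ 1 1 - τ 0 1 * τ 1 0 := ⟨_, rfl⟩
  obtain ⟨δ, hδ⟩ : ∃ δ : A, δ = X N.i0 N.j0 - c0 := ⟨_, rfl⟩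
  have hδm : δ ∈ maximalIdeal A := by
    rw [hδ, hX, hc0]
    exact hl N.h N.i0 N.j0
  obtain ⟨D, hD⟩ : ∃ D : A, D = (X * τ - τ * X) N.i0 N.j0 := ⟨_, rfl⟩
  have hDu : IsUnit D := by
    rw [hD, hX, hτ]
    exact isUnit_comm_gen N _ _ _ _ (hl0 _) (hl0 _) (hl0 _) (hl0 _)
  obtain ⟨u, hu⟩ : ∃ u : A, u = t * δ + D := ⟨_, rfl⟩
  have huu : IsUnit u := by
    rw [hu, add_comm]
    exact isUnit_add_of_mem hDu (Ideal.mul_mem_left _ _ hδm)
  obtain ⟨w, hw⟩ : ∃ w : A, w = (((t • (1 : M2 A) - τ) * X * τ) N.i0 N.j0 - c0 * d) := ⟨_, rfl⟩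
  -- Hensel
  obtain ⟨z, hz, hzm⟩ : ∃ z : A, z ^ 2 + u * z + w * δ = 0 ∧ z ∈ maximalIdeal A := by
    have hH := IsAdicComplete.henselianRing A (maximalIdeal A)
    have hmonic : (Polynomial.X ^ 2 + (Polynomial.C u * Polynomial.X + Polynomial.C (w * δ))
        : Polynomial A).Monic := by
      apply Polynomial.monic_X_pow_add
      exact lt_of_le_of_lt (Polynomial.degree_linear_le) (by norm_num)
    obtain ⟨z, hz, hz'⟩ := hH.is_henselian _ hmonic 0
      (by simpa using Ideal.mul_mem_left _ w hδm)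
      (by simpa using huu.map (Ideal.Quotient.mk (maximalIdeal A)))
    refine ⟨z, ?_, by simpa using hz'⟩
    have := hz
    simp only [Polynomial.IsRoot, Polynomial.eval_add, Polynomial.eval_pow, Polynomial.eval_X,
      Polynomial.eval_mul, Polynomial.eval_C] at this
    linear_combination this
  have huz : IsUnit (u + z) := isUnit_add_of_mem huu hzm
  obtain ⟨v, hv⟩ := huz.exists_left_inv
  obtain ⟨β, hβ⟩ : ∃ β : A, β = -δ * v := ⟨_, rfl⟩
  have hβm : β ∈ maximalIdeal A := by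
    rw [hβ]
    exact Ideal.mul_mem_right _ _ (neg_mem hδm)
  have hquad : δ + β * u + β ^ 2 * w = 0 := by
    rw [hβ]
    linear_combination (δ * v ^ 2) * hz - (δ + δ * v * z) * hv
  obtain ⟨e, he⟩ : ∃ e : A, e = 1 + β * t + β ^ 2 * d := ⟨_, rfl⟩
  have heu : IsUnit e := by
    have : e = 1 + β * (t + β * d) := by rw [he]; ring
    rw [this]
    exact isUnit_add_of_mem isUnit_one (Ideal.mul_mem_right _ _ hβm)
  obtain ⟨e', he'⟩ := heu.exists_left_inv
  have he'' : e' * (1 + β * (τ 0 0 + τ 1 1) + β ^ 2 * (τ 0 0 * τ 1 1 - τ 0 1 * τ 1 0)) = 1 := by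
    rw [← ht, ← hd, ← he]
    exact he'
  have h12 := inv_one_add_smul τ β e' he''
  have h21 := mul_eq_one_comm.mp h12
  have hred : red A (1 + β • τ) = 1 := by
    ext i j
    have hβ0 : residue A β = 0 := (residue_eq_zero_iff β).mpr hβm
    fin_cases i <;> fin_cases j <;> simp [hβ0]
  obtain ⟨r', hr', hl'⟩ := exists_conj N r hl _ _ h12 h21 hred
  refine ⟨_, _, r', h12, h21, hr', hl', ?_⟩
  have hg : r' N.g = τ := by
    rw [hr', ← hτ]
    have hc : τ * (1 + β • τ) = (1 + β • τ) * τ := by simp [mul_add, add_mul]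
    rw [mul_assoc, hc, ← mul_assoc, h12, one_mul]
  refine ⟨?_, ?_, ?_⟩
  · rw [hg, hτ, h00]
  · rw [hg, hτ, h10]
  · rw [hr', ← hX, ← hc0, smul_mul_assoc, smul_mul_assoc, Matrix.smul_apply, smul_eq_mul,
      conj_entry X τ β c0 N.i0 N.j0, ← ht, ← hd, ← hδ, ← hD, ← hw, ← hu, ← he]
    linear_combination e' * hquad + c0 * he'

end NormalAux

variable {𝒪 : Type} [CommRing 𝒪] [IsLocalRing 𝒪] (N : NData 𝒪)
variable {A : Type} [CommRing A] [IsLocalRing A] [Algebra 𝒪 A]

/-- Two conjugate normalised lifts are equal. -/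
theorem norm_unique (r r' : Gal →* M2 A) (hl : IsLift N r) (hl' : IsLift N r')
    (hn : IsNorm N r) (hn' : IsNorm N r') (P P' : M2 A) (h1 : P * P' = 1) (h2 : P' * P = 1)
    (h : ∀ σ, P * r σ = r' σ * P) : r = r' := by
  obtain ⟨hg00, hg10, hh⟩ := hn
  obtain ⟨hg00', hg10', hh'⟩ := hn'
  have hg := h N.g
  have e00 := congrFun (congrFun hg 0) 0
  have e10 := congrFun (congrFun hg 1) 0
  simp only [Matrix.mul_apply, Fin.sum_univ_two, hg00, hg10, hg00', hg10', mul_zero, mul_one,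
    zero_mul, one_mul, zero_add] at e00 e10
  obtain ⟨α, β, hP⟩ : ∃ α β : A, P = α • (1 : M2 A) + β • r' N.g := by
    refine ⟨P 0 0, P 1 0, ?_⟩
    ext i j
    fin_cases i <;> fin_cases j <;> simp [hg00', hg10', e00, e10, mul_comm]
  have hcomm : P * r' N.g = r' N.g * P := by
    rw [hP]
    simp [add_mul, mul_add]
  have hgg : r N.g = r' N.g := by
    have : P' * (P * r N.g) = P' * (P * r' N.g) := by rw [hg, hcomm]
    simpa [← mul_assoc, h2] using this
  rw [← hgg] at hP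
  have k1 : P * r N.h = α • r N.h + β • (r N.g * r N.h) := by
    rw [hP]
    simp [add_mul]
  have k2 : r' N.h * P = α • r' N.h + β • (r' N.h * r N.g) := by
    rw [hP]
    simp [mul_add]
  have k3 := congrFun (congrFun (h N.h) N.i0) N.j0
  rw [k1, k2] at k3
  simp only [Matrix.add_apply, Matrix.smul_apply, smul_eq_mul, hh, hh'] at k3
  have hβ : β * ((r' N.h * r N.g - r N.g * r N.h) N.i0 N.j0) = 0 := by
    rw [Matrix.sub_apply]
    linear_combination -k3
  have hlr := (NormalAux.isLift_iff N r).mp hl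
  have hlr' := (NormalAux.isLift_iff N r').mp hl'
  have hu := NormalAux.isUnit_comm_gen N (r' N.h) (r N.h) (r N.g) (r N.g) (hlr' _) (hlr _)
    (hlr _) (hlr _)
  have hβ0 : β = 0 := (hu.mul_left_eq_zero).mp hβ
  rw [hβ0, zero_smul, add_zero] at hP
  have hα : α * P' 0 0 = 1 := by
    have := congrFun (congrFun h1 0) 0
    rw [hP] at this
    simpa using this
  ext σ i j
  have := congrFun (congrFun (h σ) i) j
  rw [hP] at this
  simp only [smul_mul_assoc, one_mul, mul_smul_comm, mul_one, Matrix.smul_apply, smul_eq_mul]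
    at this
  linear_combination (P' 0 0) * this - (r σ i j - r' σ i j) * hα

/-- Over a complete local ring every lift is conjugate to a normalised lift. -/
theorem exists_norm [IsLocalHom (algebraMap 𝒪 A)] [IsAdicComplete (maximalIdeal A) A]
    (r : Gal →* M2 A) (hl : IsLift N r) :
    ∃ (P P' : M2 A) (r' : Gal →* M2 A), P * P' = 1 ∧ P' * P = 1 ∧
      (∀ σ, P * r σ = r' σ * P) ∧ IsLift N r' ∧ IsNorm N r' := by
  obtain ⟨P1, P1', r1, h11, h12, hr1, hl1, hg00, hg10⟩ := NormalAux.exists_step_one N r hl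
  obtain ⟨P2, P2', r2, h21, h22, hr2, hl2, hn2⟩ := NormalAux.exists_step_two N r1 hl1 hg00 hg10
  refine ⟨P2 * P1, P1' * P2', r2, ?_, ?_, ?_, hl2, hn2⟩
  · calc P2 * P1 * (P1' * P2') = P2 * (P1 * P1') * P2' := by simp only [mul_assoc]
      _ = 1 := by rw [h11, mul_one, h21]
  · calc P1' * P2' * (P2 * P1) = P1' * (P2' * P2) * P1 := by simp only [mul_assoc]
      _ = 1 := by rw [h22, mul_one, h12]
  · intro σ
    rw [hr2, hr1]
    have e1 : P2' * (P2 * P1) = P1 := by rw [← mul_assoc, h22, one_mul]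
    calc P2 * P1 * r σ = P2 * (P1 * r σ * (P1' * P1)) := by rw [h12, mul_one, mul_assoc]
      _ = P2 * (P1 * r σ * P1') * P1 := by simp only [mul_assoc]
      _ = P2 * (P1 * r σ * P1') * (P2' * (P2 * P1)) := by rw [e1]
      _ = P2 * (P1 * r σ * P1') * P2' * (P2 * P1) := by simp only [mul_assoc]

end Fermat.Agent.S53
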