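import Fermat.Agent.S53.Rep
import Fermat.Agent.S53.Normal
import Fermat.Agent.S53.AbsIrr
import Fermat.Agent.S53.GoodIdeals

set_option autoImplicit false
set_option linter.style.haveILetI false
set_option linter.unusedSectionVars false

/-!
Bridges between normalised matrix lifts and the Prelude's representations over complete local
rings: residual condition, invariance of the type under equivalence, existence of a normalised
model, rigidity of normalised models, and the normalisation datum attached to an absolutely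
irreducible residual representation.
-/

namespace Fermat.Agent.S53

open IsLocalRing GaloisRep

variable {𝒪 : Type} [CommRing 𝒪] [IsLocalRing 𝒪] (N : NData 𝒪)
variable (ρbar : ResidualGaloisRep (ResidueField 𝒪))
  (b : Module.Basis (Fin 2) (ResidueField 𝒪) ρbar.V)
variable {𝒟 : ∀ ⦃A : Type⦄ [CommRing A] [IsLocalRing A] [Algebra 𝒪 A], GaloisRepAdic A → Prop}
variable {A : Type} [CommRing A] [IsLocalRing A] [Algebra 𝒪 A]

/-- A matrix representation lifts `N.rbar` exactly when its entries have the prescribed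
residues. -/
theorem isLift_iff_residue [IsLocalHom (algebraMap 𝒪 A)] (r : Gal →* M2 A) :
    IsLift N r ↔ ∀ σ i j, residue A (r σ i j) =
      ResidueField.map (algebraMap 𝒪 A) (N.rbar σ i j) := by
  have key : ∀ σ i j, ResidueField.map (algebraMap 𝒪 A) (N.rbar σ i j) =
      residue A (algebraMap 𝒪 A (N.c σ i j)) := by
    intro σ i j
    rw [← N.hc σ i j]
    rfl
  constructor
  · intro h σ i j
    have h1 := h σ i j
    rw [← residue_eq_zero_iff, map_sub, sub_eq_zero] at h1
    rw [h1, key]
  · intro h σ i j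
    rw [← residue_eq_zero_iff, map_sub, sub_eq_zero, h σ i j, key]

/-- The residual representation of a lift is the base change of `ρbar`. -/
theorem residual_isEquiv_of_isLift [IsLocalHom (algebraMap 𝒪 A)]
    (hN : N.rbar = matOfResidual ρbar b) (r : Gal →* M2 A) (hc : IsCont r) (hl : IsLift N r) :
    (toRep r hc).residual.IsEquiv
      (ρbar.baseChangeAlong (ResidueField.map (algebraMap 𝒪 A))) :=
  residual_toRep_isEquiv ρbar b _ r hc fun σ i j => by
    rw [← hN]
    exact (isLift_iff_residue N r).mp hl σ i j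

/-- Over a complete Noetherian local `𝒪`-algebra the type `𝒟` is invariant under equivalence. -/
theorem isType_of_isEquiv_complete (h𝒟 : IsDeformationCondition 𝒪 𝒟) [IsNoetherianRing A]
    [IsAdicComplete (maximalIdeal A) A] (hloc : IsLocalHom (algebraMap 𝒪 A))
    (hsurj : Function.Surjective (residue A ∘ algebraMap 𝒪 A)) {ρ ρ' : GaloisRepAdic A}
    (h : ρ.IsEquiv ρ') (hρ : 𝒟 ρ) : 𝒟 ρ' := by
  rw [h𝒟.iff_forall_surjective hloc hsurj] at hρ ⊢
  intro B _ _ _ hB q hq hqs
  obtain ⟨e⟩ := h
  exact h𝒟.of_isEquiv hB ⟨e.baseChangeAlong (q : A →+* B) hq⟩ (hρ hB q hq hqs)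

/-- Every representation of type `𝒟` over a complete Noetherian local `𝒪`-algebra whose residual
representation is the base change of `ρbar` has a normalised matrix model. -/
theorem exists_good_of_residual_isEquiv (hN : N.rbar = matOfResidual ρbar b)
    (h𝒟 : IsDeformationCondition 𝒪 𝒟) [IsNoetherianRing A]
    [IsAdicComplete (maximalIdeal A) A] [hloc : IsLocalHom (algebraMap 𝒪 A)]
    (hsurj : Function.Surjective (residue A ∘ algebraMap 𝒪 A)) (ρA : GaloisRepAdic A)
    (hD : 𝒟 ρA)
    (hres : ρA.residual.IsEquiv (ρbar.baseChangeAlong (ResidueField.map (algebraMap 𝒪 A)))) :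
    ∃ (r : Gal →* M2 A) (hc : IsCont r), IsGood N 𝒟 r ∧ ρA.IsEquiv (toRep r hc) := by
  obtain ⟨r₁, hc₁, he₁, hr₁⟩ := exists_toRep_of_residual_isEquiv ρbar b _ ρA hres
  have hl₁ : IsLift N r₁ := (isLift_iff_residue N r₁).mpr fun σ i j => by
    rw [hN]
    exact hr₁ σ i j
  obtain ⟨P, P', r₂, h1, h2, h3, hl₂, hn₂⟩ := exists_norm N r₁ hl₁
  have hc₂ : IsCont r₂ := hc₁.conj P P' h1 h3
  have he₂ : (toRep r₁ hc₁).IsEquiv (toRep r₂ hc₂) :=
    toRep_isEquiv_of_conj hc₁ hc₂ P P' h1 h2 h3
  have he : ρA.IsEquiv (toRep r₂ hc₂) := he₁.elim fun e => he₂.elim fun e' => ⟨e.trans e'⟩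
  exact ⟨r₂, hc₂, ⟨hl₂, hn₂, hc₂, isType_of_isEquiv_complete h𝒟 hloc hsurj he hD⟩, he⟩

/-- Two normalised lifts whose representations are equivalent are equal. -/
theorem eq_of_toRep_isEquiv {r r' : Gal →* M2 A} (hl : IsLift N r) (hn : IsNorm N r)
    (hl' : IsLift N r') (hn' : IsNorm N r') (hc : IsCont r) (hc' : IsCont r')
    (h : (toRep r hc).IsEquiv (toRep r' hc')) : r = r' := by
  obtain ⟨P, P', h1, h2, h3⟩ := conj_of_toRep_isEquiv hc hc' h
  exact norm_unique N r r' hl hl' hn hn' P P' h1 h2 h3

/-- The residual representation itself is a normalised lift of type `𝒟`. -/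
theorem isGood_rbar (hN : N.rbar = matOfResidual ρbar b) (h𝒟 : IsDeformationCondition 𝒪 𝒟)
    (hbar : 𝒟 (GaloisRepAdic.ofResidualGaloisRep ρbar)) : IsGood N 𝒟 N.rbar := by
  have hc : IsCont N.rbar := hN ▸ isCont_matOfResidual ρbar b
  refine ⟨fun σ i j => ?_, ⟨N.hg00, N.hg10, (N.hc N.h N.i0 N.j0).symm⟩, hc, ?_⟩
  · have : algebraMap 𝒪 (ResidueField 𝒪) (N.c σ i j) = N.rbar σ i j := N.hc σ i j
    rw [this, sub_self]
    exact Ideal.zero_mem _
  · have h2 : ∀ (r : Gal →* M2 (ResidueField 𝒪)) (hr : IsCont r), r = matOfResidual ρbar b →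
        (GaloisRepAdic.ofResidualGaloisRep ρbar).IsEquiv (toRep r hr) := by
      intro r hr h
      subst h
      exact ofResidual_isEquiv_toRep ρbar b hr
    exact h𝒟.of_isEquiv (GoodIdeals.isArtinianTestAlgebra_residueField 𝒪) (h2 N.rbar hc hN) hbar

/-- An absolutely irreducible residual representation has a normalisation datum. -/
theorem exists_ndata (habs : ρbar.IsAbsolutelyIrreducible) :
    ∃ (N : NData 𝒪) (b : Module.Basis (Fin 2) (ResidueField 𝒪) ρbar.V),
      N.rbar = matOfResidual ρbar b := by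
  obtain ⟨b, g, h, i0, j0, h1, h2, h3⟩ := exists_good_basis ρbar habs
  have hs : ∀ x : ResidueField 𝒪, ∃ a : 𝒪, residue 𝒪 a = x := IsLocalRing.residue_surjective
  choose s hs using hs
  exact ⟨{ rbar := matOfResidual ρbar b
           c := fun σ i j => s (matOfResidual ρbar b σ i j)
           hc := fun σ i j => hs _
           g := g
           h := h
           i0 := i0
           j0 := j0
           hg00 := h1
           hg10 := h2
           hcomm := h3 }, b, rfl⟩

end Fermat.Agent.S53
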