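import Fermat.Agent.S53.ProDefs

set_option autoImplicit false

/-!
Piece P1 of the abstract pro-representability theorem: tangent finiteness gives a finite set
spanning all the cotangent spaces of the family.
-/

namespace Fermat.Agent.S53

open IsLocalRing

namespace TangentAux

variable {𝒪 : Type} [CommRing 𝒪] [IsLocalRing 𝒪] {Λ : Type} [CommRing Λ] [Algebra 𝒪 Λ]
variable (χ : Λ →ₐ[𝒪] ResidueField 𝒪)

/-- Every element of `Λ` is a scalar plus an element of `ker χ`. -/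
theorem exists_sub_mem_ker (t : Λ) :
    ∃ r : 𝒪, residue 𝒪 r = χ t ∧ χ (t - algebraMap 𝒪 Λ r) = 0 := by
  obtain ⟨r, hr⟩ := residue_surjective (χ t)
  refine ⟨r, hr, ?_⟩
  rw [map_sub, AlgHom.commutes, ResidueField.algebraMap_eq, hr, sub_self]

/-- A functional killing `1` and products of elements of `ker χ` is a `χ`-derivation. -/
theorem lam_mul (lam : Λ →ₗ[𝒪] ResidueField 𝒪) (h1 : lam 1 = 0)
    (h2 : ∀ a b : Λ, χ a = 0 → χ b = 0 → lam (a * b) = 0) (a b : Λ) :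
    lam (a * b) = χ a * lam b + χ b * lam a := by
  obtain ⟨r, hr, hr'⟩ := exists_sub_mem_ker χ a
  obtain ⟨s, hs, hs'⟩ := exists_sub_mem_ker χ b
  have h := h2 _ _ hr' hs'
  have e : a * b = (a - algebraMap 𝒪 Λ r) * (b - algebraMap 𝒪 Λ s) + r • b + s • a
      - (r * s) • (1 : Λ) := by
    simp only [Algebra.smul_def, map_mul]; ring
  rw [e, map_sub, map_add, map_add, h, map_smul, map_smul, map_smul, h1, Algebra.smul_def,
    Algebra.smul_def, ResidueField.algebraMap_eq, hr, hs]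
  simp

/-- The algebra hom `t ↦ χ t + ε λ t` attached to a functional `λ` that kills `1` and
`(ker χ)^2`. -/
noncomputable def tangentHom (lam : Λ →ₗ[𝒪] ResidueField 𝒪) (h1 : lam 1 = 0)
    (h2 : ∀ a b : Λ, χ a = 0 → χ b = 0 → lam (a * b) = 0) :
    letI := algDN 𝒪
    Λ →ₐ[𝒪] DualNumber (ResidueField 𝒪) :=
  letI := algDN 𝒪
  { toFun := fun t => TrivSqZeroExt.inl (χ t) + TrivSqZeroExt.inr (lam t)
    map_one' := by
      rw [map_one, h1]
      simp
    map_mul' := by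
      intro a b
      rw [lam_mul χ lam h1 h2 a b]
      ext <;> simp [mul_comm]
    map_zero' := by simp
    map_add' := by
      intro a b
      ext <;> simp
    commutes' := by
      intro r
      have : lam (algebraMap 𝒪 Λ r) = 0 := by
        rw [Algebra.algebraMap_eq_smul_one, map_smul, h1, smul_zero]
      show TrivSqZeroExt.inl (χ (algebraMap 𝒪 Λ r)) + TrivSqZeroExt.inr (lam (algebraMap 𝒪 Λ r))
        = (algebraMap (ResidueField 𝒪) (DualNumber (ResidueField 𝒪)))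
            (algebraMap 𝒪 (ResidueField 𝒪) r)
      rw [this, AlgHom.commutes]
      simp [TrivSqZeroExt.algebraMap_eq_inl] }

theorem tangentHom_apply (lam : Λ →ₗ[𝒪] ResidueField 𝒪) (h1 : lam 1 = 0)
    (h2 : ∀ a b : Λ, χ a = 0 → χ b = 0 → lam (a * b) = 0) (t : Λ) :
    letI := algDN 𝒪
    tangentHom χ lam h1 h2 t = TrivSqZeroExt.inl (χ t) + TrivSqZeroExt.inr (lam t) :=
  rfl

/-- A nonzero element of a module killed by the maximal ideal is detected by a functional to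
the residue field. -/
theorem exists_functional_of_torsion {M : Type} [AddCommGroup M] [Module 𝒪 M]
    (h : Module.IsTorsionBySet 𝒪 M (maximalIdeal 𝒪 : Set 𝒪)) (v : M) (hv : v ≠ 0) :
    ∃ f : M →ₗ[𝒪] ResidueField 𝒪, f v ≠ 0 := by
  let _ : Module (ResidueField 𝒪) M := Module.IsTorsionBySet.module h
  have hst : IsScalarTower 𝒪 (ResidueField 𝒪) M := Module.IsTorsionBySet.isScalarTower h
  by_contra hcon
  simp only [not_exists, not_not] at hcon
  apply hv
  rw [← Module.forall_dual_apply_eq_zero_iff (ResidueField 𝒪) v]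
  intro f
  exact hcon (f.restrictScalars 𝒪)

/-- A functional on `Λ` vanishing on a submodule `W ⊇ ϖ Λ` and not at a given `t ∉ W`. -/
theorem exists_functional (ϖ : 𝒪) (hϖ : maximalIdeal 𝒪 = Ideal.span {ϖ}) (W : Submodule 𝒪 Λ)
    (hW : ∀ x : Λ, algebraMap 𝒪 Λ ϖ * x ∈ W) (t : Λ) (ht : t ∉ W) :
    ∃ lam : Λ →ₗ[𝒪] ResidueField 𝒪, (∀ w ∈ W, lam w = 0) ∧ lam t ≠ 0 := by
  have htors : Module.IsTorsionBySet 𝒪 (Λ ⧸ W) (maximalIdeal 𝒪 : Set 𝒪) := by
    intro q a
    obtain ⟨a, ha⟩ := a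
    have ha' : a ∈ Ideal.span {ϖ} := hϖ ▸ ha
    obtain ⟨c, rfl⟩ := Ideal.mem_span_singleton'.mp ha'
    obtain ⟨x, rfl⟩ := Submodule.Quotient.mk_surjective W q
    show (c * ϖ) • Submodule.Quotient.mk x = 0
    rw [← Submodule.Quotient.mk_smul, Submodule.Quotient.mk_eq_zero]
    have := hW (c • x)
    rwa [← Algebra.smul_def, smul_smul, mul_comm] at this
  have hv : (Submodule.Quotient.mk t : Λ ⧸ W) ≠ 0 := by
    rwa [Ne, Submodule.Quotient.mk_eq_zero]
  obtain ⟨f, hf⟩ := exists_functional_of_torsion htors _ hv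
  refine ⟨f ∘ₗ W.mkQ, ?_, hf⟩
  intro w hw
  have : (Submodule.Quotient.mk w : Λ ⧸ W) = 0 := by rwa [Submodule.Quotient.mk_eq_zero]
  simp [this]

end TangentAux

variable {𝒪 : Type} [CommRing 𝒪] [IsLocalRing 𝒪] {Λ : Type} [CommRing Λ] [Algebra 𝒪 Λ]
variable {χ : Λ →ₐ[𝒪] ResidueField 𝒪} {𝓕 : Set (Ideal Λ)}

open TangentAux in
/-- P1 (tangent finiteness): there is a finite set `S ⊆ ker χ` such that, for every member `I`
of the family, `Λ` is spanned as an `𝒪`-module by `1` and `S` modulo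
`I + (ker χ)^2 + (ϖ)`. -/
theorem exists_finset_span [Finite (ResidueField 𝒪)] (h𝓕 : IsProFamily χ 𝓕) (ϖ : 𝒪)
    (hϖ : maximalIdeal 𝒪 = Ideal.span {ϖ}) :
    ∃ S : Finset Λ, (∀ l ∈ S, χ l = 0) ∧ ∀ I ∈ 𝓕, ∀ t : Λ,
      ∃ p ∈ Submodule.span 𝒪 (insert (1 : Λ) (S : Set Λ)),
        t - p ∈ I ⊔ RingHom.ker χ ^ 2 ⊔ Ideal.span {algebraMap 𝒪 Λ ϖ} := by
  let _ := algDN 𝒪
  have hfin : Finite {ψ : Λ →ₐ[𝒪] DualNumber (ResidueField 𝒪) // RingHom.ker ψ ∈ 𝓕} :=
    h𝓕.tangent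
  -- choose separating elements
  have hsep : ∀ ψ : {ψ : Λ →ₐ[𝒪] DualNumber (ResidueField 𝒪) // RingHom.ker ψ ∈ 𝓕},
      ∃ s : Λ, χ s = 0 ∧ ((∃ t, ψ.1 t ≠ TrivSqZeroExt.inl (χ t)) → ψ.1 s ≠ 0) := by
    intro ψ
    by_cases h : ∃ t, ψ.1 t ≠ TrivSqZeroExt.inl (χ t)
    · obtain ⟨t, ht⟩ := h
      obtain ⟨r, hr, hr'⟩ := exists_sub_mem_ker χ t
      refine ⟨t - algebraMap 𝒪 Λ r, hr', fun _ => ?_⟩
      rw [map_sub, AlgHom.commutes]
      show ψ.1 t - (algebraMap (ResidueField 𝒪) (DualNumber (ResidueField 𝒪)))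
            (algebraMap 𝒪 (ResidueField 𝒪) r) ≠ 0
      rw [ResidueField.algebraMap_eq, hr, TrivSqZeroExt.algebraMap_eq_inl]
      exact sub_ne_zero.mpr ht
    · exact ⟨0, map_zero _, fun h' => absurd h' h⟩
  choose sel hsel0 hsel using hsep
  have := Fintype.ofFinite {ψ : Λ →ₐ[𝒪] DualNumber (ResidueField 𝒪) // RingHom.ker ψ ∈ 𝓕}
  classical
  refine ⟨Finset.univ.image sel, ?_, ?_⟩
  · intro l hl
    obtain ⟨ψ, -, rfl⟩ := Finset.mem_image.mp hl
    exact hsel0 ψ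
  intro I hI t
  by_contra hcon
  simp only [not_exists, not_and] at hcon
  -- the ideal I⁺
  set J : Ideal Λ := I ⊔ RingHom.ker χ ^ 2 ⊔ Ideal.span {algebraMap 𝒪 Λ ϖ} with hJ
  set W : Submodule 𝒪 Λ :=
    Submodule.span 𝒪 (insert (1 : Λ) ((Finset.univ.image sel : Finset Λ) : Set Λ))
      ⊔ J.restrictScalars 𝒪 with hWdef
  have htW : t ∉ W := by
    intro htW
    obtain ⟨p, hp, y, hy, rfl⟩ := Submodule.mem_sup.mp htW
    apply hcon p hp
    simpa using hy
  have hJW : ∀ x ∈ J, x ∈ W := fun x hx =>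
    Submodule.mem_sup_right (by simpa using hx)
  have hϖW : ∀ x : Λ, algebraMap 𝒪 Λ ϖ * x ∈ W := by
    intro x
    apply hJW
    apply Ideal.mem_sup_right
    exact Ideal.mul_mem_right _ _ (Ideal.subset_span rfl)
  obtain ⟨lam, hlamW, hlamt⟩ := exists_functional ϖ hϖ W hϖW t htW
  have h1 : lam 1 = 0 := hlamW 1 (Submodule.mem_sup_left (Submodule.subset_span (by simp)))
  have h2 : ∀ a b : Λ, χ a = 0 → χ b = 0 → lam (a * b) = 0 := by
    intro a b ha hb
    apply hlamW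
    apply hJW
    apply Ideal.mem_sup_left
    apply Ideal.mem_sup_right
    rw [pow_two]
    exact Ideal.mul_mem_mul ha hb
  set Ψ := tangentHom χ lam h1 h2 with hΨ
  have key : ∀ x : Λ, Ψ x = TrivSqZeroExt.inl (χ x) + TrivSqZeroExt.inr (lam x) :=
    fun x => tangentHom_apply χ lam h1 h2 x
  have hker : RingHom.ker Ψ ∈ 𝓕 := by
    refine h𝓕.mem_of_le I hI _ ?_ ?_
    · intro x hx
      rw [RingHom.mem_ker]
      show Ψ x = 0
      rw [key, (h𝓕.le_ker I hI hx : χ x = 0),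
        hlamW x (hJW x (Ideal.mem_sup_left (Ideal.mem_sup_left hx)))]
      simp
    · intro x hx
      rw [RingHom.mem_ker] at hx ⊢
      have hx' : Ψ x = 0 := hx
      rw [key] at hx'
      have := congrArg TrivSqZeroExt.fst hx'
      simpa using this
  have hne : ∃ t, Ψ t ≠ TrivSqZeroExt.inl (χ t) := by
    refine ⟨t, fun h => hlamt ?_⟩
    rw [key] at h
    have := congrArg TrivSqZeroExt.snd h
    simpa using this
  have hs := hsel ⟨Ψ, hker⟩ hne
  apply hs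
  show Ψ (sel ⟨Ψ, hker⟩) = 0
  have hlam0 : lam (sel ⟨Ψ, hker⟩) = 0 := by
    apply hlamW
    apply Submodule.mem_sup_left
    apply Submodule.subset_span
    apply Set.mem_insert_of_mem
    exact Finset.mem_coe.mpr (Finset.mem_image_of_mem _ (Finset.mem_univ _))
  rw [key, hsel0 ⟨Ψ, hker⟩, hlam0]
  simp

end Fermat.Agent.S53
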