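import Fermat.Agent.S53.ProDefs
import Fermat.Agent.S53.Tangent
import Fermat.Agent.S53.ProRep.Main

set_option autoImplicit false

/-!
Abstract pro-representability theorem.
-/

namespace Fermat.Agent.S53

open IsLocalRing

variable {𝒪 : Type} [CommRing 𝒪] [IsLocalRing 𝒪] {Λ : Type} [CommRing Λ] [Algebra 𝒪 Λ]

namespace ProRepAux

theorem chi_surjective (χ : Λ →ₐ[𝒪] ResidueField 𝒪) : Function.Surjective χ := by
  intro y
  obtain ⟨r, hr⟩ := residue_surjective y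
  exact ⟨algebraMap 𝒪 Λ r, by rw [AlgHom.commutes, ResidueField.algebraMap_eq, hr]⟩

theorem ker_isMaximal (χ : Λ →ₐ[𝒪] ResidueField 𝒪) : (RingHom.ker χ).IsMaximal :=
  RingHom.ker_isMaximal_of_surjective (χ : Λ →+* ResidueField 𝒪) (chi_surjective χ)

theorem mk_comp_algebraMap_surjective (χ : Λ →ₐ[𝒪] ResidueField 𝒪) :
    Function.Surjective ((Ideal.Quotient.mk (RingHom.ker χ)).comp (algebraMap 𝒪 Λ)) := by
  intro q
  obtain ⟨t, rfl⟩ := Ideal.Quotient.mk_surjective q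
  obtain ⟨r, -, hr⟩ := TangentAux.exists_sub_mem_ker χ t
  refine ⟨r, ?_⟩
  rw [RingHom.comp_apply, Ideal.Quotient.eq, RingHom.mem_ker, ← neg_sub, map_neg, hr, neg_zero]

theorem chi_algebraMap_eq_zero (χ : Λ →ₐ[𝒪] ResidueField 𝒪) {a : 𝒪} (ha : a ∈ maximalIdeal 𝒪) :
    χ (algebraMap 𝒪 Λ a) = 0 := by
  rw [AlgHom.commutes, ResidueField.algebraMap_eq]
  exact (residue_eq_zero_iff a).mpr ha

theorem exists_gen [Finite (ResidueField 𝒪)] (ϖ : 𝒪) (hϖ : maximalIdeal 𝒪 = Ideal.span {ϖ})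
    (χ : Λ →ₐ[𝒪] ResidueField 𝒪) (𝓕 : Set (Ideal Λ)) (h𝓕 : IsProFamily χ 𝓕) :
    ∃ Z : Set Λ, Z.Finite ∧ Z ⊆ RingHom.ker χ ∧
      ∀ I ∈ 𝓕, RingHom.ker χ ≤ I ⊔ Ideal.span Z := by
  obtain ⟨S, hS0, hS⟩ := exists_finset_span h𝓕 ϖ hϖ
  have hϖm : ϖ ∈ maximalIdeal 𝒪 := by
    rw [hϖ]; exact Ideal.mem_span_singleton_self ϖ
  have hϖker : algebraMap 𝒪 Λ ϖ ∈ RingHom.ker χ :=
    (RingHom.mem_ker).mpr (chi_algebraMap_eq_zero χ hϖm)
  refine ⟨insert (algebraMap 𝒪 Λ ϖ) (S : Set Λ), (Finset.finite_toSet S).insert _, ?_, ?_⟩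
  · rintro x (rfl | hx)
    · exact hϖker
    · exact (RingHom.mem_ker).mpr (hS0 x hx)
  · intro I hI
    have hSspan : Ideal.span (S : Set Λ) ≤ RingHom.ker χ :=
      Ideal.span_le.mpr fun x hx => (RingHom.mem_ker).mpr (hS0 x hx)
    have hϖspan : Ideal.span {algebraMap 𝒪 Λ ϖ} ≤ RingHom.ker χ :=
      (Ideal.span_singleton_le_iff_mem _).mpr hϖker
    have hsq : RingHom.ker χ ^ 2 ≤ RingHom.ker χ := Ideal.pow_le_self two_ne_zero
    have h4 : RingHom.ker χ ≤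
        (I ⊔ Ideal.span (insert (algebraMap 𝒪 Λ ϖ) (S : Set Λ))) ⊔ RingHom.ker χ ^ 2 := by
      intro t ht
      obtain ⟨p, hp, htp⟩ := hS I hI t
      obtain ⟨a, z, hz, rfl⟩ := Submodule.mem_span_insert.mp hp
      have hzS : z ∈ Ideal.span (S : Set Λ) :=
        Submodule.span_le_restrictScalars 𝒪 Λ (S : Set Λ) hz
      have hzker : χ z = 0 := (RingHom.mem_ker).mp (hSspan hzS)
      have htp' : χ (t - (a • (1 : Λ) + z)) = 0 :=
        (RingHom.mem_ker).mp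
          ((sup_le (sup_le (h𝓕.le_ker I hI) hsq) hϖspan) htp)
      have ha : a ∈ maximalIdeal 𝒪 := by
        rw [map_sub, (RingHom.mem_ker).mp ht, map_add, hzker, add_zero, zero_sub, neg_eq_zero,
          Algebra.smul_def, mul_one, AlgHom.commutes, ResidueField.algebraMap_eq] at htp'
        exact (residue_eq_zero_iff a).mp htp'
      rw [hϖ, Ideal.mem_span_singleton'] at ha
      obtain ⟨b, rfl⟩ := ha
      have hp' : (b * ϖ) • (1 : Λ) + z ∈ Ideal.span (insert (algebraMap 𝒪 Λ ϖ) (S : Set Λ)) := by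
        refine Ideal.add_mem _ ?_ (Ideal.span_mono (Set.subset_insert _ _) hzS)
        rw [Algebra.smul_def, mul_one, map_mul]
        exact Ideal.mul_mem_left _ _ (Ideal.subset_span (Set.mem_insert _ _))
      have hspan' : Ideal.span {algebraMap 𝒪 Λ ϖ} ≤
          Ideal.span (insert (algebraMap 𝒪 Λ ϖ) (S : Set Λ)) :=
        Ideal.span_mono (Set.singleton_subset_iff.mpr (Set.mem_insert _ _))
      have hle : I ⊔ RingHom.ker χ ^ 2 ⊔ Ideal.span {algebraMap 𝒪 Λ ϖ} ≤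
          (I ⊔ Ideal.span (insert (algebraMap 𝒪 Λ ϖ) (S : Set Λ))) ⊔ RingHom.ker χ ^ 2 :=
        sup_le (sup_le (le_sup_of_le_left le_sup_left) le_sup_right)
          (hspan'.trans (le_sup_of_le_left le_sup_right))
      have : t = (t - ((b * ϖ) • (1 : Λ) + z)) + ((b * ϖ) • (1 : Λ) + z) := by ring
      rw [this]
      exact Ideal.add_mem _ (hle htp) (Ideal.mem_sup_left (Ideal.mem_sup_right hp'))
    obtain ⟨n, hn⟩ := h𝓕.pow_le I hI
    exact ProRep.le_of_le_sup_sq _ _ h4 n (hn.trans le_sup_left)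

omit [IsLocalRing 𝒪] in
theorem ker_mk_comp {R : Type} [CommRing R] [Algebra 𝒪 R] (ι : Λ →ₐ[𝒪] R) (I : Ideal R) :
    RingHom.ker ((Ideal.Quotient.mk I).comp (ι : Λ →+* R)) = Ideal.comap ι I := by
  ext x
  rw [RingHom.mem_ker, RingHom.comp_apply, Ideal.Quotient.eq_zero_iff_mem, Ideal.mem_comap]
  rfl

end ProRepAux

theorem exists_proRep [IsNoetherianRing 𝒪] [Finite (ResidueField 𝒪)] (ϖ : 𝒪)
    (hϖ : maximalIdeal 𝒪 = Ideal.span {ϖ})
    (χ : Λ →ₐ[𝒪] ResidueField 𝒪) (𝓕 : Set (Ideal Λ)) (h𝓕 : IsProFamily χ 𝓕) :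
    ∃ (R : Type) (_ : CommRing R) (_ : IsLocalRing R) (_ : IsNoetherianRing R)
      (_ : IsAdicComplete (maximalIdeal R) R) (_ : Algebra 𝒪 R)
      (_ : IsLocalHom (algebraMap 𝒪 R)) (ι : Λ →ₐ[𝒪] R),
      Function.Surjective (residue R ∘ algebraMap 𝒪 R) ∧
      (∀ t, χ t = 0 → ι t ∈ maximalIdeal R) ∧
      (∀ n : ℕ, Ideal.comap ι (maximalIdeal R ^ (n + 1)) ∈ 𝓕) ∧
      (∀ (n : ℕ) (x : R), ∃ t : Λ, x - ι t ∈ maximalIdeal R ^ n) ∧
      ∀ (A : Type) [CommRing A] [IsLocalRing A] [IsNoetherianRing A]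
        [IsAdicComplete (maximalIdeal A) A] [Algebra 𝒪 A] (f : Λ →ₐ[𝒪] A),
        (∀ n : ℕ, Ideal.comap f (maximalIdeal A ^ (n + 1)) ∈ 𝓕) →
        ∃ φ : R →ₐ[𝒪] A, IsLocalHom (φ : R →+* A) ∧ φ.comp ι = f := by
  obtain ⟨R, iR1, iR2, iR3, iR4, iR5, iR6, ι, hres, hsurjlev, hmem, -, huniv⟩ :=
    ProRep.exists_proRep_of_gen (𝒪 := 𝒪) (RingHom.ker χ) (ProRepAux.ker_isMaximal χ)
      (ProRepAux.mk_comp_algebraMap_surjective χ) 𝓕 h𝓕.le_ker h𝓕.pow_le h𝓕.finite h𝓕.inf_mem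
      h𝓕.mem_of_le h𝓕.ker_mem (ProRepAux.exists_gen ϖ hϖ χ 𝓕 h𝓕)
  refine ⟨R, iR1, iR2, iR3, iR4, iR5, iR6, ι, hres, ?_, ?_, ?_, ?_⟩
  · intro t ht
    by_contra hnot
    have hu : IsUnit (ι t) := by
      by_contra h
      exact hnot ((IsLocalRing.mem_maximalIdeal _).mpr h)
    obtain ⟨u, hu⟩ := hu
    obtain ⟨s, hs⟩ := hsurjlev 0 (Ideal.Quotient.mk _ ((u⁻¹ : Rˣ) : R))
    rw [RingHom.comp_apply, Ideal.Quotient.eq] at hs
    have h1 : t * s - 1 ∈ RingHom.ker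
        ((Ideal.Quotient.mk (maximalIdeal R ^ (0 + 1))).comp (ι : Λ →+* R)) := by
      rw [RingHom.mem_ker, RingHom.comp_apply, Ideal.Quotient.eq_zero_iff_mem]
      have h3 : (ι : Λ →+* R) (t * s - 1) =
          (u : R) * ((ι : Λ →+* R) s - ((u⁻¹ : Rˣ) : R)) := by
        rw [map_sub, map_mul, map_one, mul_sub, Units.mul_inv, hu]
        rfl
      rw [h3]
      exact Ideal.mul_mem_left _ _ hs
    have h2 := h𝓕.le_ker _ (hmem 0) h1
    rw [RingHom.mem_ker, map_sub, map_mul, ht, zero_mul, map_one, zero_sub, neg_eq_zero] at h2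
    exact one_ne_zero h2
  · intro n
    rw [← ProRepAux.ker_mk_comp]
    exact hmem n
  · intro n x
    obtain ⟨t, ht⟩ := hsurjlev n (Ideal.Quotient.mk _ x)
    rw [RingHom.comp_apply, Ideal.Quotient.eq] at ht
    refine ⟨t, ?_⟩
    have h1 : x - ι t = -((ι : Λ →+* R) t - x) := by
      rw [neg_sub]; rfl
    rw [h1]
    exact neg_mem (Ideal.pow_le_pow_right (Nat.le_succ n) ht)
  · intro A _ _ _ _ _ f hf
    obtain ⟨⟨φ, hφ, -⟩, hloc⟩ := huniv A f (fun n => by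
      rw [ProRepAux.ker_mk_comp]; exact hf n)
    exact ⟨φ, hloc φ hφ, hφ⟩

end Fermat.Agent.S53
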