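import Fermat.Agent.S53.Rep
import Fermat.Agent.S53.Normal
import Fermat.Agent.S53.ProDefs

set_option autoImplicit false
set_option linter.style.haveILetI false

/-!
Finiteness of the set of normalised lifts of type `𝒟` over the dual numbers, from the Prelude's
`GaloisRep.TangentFinite`.
-/

namespace Fermat.Agent.S53

open IsLocalRing GaloisRep

variable {𝒪 : Type} [CommRing 𝒪] [IsLocalRing 𝒪] (N : NData 𝒪)
variable (ρbar : ResidualGaloisRep (ResidueField 𝒪))
  (b : Module.Basis (Fin 2) (ResidueField 𝒪) ρbar.V)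
variable (𝒟 : ∀ ⦃A : Type⦄ [CommRing A] [IsLocalRing A] [Algebra 𝒪 A], GaloisRepAdic A → Prop)

namespace TangentFinAux

/-- The structure map from the residue field to the residue field of its dual numbers, as used by
the Prelude in `GaloisRep.TangentFinite`. -/
noncomputable abbrev phiDN (k : Type) [Field k] : k →+* ResidueField (DualNumber k) :=
  (residue (DualNumber k)).comp (algebraMap k (DualNumber k))

theorem residue_eq_of_isLift (hN : N.rbar = matOfResidual ρbar b)
    (r : Gal →* M2 (DualNumber (ResidueField 𝒪)))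
    (hl : letI := algDN 𝒪; IsLift N r) (σ : Gal) (i j : Fin 2) :
    residue (DualNumber (ResidueField 𝒪)) (r σ i j) =
      phiDN (ResidueField 𝒪) (matOfResidual ρbar b σ i j) := by
  letI := algDN 𝒪
  have h := hl σ i j
  rw [← residue_eq_zero_iff, map_sub, sub_eq_zero] at h
  rw [h, ← hN, ← N.hc σ i j]
  rfl

theorem finite_of_quotient {α : Type} {β : Type 1} (s : Setoid β) (h : Finite (Quotient s))
    (f : α → β) (hf : ∀ a a', s.r (f a) (f a') → a = a') : Finite α :=
  Finite.of_injective (fun a => Quotient.mk s (f a)) (fun a a' h => hf a a' (Quotient.exact h))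

end TangentFinAux

open TangentFinAux in
theorem finite_good_dualNumber (hN : N.rbar = matOfResidual ρbar b)
    (hfin : TangentFinite 𝒪 ρbar 𝒟) :
    letI := algDN 𝒪
    Finite {r : Gal →* M2 (DualNumber (ResidueField 𝒪)) // IsGood N 𝒟 r} := by
  letI := algDN 𝒪
  letI : Algebra (ResidueField 𝒪) (ResidueField (DualNumber (ResidueField 𝒪))) :=
    ((IsLocalRing.residue (DualNumber (ResidueField 𝒪))).comp
      (algebraMap (ResidueField 𝒪) (DualNumber (ResidueField 𝒪)))).toAlgebra
  delta TangentFinite at hfin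
  refine finite_of_quotient _ hfin (fun r : {r : Gal →* M2 (DualNumber (ResidueField 𝒪)) //
      IsGood N 𝒟 r} => ⟨toRep r.1 r.2.2.2.choose, r.2.2.2.choose_spec,
        residual_toRep_isEquiv ρbar b (phiDN (ResidueField 𝒪)) r.1 r.2.2.2.choose
          (residue_eq_of_isLift N ρbar b hN r.1 r.2.1)⟩) ?_
  rintro ⟨r, hr⟩ ⟨r', hr'⟩ h
  obtain ⟨P, P', h1, h2', h3⟩ := conj_of_toRep_isEquiv hr.2.2.choose hr'.2.2.choose h
  exact Subtype.ext (norm_unique N r r' hr.1 hr'.1 hr.2.1 hr'.2.1 P P' h1 h2' h3)

end Fermat.Agent.S53
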