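import Mathlib
import Fermat.Prelude.Def_GaloisRep_DeformationRingData
import Fermat.Prelude.Def_GaloisRep_DeformationCondition

set_option autoImplicit false

namespace Fermat.Agent.S53

open IsLocalRing

/-- The absolute Galois group of `ℚ`. -/
abbrev Gal : Type := AlgebraicClosure ℚ ≃ₐ[ℚ] AlgebraicClosure ℚ

/-- Two by two matrices. -/
abbrev M2 (A : Type) : Type := Matrix (Fin 2) (Fin 2) A

section Cont

variable {A : Type} [CommRing A] [IsLocalRing A]

/-- Adic continuity of a matrix valued representation. -/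
def IsCont (r : Gal →* M2 A) : Prop :=
  ∀ n : ℕ, ∃ L : IntermediateField ℚ (AlgebraicClosure ℚ), FiniteDimensional ℚ L ∧
    ∀ σ : Gal, (∀ x ∈ L, σ x = x) → ∀ i j, (r σ - 1) i j ∈ maximalIdeal A ^ n

omit [IsLocalRing A] in
theorem mem_smul_top_pi (I : Ideal A) (v : Fin 2 → A) (hv : ∀ i, v i ∈ I) :
    v ∈ I • (⊤ : Submodule A (Fin 2 → A)) := by
  have : v = ∑ i, v i • (Pi.single i (1 : A) : Fin 2 → A) := by
    funext j
    simp [Finset.sum_apply, Pi.single_apply]
  rw [this]
  exact Submodule.sum_mem _ fun i _ => Submodule.smul_mem_smul (hv i) Submodule.mem_top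

/-- The `GaloisRepAdic` attached to a continuous matrix representation. -/
noncomputable def toRep (r : Gal →* M2 A) (hr : IsCont r) : GaloisRepAdic A where
  V := Fin 2 → A
  finrank_eq := by simp
  ρ := (Matrix.toLinAlgEquiv' (R := A) (n := Fin 2) : M2 A →* Module.End A (Fin 2 → A)).comp r
  isAdicContinuous := by
    intro n
    obtain ⟨L, hL, h⟩ := hr n
    refine ⟨L, hL, fun σ hσ v => ?_⟩
    apply mem_smul_top_pi
    intro i
    have h1 : ((Matrix.toLinAlgEquiv' (R := A) (n := Fin 2) : M2 A →* Module.End A (Fin 2 → A)).comp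
        r σ) v - v = (r σ - 1).mulVec v := by
      simp [Matrix.sub_mulVec]
    rw [h1]
    simp only [Matrix.mulVec, dotProduct]
    exact Ideal.sum_mem _ fun j _ => Ideal.mul_mem_right _ _ (h σ hσ i j)

/-- Push a matrix representation forward along a ring homomorphism. -/
noncomputable def mapRep {B : Type} [CommRing B] (φ : A →+* B) (r : Gal →* M2 A) : Gal →* M2 B :=
  (φ.mapMatrix (m := Fin 2)).toMonoidHom.comp r

omit [IsLocalRing A] in
@[simp] theorem mapRep_apply {B : Type} [CommRing B] (φ : A →+* B) (r : Gal →* M2 A) (σ : Gal)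
    (i j : Fin 2) : mapRep φ r σ i j = φ (r σ i j) := rfl

end Cont

/-- The matrices of a residual representation in a basis. -/
noncomputable def matOfResidual {k : Type} [Field k] (ρbar : ResidualGaloisRep k)
    (b : Module.Basis (Fin 2) k ρbar.V) : Gal →* M2 k :=
  (LinearMap.toMatrixAlgEquiv b : Module.End k ρbar.V →* M2 k).comp ρbar.ρ

/-- Normalisation datum: a matrix model of the residual representation, an entrywise lift of it,
and the two group elements and the matrix entry used to rigidify lifts. -/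
structure NData (𝒪 : Type) [CommRing 𝒪] [IsLocalRing 𝒪] where
  rbar : Gal →* M2 (ResidueField 𝒪)
  c : Gal → M2 𝒪
  hc : ∀ σ i j, residue 𝒪 (c σ i j) = rbar σ i j
  g : Gal
  h : Gal
  i0 : Fin 2
  j0 : Fin 2
  hg00 : rbar g 0 0 = 0
  hg10 : rbar g 1 0 = 1
  hcomm : (rbar h * rbar g - rbar g * rbar h) i0 j0 ≠ 0

section Lift

variable {𝒪 : Type} [CommRing 𝒪] [IsLocalRing 𝒪] (N : NData 𝒪)
variable {A : Type} [CommRing A] [IsLocalRing A] [Algebra 𝒪 A]

/-- `r` lifts the residual representation (entrywise congruent to the chosen lift `N.c`). -/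
def IsLift (r : Gal →* M2 A) : Prop :=
  ∀ σ i j, r σ i j - algebraMap 𝒪 A (N.c σ i j) ∈ maximalIdeal A

/-- `r` is in normal form. -/
def IsNorm (r : Gal →* M2 A) : Prop :=
  r N.g 0 0 = 0 ∧ r N.g 1 0 = 1 ∧ r N.h N.i0 N.j0 = algebraMap 𝒪 A (N.c N.h N.i0 N.j0)

/-- A normalised lift of type `𝒟`. -/
def IsGood (𝒟 : ∀ ⦃A : Type⦄ [CommRing A] [IsLocalRing A] [Algebra 𝒪 A], GaloisRepAdic A → Prop)
    (r : Gal →* M2 A) : Prop :=
  IsLift N r ∧ IsNorm N r ∧ ∃ hc : IsCont r, 𝒟 (toRep r hc)

end Lift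

end Fermat.Agent.S53
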