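import Fermat.Agent.S53.ProDefs

set_option autoImplicit false

/-!
Piece P2 of the abstract pro-representability theorem (Nakayama): a power series ring in
finitely many variables surjects onto every quotient of the family.
-/

namespace Fermat.Agent.S53

namespace GenSurjAux

/-- Nakayama for a nilpotent ideal: `m ≤ a ⊔ m ^ 2` and `m ^ n = ⊥` imply `m ≤ a`. -/
theorem le_of_le_sup_sq {B : Type*} [CommRing B] (m a : Ideal B) (n : ℕ) (hn : m ^ n = ⊥)
    (h : m ≤ a ⊔ m ^ 2) : m ≤ a := by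
  have key : ∀ k : ℕ, m ≤ a ⊔ m ^ (k + 1) := by
    intro k
    induction k with
    | zero => simp
    | succ k ih =>
      have h2 : m ^ 2 ≤ a ⊔ m ^ (k + 1 + 1) := by
        calc m ^ 2 = m * m := pow_two m
          _ ≤ (a ⊔ m ^ (k + 1)) * m := Ideal.mul_mono_left ih
          _ = a * m ⊔ m ^ (k + 1) * m := Ideal.sup_mul _ _ _
          _ ≤ a ⊔ m ^ (k + 1 + 1) := sup_le_sup Ideal.mul_le_left (by rw [← pow_succ])
      exact h.trans (sup_le le_sup_left h2)
  have h3 := key n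
  rw [pow_succ, hn, Ideal.bot_mul, sup_bot_eq] at h3
  exact h3

/-- A subalgebra `T` containing generators of a nilpotent ideal `𝔞` with `B = T + 𝔞` is
everything. -/
theorem eq_top_of_add_span {𝒪 B : Type*} [CommRing 𝒪] [CommRing B] [Algebra 𝒪 B]
    (T : Subalgebra 𝒪 B) (G : Set B) (hG : G ⊆ T) (n : ℕ) (hn : Ideal.span G ^ n = ⊥)
    (h : ∀ b : B, ∃ t ∈ T, b - t ∈ Ideal.span G) : T = ⊤ := by
  have key : ∀ k : ℕ, ∀ b : B, ∃ t ∈ T, b - t ∈ Ideal.span G ^ (k + 1) := by
    intro k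
    induction k with
    | zero => simpa using h
    | succ k ih =>
      have step : ∀ x ∈ Ideal.span G, ∀ b : B,
          ∃ t ∈ T, b * x - t ∈ Ideal.span G ^ (k + 1 + 1) := by
        intro x hx
        induction hx using Submodule.span_induction with
        | mem g hg =>
          intro b
          obtain ⟨t, ht, hbt⟩ := ih b
          refine ⟨t * g, T.mul_mem ht (hG hg), ?_⟩
          have h1 : b * g - t * g = (b - t) * g := by ring
          rw [h1, pow_succ (Ideal.span G) (k + 1)]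
          exact Ideal.mul_mem_mul hbt (Ideal.subset_span hg)
        | zero => intro b; exact ⟨0, T.zero_mem, by simp⟩
        | add x y _ _ hx hy =>
          intro b
          obtain ⟨t1, ht1, h1⟩ := hx b
          obtain ⟨t2, ht2, h2⟩ := hy b
          refine ⟨t1 + t2, T.add_mem ht1 ht2, ?_⟩
          have h3 : b * (x + y) - (t1 + t2) = (b * x - t1) + (b * y - t2) := by ring
          rw [h3]
          exact Ideal.add_mem _ h1 h2
        | smul c x _ hx =>
          intro b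
          obtain ⟨t, ht, h1⟩ := hx (b * c)
          refine ⟨t, ht, ?_⟩
          have h3 : b * (c • x) - t = b * c * x - t := by rw [smul_eq_mul]; ring
          rw [h3]; exact h1
      intro b
      obtain ⟨t, ht, hbt⟩ := h b
      obtain ⟨t', ht', h'⟩ := step (b - t) hbt 1
      refine ⟨t + t', T.add_mem ht ht', ?_⟩
      have h3 : b - (t + t') = 1 * (b - t) - t' := by ring
      rw [h3]; exact h'
  rw [eq_top_iff]
  intro b _
  obtain ⟨t, ht, hbt⟩ := key n b
  rw [pow_succ, hn, Ideal.bot_mul, Ideal.mem_bot, sub_eq_zero] at hbt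
  rw [hbt]; exact ht

end GenSurjAux

open IsLocalRing

variable {𝒪 : Type} [CommRing 𝒪] [IsLocalRing 𝒪] {Λ : Type} [CommRing Λ] [Algebra 𝒪 Λ]
variable {χ : Λ →ₐ[𝒪] ResidueField 𝒪} {𝓕 : Set (Ideal Λ)}

/-- P2 (Nakayama): an algebra map from the power series ring in the variables `Option S` which
sends the variables to `ϖ` and to the classes of the elements of `S` is surjective onto `Λ ⧸ I`,
for `I` in the family. -/
theorem surjective_of_span [IsNoetherianRing 𝒪] (h𝓕 : IsProFamily χ 𝓕) (ϖ : 𝒪)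
    (hϖ : maximalIdeal 𝒪 = Ideal.span {ϖ}) (S : Finset Λ) (hS0 : ∀ l ∈ S, χ l = 0)
    (hS : ∀ I ∈ 𝓕, ∀ t : Λ, ∃ p ∈ Submodule.span 𝒪 (insert (1 : Λ) (S : Set Λ)),
        t - p ∈ I ⊔ RingHom.ker χ ^ 2 ⊔ Ideal.span {algebraMap 𝒪 Λ ϖ})
    (I : Ideal Λ) (hI : I ∈ 𝓕) (θ : MvPowerSeries (Option S) 𝒪 →ₐ[𝒪] Λ ⧸ I)
    (hθ : ∀ l : S, θ (MvPowerSeries.X (some l)) = Ideal.Quotient.mk I (l : Λ))
    (hθ0 : θ (MvPowerSeries.X none) = algebraMap 𝒪 (Λ ⧸ I) ϖ) : Function.Surjective θ := by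
  have hmks : Function.Surjective (Ideal.Quotient.mk I) := Ideal.Quotient.mk_surjective
  have hIle : I ≤ RingHom.ker χ := h𝓕.le_ker I hI
  obtain ⟨n, hn⟩ := h𝓕.pow_le I hI
  have halg : ∀ c : 𝒪, algebraMap 𝒪 (Λ ⧸ I) c = Ideal.Quotient.mk I (algebraMap 𝒪 Λ c) :=
    fun _ => rfl
  have hχϖ : χ (algebraMap 𝒪 Λ ϖ) = 0 := by
    rw [AlgHom.commutes]
    exact (IsLocalRing.residue_eq_zero_iff ϖ).mpr (by rw [hϖ]; exact Ideal.mem_span_singleton_self ϖ)
  -- the maximal ideal of the quotient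
  have hmBn : ((RingHom.ker χ).map (Ideal.Quotient.mk I)) ^ n = ⊥ := by
    rw [← Ideal.map_pow, eq_bot_iff]
    refine (Ideal.map_mono hn).trans ?_
    rw [Ideal.map_quotient_self]
  -- the generators
  have hGle : Ideal.span (insert (algebraMap 𝒪 (Λ ⧸ I) ϖ) (Ideal.Quotient.mk I '' (S : Set Λ))) ≤
      (RingHom.ker χ).map (Ideal.Quotient.mk I) := by
    rw [Ideal.span_le]
    rintro x (rfl | ⟨l, hl, rfl⟩)
    · rw [halg]
      exact Ideal.mem_map_of_mem _ (by rw [RingHom.mem_ker]; exact hχϖ)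
    · exact Ideal.mem_map_of_mem _ (by rw [RingHom.mem_ker]; exact hS0 l hl)
  -- span of `S` over `𝒪` maps into the ideal generated by the generators
  have hspanS : ∀ s ∈ Submodule.span 𝒪 (S : Set Λ), Ideal.Quotient.mk I s ∈
      Ideal.span (insert (algebraMap 𝒪 (Λ ⧸ I) ϖ) (Ideal.Quotient.mk I '' (S : Set Λ))) ∧
      χ s = 0 := by
    intro s hs
    induction hs using Submodule.span_induction with
    | mem l hl =>
      exact ⟨Ideal.subset_span (Set.mem_insert_of_mem _ ⟨l, hl, rfl⟩), hS0 l hl⟩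
    | zero => exact ⟨by rw [map_zero]; exact Ideal.zero_mem _, map_zero _⟩
    | add x y _ _ hx hy =>
      exact ⟨by rw [map_add]; exact Ideal.add_mem _ hx.1 hy.1, by rw [map_add, hx.2, hy.2, add_zero]⟩
    | smul c x _ hx =>
      refine ⟨?_, by rw [map_smul, hx.2, smul_zero]⟩
      rw [Algebra.smul_def, map_mul]
      exact Ideal.mul_mem_left _ _ hx.1
  -- Step 1: Nakayama in the quotient
  have hstep1 : (RingHom.ker χ).map (Ideal.Quotient.mk I) ≤
      Ideal.span (insert (algebraMap 𝒪 (Λ ⧸ I) ϖ) (Ideal.Quotient.mk I '' (S : Set Λ))) := by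
    refine GenSurjAux.le_of_le_sup_sq _ _ n hmBn ?_
    intro x hx
    obtain ⟨t, ht, rfl⟩ := (Ideal.mem_map_iff_of_surjective _ hmks).mp hx
    obtain ⟨p, hp, htp⟩ := hS I hI t
    have hle : I ⊔ RingHom.ker χ ^ 2 ⊔ Ideal.span {algebraMap 𝒪 Λ ϖ} ≤ RingHom.ker χ := by
      refine sup_le (sup_le hIle (Ideal.pow_le_self two_ne_zero)) ?_
      rw [Ideal.span_le, Set.singleton_subset_iff]
      exact hχϖ
    have hχp : χ p = 0 := by
      have h1 : χ (t - p) = 0 := hle htp
      rw [map_sub, ht, zero_sub, neg_eq_zero] at h1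
      exact h1
    -- the class of `t - p`
    have h1 : Ideal.Quotient.mk I (t - p) ∈
        Ideal.span (insert (algebraMap 𝒪 (Λ ⧸ I) ϖ) (Ideal.Quotient.mk I '' (S : Set Λ))) ⊔
        ((RingHom.ker χ).map (Ideal.Quotient.mk I)) ^ 2 := by
      have h2 : Ideal.Quotient.mk I (t - p) ∈
          (I ⊔ RingHom.ker χ ^ 2 ⊔ Ideal.span {algebraMap 𝒪 Λ ϖ}).map (Ideal.Quotient.mk I) :=
        Ideal.mem_map_of_mem _ htp
      rw [Ideal.map_sup, Ideal.map_sup, Ideal.map_quotient_self, bot_sup_eq, Ideal.map_pow,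
        Ideal.map_span, Set.image_singleton, sup_comm] at h2
      have hle2 : Ideal.span {Ideal.Quotient.mk I (algebraMap 𝒪 Λ ϖ)} ⊔
          ((RingHom.ker χ).map (Ideal.Quotient.mk I)) ^ 2 ≤
          Ideal.span (insert (algebraMap 𝒪 (Λ ⧸ I) ϖ) (Ideal.Quotient.mk I '' (S : Set Λ))) ⊔
          ((RingHom.ker χ).map (Ideal.Quotient.mk I)) ^ 2 := by
        refine sup_le_sup_right (Ideal.span_mono ?_) _
        rw [Set.singleton_subset_iff]
        exact Set.mem_insert _ _
      exact hle2 h2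
    -- the class of `p`
    have h2 : Ideal.Quotient.mk I p ∈
        Ideal.span (insert (algebraMap 𝒪 (Λ ⧸ I) ϖ) (Ideal.Quotient.mk I '' (S : Set Λ))) := by
      obtain ⟨c, s, hs, rfl⟩ := Submodule.mem_span_insert.mp hp
      obtain ⟨hs1, hs2⟩ := hspanS s hs
      have hc : c ∈ maximalIdeal 𝒪 := by
        rw [map_add, hs2, add_zero, map_smul, map_one, Algebra.smul_def, mul_one] at hχp
        exact (IsLocalRing.residue_eq_zero_iff c).mp hχp
      rw [hϖ, Ideal.mem_span_singleton'] at hc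
      obtain ⟨c', rfl⟩ := hc
      rw [map_add]
      refine Ideal.add_mem _ ?_ hs1
      rw [Algebra.smul_def, mul_one, ← halg, map_mul]
      exact Ideal.mul_mem_left _ _ (Ideal.subset_span (Set.mem_insert _ _))
    have h3 : Ideal.Quotient.mk I t = Ideal.Quotient.mk I p + Ideal.Quotient.mk I (t - p) := by
      rw [← map_add]; congr 1; ring
    rw [h3]
    exact Ideal.add_mem _ (Ideal.mem_sup_left h2) h1
  -- Step 2: the range of `θ` is everything
  have hrange : θ.range = ⊤ := by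
    refine GenSurjAux.eq_top_of_add_span θ.range
      (insert (algebraMap 𝒪 (Λ ⧸ I) ϖ) (Ideal.Quotient.mk I '' (S : Set Λ))) ?_ n ?_ ?_
    · rintro x (rfl | ⟨l, hl, rfl⟩)
      · exact θ.range.algebraMap_mem ϖ
      · exact ⟨MvPowerSeries.X (some ⟨l, hl⟩), hθ ⟨l, hl⟩⟩
    · rw [eq_bot_iff, ← hmBn]
      exact Ideal.pow_right_mono hGle n
    · intro b
      obtain ⟨t, rfl⟩ := hmks b
      obtain ⟨c, hc⟩ := IsLocalRing.residue_surjective (χ t)
      refine ⟨algebraMap 𝒪 (Λ ⧸ I) c, θ.range.algebraMap_mem c, hstep1 ?_⟩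
      rw [halg, ← map_sub]
      refine Ideal.mem_map_of_mem _ ?_
      rw [RingHom.mem_ker, map_sub, AlgHom.commutes, sub_eq_zero]
      exact hc.symm
  intro b
  have hb : b ∈ θ.range := by rw [hrange]; exact Algebra.mem_top
  exact hb

end Fermat.Agent.S53
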