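import Fermat.Agent.S53.Defs
import Fermat.Prelude.Thm_IsAdicComplete_of_module_finite

set_option autoImplicit false
set_option linter.unusedSectionVars false

/-!
Piece E: facts on multivariate power series rings.
-/

namespace Fermat.Agent.S53

open IsLocalRing MvPowerSeries

variable {𝒪 : Type} [CommRing 𝒪] {ι : Type} [Finite ι]

/-- The ideal generated by the variables. -/
noncomputable abbrev varIdeal (𝒪 : Type) [CommRing 𝒪] (ι : Type) : Ideal (MvPowerSeries ι 𝒪) :=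
  Ideal.span (Set.range (MvPowerSeries.X : ι → MvPowerSeries ι 𝒪))

namespace PowSerAux

omit [Finite ι] in
theorem algebraMap_poly (p : MvPolynomial ι 𝒪) :
    algebraMap (MvPolynomial ι 𝒪) (MvPowerSeries ι 𝒪) p = (p : MvPowerSeries ι 𝒪) := by
  rw [MvPowerSeries.algebraMap_apply']
  simp

theorem truncTotalAlgHom_X (n : ℕ) (i : ι) :
    truncTotalAlgHom ι 𝒪 n (MvPowerSeries.X i) =
      Ideal.Quotient.mk (MvPolynomial.idealOfVars ι 𝒪 ^ n) (MvPolynomial.X i) := by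
  have h := (truncTotalAlgHom ι 𝒪 n).commutes (MvPolynomial.X i)
  rw [Ideal.Quotient.algebraMap_eq, algebraMap_poly, MvPolynomial.coe_X] at h
  exact h

/-- The truncation map kills the `n`-th power of the ideal of variables. -/
theorem truncTotalAlgHom_eq_zero_of_mem (n : ℕ) (f : MvPowerSeries ι 𝒪)
    (hf : f ∈ varIdeal 𝒪 ι ^ n) : truncTotalAlgHom ι 𝒪 n f = 0 := by
  have h1 : (varIdeal 𝒪 ι).map (truncTotalAlgHom ι 𝒪 n).toRingHom ≤
      (MvPolynomial.idealOfVars ι 𝒪).map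
        (Ideal.Quotient.mk (MvPolynomial.idealOfVars ι 𝒪 ^ n)) := by
    rw [Ideal.map_span, Ideal.span_le]
    rintro _ ⟨_, ⟨i, rfl⟩, rfl⟩
    change truncTotalAlgHom ι 𝒪 n (MvPowerSeries.X i) ∈ _
    rw [truncTotalAlgHom_X]
    exact Ideal.mem_map_of_mem _ (Ideal.subset_span ⟨i, rfl⟩)
  have h2 : (varIdeal 𝒪 ι ^ n).map (truncTotalAlgHom ι 𝒪 n).toRingHom ≤ ⊥ := by
    rw [Ideal.map_pow]
    refine (Ideal.pow_right_mono h1 n).trans ?_
    rw [← Ideal.map_pow, Ideal.map_quotient_self]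
  have h3 := h2 (Ideal.mem_map_of_mem _ hf)
  simpa using h3

theorem coeff_eq_zero_of_mem (n : ℕ) (f : MvPowerSeries ι 𝒪)
    (hf : f ∈ varIdeal 𝒪 ι ^ n) (d : ι →₀ ℕ) (hd : d.degree < n) :
    MvPowerSeries.coeff d f = 0 := by
  have h := truncTotalAlgHom_eq_zero_of_mem n f hf
  rw [truncTotalAlgHom_apply, Ideal.Quotient.eq_zero_iff_mem,
    MvPolynomial.mem_pow_idealOfVars_iff'] at h
  rw [← coeff_truncTotal _ hd]
  exact h d hd

omit [Finite ι] in
theorem map_idealOfVars_le :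
    (MvPolynomial.idealOfVars ι 𝒪).map (algebraMap (MvPolynomial ι 𝒪) (MvPowerSeries ι 𝒪)) ≤
      varIdeal 𝒪 ι := by
  rw [Ideal.map_span, Ideal.span_le]
  rintro _ ⟨_, ⟨i, rfl⟩, rfl⟩
  rw [algebraMap_poly, MvPolynomial.coe_X]
  exact Ideal.subset_span ⟨i, rfl⟩

omit [Finite ι] in
theorem pow_smul_top_le (n : ℕ) :
    (MvPolynomial.idealOfVars ι 𝒪 ^ n) •
      (⊤ : Submodule (MvPolynomial ι 𝒪) (MvPowerSeries ι 𝒪)) ≤
      (varIdeal 𝒪 ι ^ n).restrictScalars (MvPolynomial ι 𝒪) := by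
  rw [Submodule.smul_le]
  intro p hp g _
  rw [Submodule.restrictScalars_mem, Algebra.smul_def]
  refine Ideal.mul_mem_right _ _ ?_
  have h1 : algebraMap (MvPolynomial ι 𝒪) (MvPowerSeries ι 𝒪) p ∈
      (MvPolynomial.idealOfVars ι 𝒪 ^ n).map
        (algebraMap (MvPolynomial ι 𝒪) (MvPowerSeries ι 𝒪)) := Ideal.mem_map_of_mem _ hp
  rw [Ideal.map_pow] at h1
  exact Ideal.pow_right_mono map_idealOfVars_le n h1

theorem mem_of_coeff_eq_zero (n : ℕ) (f : MvPowerSeries ι 𝒪)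
    (hf : ∀ d : ι →₀ ℕ, d.degree < n → MvPowerSeries.coeff d f = 0) :
    f ∈ varIdeal 𝒪 ι ^ n := by
  have htr : truncTotal n f = 0 := by
    ext d
    by_cases hd : d.degree < n
    · rw [coeff_truncTotal _ hd, hf d hd, MvPolynomial.coeff_zero]
    · rw [coeff_truncTotal_eq_zero _ (not_lt.mp hd), MvPolynomial.coeff_zero]
  have h1 : toAdicCompletionAlgEquiv ι 𝒪 f ∈
      (MvPolynomial.idealOfVars ι 𝒪 ^ n) • (⊤ : Submodule (MvPolynomial ι 𝒪)
        (AdicCompletion (MvPolynomial.idealOfVars ι 𝒪) (MvPolynomial ι 𝒪))) := by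
    rw [AdicCompletion.pow_smul_top_eq_ker_eval (MvPolynomial.idealOfVars_fg ι 𝒪),
      LinearMap.mem_ker, AdicCompletion.eval_apply, toAdicCompletionAlgEquiv_apply,
      toAdicCompletion_apply_eq_mk_truncTotal, htr]
    rfl
  have h2 : f ∈ (MvPolynomial.idealOfVars ι 𝒪 ^ n) •
      (⊤ : Submodule (MvPolynomial ι 𝒪) (MvPowerSeries ι 𝒪)) := by
    have h3 := Submodule.mem_map_of_mem
      (f := (toAdicCompletionAlgEquiv ι 𝒪).symm.toLinearMap) h1
    rw [Submodule.map_smul''] at h3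
    simp only [AlgEquiv.toLinearMap_apply, AlgEquiv.symm_apply_apply] at h3
    exact Submodule.smul_mono le_rfl le_top h3
  exact pow_smul_top_le n h2

omit [Finite ι] in
/-- An algebra map sending the variables into `I` sends `varIdeal ^ n` into `I ^ n`. -/
theorem map_mem_pow {A : Type} [CommRing A] [Algebra 𝒪 A] (I : Ideal A)
    (φ : MvPowerSeries ι 𝒪 →ₐ[𝒪] A) (hφ : ∀ i, φ (MvPowerSeries.X i) ∈ I) (n : ℕ)
    (g : MvPowerSeries ι 𝒪) (hg : g ∈ varIdeal 𝒪 ι ^ n) : φ g ∈ I ^ n := by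
  have h1 : (varIdeal 𝒪 ι).map φ.toRingHom ≤ I := by
    rw [Ideal.map_span, Ideal.span_le]
    rintro _ ⟨_, ⟨i, rfl⟩, rfl⟩
    exact hφ i
  have h2 := Ideal.mem_map_of_mem φ.toRingHom hg
  rw [Ideal.map_pow] at h2
  exact Ideal.pow_right_mono h1 n h2

end PowSerAux

theorem mem_pow_varIdeal_iff (f : MvPowerSeries ι 𝒪) (n : ℕ) :
    f ∈ varIdeal 𝒪 ι ^ n ↔ ∀ d : ι →₀ ℕ, d.degree < n → MvPowerSeries.coeff d f = 0 :=
  ⟨fun hf d hd => PowSerAux.coeff_eq_zero_of_mem n f hf d hd,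
    PowSerAux.mem_of_coeff_eq_zero n f⟩

theorem exists_poly_sub_mem (f : MvPowerSeries ι 𝒪) (n : ℕ) :
    ∃ p : MvPolynomial ι 𝒪, f - (p : MvPowerSeries ι 𝒪) ∈ varIdeal 𝒪 ι ^ n := by
  refine ⟨truncTotal n f, ?_⟩
  rw [mem_pow_varIdeal_iff]
  intro d hd
  rw [map_sub, MvPolynomial.coeff_coe, coeff_truncTotal _ hd, sub_self]

/-- Evaluation of power series at a family of elements generating a nilpotent ideal. -/
theorem exists_evalHom {A : Type} [CommRing A] [Algebra 𝒪 A] (a : ι → A) (n : ℕ)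
    (ha : Ideal.span (Set.range a) ^ n = ⊥) :
    ∃ θ : MvPowerSeries ι 𝒪 →ₐ[𝒪] A, ∀ i, θ (MvPowerSeries.X i) = a i := by
  have hker : ∀ p ∈ MvPolynomial.idealOfVars ι 𝒪 ^ n, MvPolynomial.aeval a p = 0 := by
    intro p hp
    have h1 : (MvPolynomial.idealOfVars ι 𝒪).map
        (MvPolynomial.aeval (R := 𝒪) a).toRingHom ≤ Ideal.span (Set.range a) := by
      rw [Ideal.map_span, Ideal.span_le]
      rintro _ ⟨_, ⟨i, rfl⟩, rfl⟩
      change MvPolynomial.aeval a (MvPolynomial.X i) ∈ _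
      rw [MvPolynomial.aeval_X]
      exact Ideal.subset_span ⟨i, rfl⟩
    have h2 := Ideal.mem_map_of_mem (MvPolynomial.aeval (R := 𝒪) a).toRingHom hp
    rw [Ideal.map_pow] at h2
    have h3 := Ideal.pow_right_mono h1 n h2
    rw [ha] at h3
    simpa using h3
  refine ⟨(Ideal.Quotient.liftₐ (MvPolynomial.idealOfVars ι 𝒪 ^ n)
    (MvPolynomial.aeval (R := 𝒪) a) hker).comp
      ((truncTotalAlgHom ι 𝒪 n).restrictScalars 𝒪), fun i => ?_⟩
  rw [AlgHom.comp_apply, AlgHom.restrictScalars_apply, PowSerAux.truncTotalAlgHom_X]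
  change Ideal.Quotient.lift _ (MvPolynomial.aeval (R := 𝒪) a).toRingHom _
    (Ideal.Quotient.mk _ (MvPolynomial.X i)) = a i
  rw [Ideal.Quotient.lift_mk]
  exact MvPolynomial.aeval_X a i

/-- Algebra maps out of a power series ring into a Hausdorff ring are determined by the images of
the variables, when these lie in the ideal defining the topology. -/
theorem algHom_ext_of_isHausdorff {A : Type} [CommRing A] [Algebra 𝒪 A] (I : Ideal A)
    [IsHausdorff I A] (θ θ' : MvPowerSeries ι 𝒪 →ₐ[𝒪] A)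
    (h : ∀ i, θ (MvPowerSeries.X i) = θ' (MvPowerSeries.X i))
    (hI : ∀ i, θ (MvPowerSeries.X i) ∈ I) : θ = θ' := by
  have hcomp : θ.comp (MvPolynomial.coeToMvPowerSeries.algHom 𝒪) =
      θ'.comp (MvPolynomial.coeToMvPowerSeries.algHom 𝒪) := by
    apply MvPolynomial.algHom_ext
    intro i
    simp [MvPolynomial.coeToMvPowerSeries.algHom_apply, h i]
  have hpoly : ∀ p : MvPolynomial ι 𝒪, θ (p : MvPowerSeries ι 𝒪) = θ' p := by
    intro p
    have h1 := congrArg (fun φ : MvPolynomial ι 𝒪 →ₐ[𝒪] A => φ p) hcomp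
    simpa [MvPolynomial.coeToMvPowerSeries.algHom_apply] using h1
  ext f
  apply eq_of_sub_eq_zero
  apply IsHausdorff.haus ‹IsHausdorff I A›
  intro n
  rw [SModEq.zero, smul_eq_mul, Ideal.mul_top]
  obtain ⟨p, hp⟩ := exists_poly_sub_mem f n
  have h2 : θ f - θ' f = θ (f - p) - θ' (f - p) := by
    rw [map_sub, map_sub, hpoly]
    ring
  rw [h2]
  exact sub_mem (PowSerAux.map_mem_pow I θ hI n _ hp)
    (PowSerAux.map_mem_pow I θ' (fun i => h i ▸ hI i) n _ hp)

section Quot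

variable [IsLocalRing 𝒪] [IsNoetherianRing 𝒪] (K : Ideal (MvPowerSeries ι 𝒪))

/-- Proper quotients of the power series ring are local. -/
theorem isLocalRing_quot (hK' : K ≠ ⊤) : IsLocalRing (MvPowerSeries ι 𝒪 ⧸ K) := by
  have : Nontrivial (MvPowerSeries ι 𝒪 ⧸ K) := Ideal.Quotient.nontrivial_iff.mpr hK'
  exact IsLocalRing.of_surjective' (Ideal.Quotient.mk K) Ideal.Quotient.mk_surjective

theorem isLocalHom_algebraMap_quot [IsLocalRing (MvPowerSeries ι 𝒪 ⧸ K)] :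
    IsLocalHom (algebraMap 𝒪 (MvPowerSeries ι 𝒪 ⧸ K)) := by
  have : IsLocalHom (Ideal.Quotient.mk K) :=
    IsLocalHom.of_surjective (Ideal.Quotient.mk K) Ideal.Quotient.mk_surjective
  constructor
  intro a ha
  have h1 : algebraMap 𝒪 (MvPowerSeries ι 𝒪 ⧸ K) a =
      Ideal.Quotient.mk K (MvPowerSeries.C a) := rfl
  rw [h1] at ha
  have h2 : IsUnit (MvPowerSeries.C (σ := ι) a) := IsLocalHom.map_nonunit _ ha
  rw [MvPowerSeries.isUnit_iff_constantCoeff, MvPowerSeries.constantCoeff_C] at h2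
  exact h2

theorem residue_surjective_quot [IsLocalRing (MvPowerSeries ι 𝒪 ⧸ K)] :
    Function.Surjective (residue (MvPowerSeries ι 𝒪 ⧸ K) ∘
      algebraMap 𝒪 (MvPowerSeries ι 𝒪 ⧸ K)) := by
  have : IsLocalHom (Ideal.Quotient.mk K) :=
    IsLocalHom.of_surjective (Ideal.Quotient.mk K) Ideal.Quotient.mk_surjective
  intro x
  obtain ⟨y, rfl⟩ := IsLocalRing.residue_surjective x
  obtain ⟨f, rfl⟩ := Ideal.Quotient.mk_surjective y
  refine ⟨MvPowerSeries.constantCoeff f, ?_⟩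
  have h1 : algebraMap 𝒪 (MvPowerSeries ι 𝒪 ⧸ K) (MvPowerSeries.constantCoeff f) =
      Ideal.Quotient.mk K (MvPowerSeries.C (MvPowerSeries.constantCoeff f)) := rfl
  rw [Function.comp_apply, h1]
  symm
  rw [← sub_eq_zero, ← map_sub, ← map_sub, IsLocalRing.residue_eq_zero_iff]
  have h2 : ¬ IsUnit (f - MvPowerSeries.C (MvPowerSeries.constantCoeff f)) := by
    rw [MvPowerSeries.isUnit_iff_constantCoeff, map_sub, MvPowerSeries.constantCoeff_C, sub_self]
    exact not_isUnit_zero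
  intro h3
  exact h2 (IsLocalHom.map_nonunit _ h3)

variable (ϖ : 𝒪) (hϖ : maximalIdeal 𝒪 = Ideal.span {ϖ}) (i₀ : ι)

include hϖ in
/-- If one variable is identified with the uniformiser, the maximal ideal of the quotient is
generated by the variables. -/
theorem maximalIdeal_quot [IsLocalRing (MvPowerSeries ι 𝒪 ⧸ K)]
    (hK : MvPowerSeries.X i₀ - MvPowerSeries.C ϖ ∈ K) :
    maximalIdeal (MvPowerSeries ι 𝒪 ⧸ K) = (varIdeal 𝒪 ι).map (Ideal.Quotient.mk K) := by
  have : IsLocalHom (Ideal.Quotient.mk K) :=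
    IsLocalHom.of_surjective (Ideal.Quotient.mk K) Ideal.Quotient.mk_surjective
  apply le_antisymm
  · intro x hx
    obtain ⟨f, rfl⟩ := Ideal.Quotient.mk_surjective x
    have hf : ¬ IsUnit f := fun hu => hx (hu.map _)
    rw [MvPowerSeries.isUnit_iff_constantCoeff] at hf
    have hf' : MvPowerSeries.constantCoeff f ∈ maximalIdeal 𝒪 := hf
    rw [hϖ, Ideal.mem_span_singleton] at hf'
    obtain ⟨b, hb⟩ := hf'
    have h1 : f - MvPowerSeries.C (MvPowerSeries.constantCoeff f) ∈ varIdeal 𝒪 ι := by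
      rw [← pow_one (varIdeal 𝒪 ι), mem_pow_varIdeal_iff]
      intro d hd
      have hd0 : d = 0 := by
        rw [Nat.lt_one_iff] at hd
        exact (Finsupp.degree_eq_zero_iff d).mp hd
      subst hd0
      simp
    have h2 : Ideal.Quotient.mk K f =
        Ideal.Quotient.mk K (f - MvPowerSeries.C (MvPowerSeries.constantCoeff f)) +
          Ideal.Quotient.mk K (MvPowerSeries.X i₀ * MvPowerSeries.C b) := by
      rw [← map_add, Ideal.Quotient.eq]
      have h3 : f - (f - MvPowerSeries.C (MvPowerSeries.constantCoeff f) +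
          MvPowerSeries.X i₀ * MvPowerSeries.C b) =
          - ((MvPowerSeries.X i₀ - MvPowerSeries.C ϖ) * MvPowerSeries.C b) := by
        rw [hb, map_mul]
        ring
      rw [h3]
      exact K.neg_mem (K.mul_mem_right _ hK)
    rw [h2]
    refine Ideal.add_mem _ (Ideal.mem_map_of_mem _ h1) (Ideal.mem_map_of_mem _ ?_)
    exact Ideal.mul_mem_right _ _ (Ideal.subset_span ⟨i₀, rfl⟩)
  · rw [Ideal.map_span, Ideal.span_le]
    rintro _ ⟨_, ⟨i, rfl⟩, rfl⟩
    intro hu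
    have h1 : IsUnit (MvPowerSeries.X (R := 𝒪) i) := IsLocalHom.map_nonunit _ hu
    rw [MvPowerSeries.isUnit_iff_constantCoeff, MvPowerSeries.constantCoeff_X] at h1
    exact not_isUnit_zero h1

include hϖ in
theorem isAdicComplete_quot [IsLocalRing (MvPowerSeries ι 𝒪 ⧸ K)]
    (hK : MvPowerSeries.X i₀ - MvPowerSeries.C ϖ ∈ K) :
    IsAdicComplete (maximalIdeal (MvPowerSeries ι 𝒪 ⧸ K)) (MvPowerSeries ι 𝒪 ⧸ K) := by
  rw [maximalIdeal_quot K ϖ hϖ i₀ hK, ← Ideal.Quotient.algebraMap_eq,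
    IsAdicComplete.map_algebraMap_iff]
  exact IsAdicComplete.of_module_finite (varIdeal 𝒪 ι) (MvPowerSeries ι 𝒪 ⧸ K)

end Quot

end Fermat.Agent.S53
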