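import Fermat.Agent.S53.Defs

set_option autoImplicit false

/-!
Piece A (second half): base change and residual representations of matrix representations.
-/

namespace Fermat.Agent.S53.RepRes

open IsLocalRing TensorProduct

section Key

variable {R S : Type*} [CommRing R] [CommRing S] [Algebra R S]
variable {V : Type*} [AddCommGroup V] [Module R V]
variable {W : Type*} [AddCommGroup W] [Module S W]

/-- Image of a base-changed endomorphism on a basis vector, in terms of its matrix. -/
theorem equiv_baseChange_basis (c : Module.Basis (Fin 2) R V) (f : V →ₗ[R] V)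
    (d : Module.Basis (Fin 2) S W) (E : S ⊗[R] V ≃ₗ[S] W) (hE : ∀ i, E (1 ⊗ₜ c i) = d i)
    (j : Fin 2) :
    E (f.baseChange S (1 ⊗ₜ c j)) = ∑ i, algebraMap R S (LinearMap.toMatrix c c f i j) • d i := by
  rw [LinearMap.baseChange_tmul]
  conv_lhs => rw [← c.sum_repr (f (c j))]
  rw [TensorProduct.tmul_sum, map_sum]
  refine Finset.sum_congr rfl fun i _ => ?_
  rw [LinearMap.toMatrix_apply, TensorProduct.tmul_smul,
    ← algebraMap_smul S (c.repr (f (c j)) i) ((1 : S) ⊗ₜ[R] c i), map_smul, hE i]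

theorem equiv_baseChange_iff (c : Module.Basis (Fin 2) R V) (f : V →ₗ[R] V)
    (d : Module.Basis (Fin 2) S W) (g : W →ₗ[S] W) (E : S ⊗[R] V ≃ₗ[S] W)
    (hE : ∀ i, E (1 ⊗ₜ c i) = d i) :
    (∀ x, E (f.baseChange S x) = g (E x)) ↔
      ∀ i j, algebraMap R S (LinearMap.toMatrix c c f i j) = LinearMap.toMatrix d d g i j := by
  constructor
  · intro h i j
    have h1 := h (1 ⊗ₜ c j)
    rw [equiv_baseChange_basis c f d E hE j, hE j] at h1
    have h2 := congrArg (fun w => d.repr w i) h1
    simp only [map_sum, map_smul, Module.Basis.repr_self, Finsupp.coe_finsetSum,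
      Finsupp.coe_smul, Finset.sum_apply, Pi.smul_apply, Finsupp.single_apply, smul_eq_mul,
      mul_ite, mul_one, mul_zero, Finset.sum_ite_eq', Finset.mem_univ, if_true] at h2
    have h3 : LinearMap.toMatrix d d g i j = d.repr (g (d j)) i := LinearMap.toMatrix_apply ..
    rw [h3]
    exact h2
  · intro h x
    have hlin : (E : S ⊗[R] V →ₗ[S] W) ∘ₗ f.baseChange S = g ∘ₗ (E : S ⊗[R] V →ₗ[S] W) := by
      refine (Algebra.TensorProduct.basis S c).ext fun j => ?_
      rw [LinearMap.comp_apply, LinearMap.comp_apply, Algebra.TensorProduct.basis_apply,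
        LinearEquiv.coe_coe, equiv_baseChange_basis c f d E hE j, hE j]
      conv_rhs => rw [← d.sum_repr (g (d j))]
      refine Finset.sum_congr rfl fun i _ => ?_
      rw [h i j, LinearMap.toMatrix_apply]
    exact LinearMap.congr_fun hlin x

end Key

variable {A : Type} [CommRing A] [IsLocalRing A]

theorem toMatrix_toRep (r : Gal →* M2 A) (hr : IsCont r) (σ : Gal) :
    LinearMap.toMatrix (Pi.basisFun A (Fin 2)) (Pi.basisFun A (Fin 2)) ((toRep r hr).ρ σ) = r σ := by
  rw [LinearMap.toMatrix_eq_toMatrix']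
  exact LinearMap.toMatrix'_toLin' (r σ)

theorem baseChangeAlong_toRep_isEquiv {B : Type} [CommRing B] [IsLocalRing B] (φ : A →+* B)
    (hφ : IsLocalHom φ) (r : Gal →* M2 A) (hr : IsCont r) (hr' : IsCont (mapRep φ r)) :
    ((toRep r hr).baseChangeAlong φ hφ).IsEquiv (toRep (mapRep φ r) hr') := by
  letI : Algebra A B := φ.toAlgebra
  let c : Module.Basis (Fin 2) A (Fin 2 → A) := Pi.basisFun A (Fin 2)
  let d : Module.Basis (Fin 2) B (Fin 2 → B) := Pi.basisFun B (Fin 2)
  let E : B ⊗[A] (Fin 2 → A) ≃ₗ[B] (Fin 2 → B) :=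
    (Algebra.TensorProduct.basis B c).equiv d (Equiv.refl _)
  have hE : ∀ i, E (1 ⊗ₜ c i) = d i := fun i => by
    rw [← Algebra.TensorProduct.basis_apply, Module.Basis.equiv_apply]
    rfl
  refine ⟨⟨E, fun σ x => ?_⟩⟩
  refine (equiv_baseChange_iff c ((toRep r hr).ρ σ) d ((toRep (mapRep φ r) hr').ρ σ) E hE).mpr
    ?_ x
  intro i j
  rw [toMatrix_toRep, toMatrix_toRep]
  rfl

section Residual

variable {k : Type} [Field k] (ρbar : ResidualGaloisRep k) (b : Module.Basis (Fin 2) k ρbar.V)

theorem residual_toRep_isEquiv (φ : k →+* ResidueField A) (r : Gal →* M2 A) (hr : IsCont r)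
    (h : ∀ σ i j, residue A (r σ i j) = φ (matOfResidual ρbar b σ i j)) :
    (toRep r hr).residual.IsEquiv (ρbar.baseChangeAlong φ) := by
  letI : Algebra k (ResidueField A) := φ.toAlgebra
  let c : Module.Basis (Fin 2) A (Fin 2 → A) := Pi.basisFun A (Fin 2)
  let d : Module.Basis (Fin 2) (ResidueField A) (ResidueField A ⊗[k] ρbar.V) :=
    Algebra.TensorProduct.basis (ResidueField A) b
  let E : ResidueField A ⊗[A] (Fin 2 → A) ≃ₗ[ResidueField A] (ResidueField A ⊗[k] ρbar.V) :=
    (Algebra.TensorProduct.basis (ResidueField A) c).equiv d (Equiv.refl _)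
  have hE : ∀ i, E (1 ⊗ₜ c i) = d i := fun i => by
    rw [← Algebra.TensorProduct.basis_apply, Module.Basis.equiv_apply]
    rfl
  refine ⟨⟨E, fun σ x => ?_⟩⟩
  refine (equiv_baseChange_iff c ((toRep r hr).ρ σ) d
    ((ρbar.ρ σ).baseChange (ResidueField A)) E hE).mpr ?_ x
  intro i j
  rw [toMatrix_toRep, LinearMap.toMatrix_baseChange, Matrix.map_apply]
  exact h σ i j

omit [IsLocalRing A] in
theorem repr_mem_of_mem_smul_top {V : Type*} [AddCommGroup V] [Module A V]
    (c : Module.Basis (Fin 2) A V) (I : Ideal A) {x : V}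
    (hx : x ∈ I • (⊤ : Submodule A V)) (i : Fin 2) : c.repr x i ∈ I := by
  refine Submodule.smul_induction_on hx (fun a ha m _ => ?_) (fun x y hx hy => ?_)
  · rw [map_smul, Finsupp.smul_apply, smul_eq_mul]
    exact I.mul_mem_right _ ha
  · rw [map_add, Finsupp.add_apply]
    exact I.add_mem hx hy

theorem exists_toRep_of_residual_isEquiv (φ : k →+* ResidueField A) (ρ : GaloisRepAdic A)
    (h : ρ.residual.IsEquiv (ρbar.baseChangeAlong φ)) :
    ∃ (r : Gal →* M2 A) (hr : IsCont r), ρ.IsEquiv (toRep r hr) ∧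
      ∀ σ i j, residue A (r σ i j) = φ (matOfResidual ρbar b σ i j) := by
  letI : Algebra k (ResidueField A) := φ.toAlgebra
  obtain ⟨e⟩ := h
  let E : ResidueField A ⊗[A] ρ.V ≃ₗ[ResidueField A] ResidueField A ⊗[k] ρbar.V :=
    e.toLinearEquiv
  let d : Module.Basis (Fin 2) (ResidueField A) (ResidueField A ⊗[k] ρbar.V) :=
    Algebra.TensorProduct.basis (ResidueField A) b
  let bκ : Module.Basis (Fin 2) (ResidueField A) (ResidueField A ⊗[A] ρ.V) := d.map E.symm
  have hsurj : Function.Surjective (TensorProduct.mk A (ResidueField A) ρ.V 1) :=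
    TensorProduct.mk_surjective A ρ.V (ResidueField A) IsLocalRing.residue_surjective
  choose v hv using fun i => hsurj (bκ i)
  have hli : LinearIndependent A v := by
    refine Module.IsLocalRing.linearIndependent_of_flat v ?_
    have hfun : (TensorProduct.mk A (ResidueField A) ρ.V 1 ∘ v) = bκ := funext hv
    rw [hfun]
    exact bκ.linearIndependent
  have hsp : Submodule.span A (Set.range v) = ⊤ :=
    IsLocalRing.span_eq_top_of_tmul_eq_basis v bκ hv
  let c : Module.Basis (Fin 2) A ρ.V := Module.Basis.mk hli hsp.ge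
  have hc : ∀ i, c i = v i := fun i => Module.Basis.mk_apply hli hsp.ge i
  have hEc : ∀ i, E (1 ⊗ₜ c i) = d i := fun i => by
    rw [hc]
    have h1 : (1 : ResidueField A) ⊗ₜ[A] v i = bκ i := hv i
    rw [h1, Module.Basis.map_apply, LinearEquiv.apply_symm_apply]
  let r : Gal →* M2 A := (LinearMap.toMatrixAlgEquiv c : Module.End A ρ.V →* M2 A).comp ρ.ρ
  have hrσ : ∀ σ, r σ = LinearMap.toMatrix c c (ρ.ρ σ) := fun σ => rfl
  have hr : IsCont r := by
    intro n
    obtain ⟨L, hL, hcont⟩ := ρ.isAdicContinuous n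
    refine ⟨L, hL, fun σ hσ i j => ?_⟩
    have h1 : (r σ - 1) i j = c.repr (ρ.ρ σ (c j) - c j) i := by
      rw [Matrix.sub_apply, hrσ, LinearMap.toMatrix_apply, map_sub, Finsupp.sub_apply,
        Module.Basis.repr_self, Matrix.one_apply, Finsupp.single_apply]
      simp only [eq_comm]
    rw [h1]
    exact repr_mem_of_mem_smul_top c _ (hcont σ hσ (c j)) i
  refine ⟨r, hr, ⟨⟨c.equivFun, fun σ x => ?_⟩⟩, fun σ i j => ?_⟩
  · show c.equivFun (ρ.ρ σ x) = (r σ).mulVec (c.equivFun x)
    rw [hrσ]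
    exact (LinearMap.toMatrix_mulVec_repr c c (ρ.ρ σ) x).symm
  · have h2 := (equiv_baseChange_iff c (ρ.ρ σ) d ((ρbar.ρ σ).baseChange (ResidueField A)) E
      hEc).mp (fun x => e.map_apply σ x) i j
    rw [LinearMap.toMatrix_baseChange, Matrix.map_apply] at h2
    exact h2

end Residual

end Fermat.Agent.S53.RepRes
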