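import Fermat.Agent.S53.Defs
import Fermat.Agent.S53.RepRes

set_option autoImplicit false

/-!
Piece A: interface between matrix representations and the Prelude structures
`GaloisRepAdic`, `ResidualGaloisRep`.
-/

namespace Fermat.Agent.S53

open IsLocalRing

variable {A : Type} [CommRing A] [IsLocalRing A]

namespace RepAux

omit [IsLocalRing A] in
theorem toRep_rho_apply' (r : Gal →* M2 A) (σ : Gal) (v : Fin 2 → A) :
    ((Matrix.toLinAlgEquiv' (R := A) (n := Fin 2) : M2 A →* Module.End A (Fin 2 → A)).comp r σ) v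
      = (r σ).mulVec v := by
  simp

theorem toRep_rho_apply (r : Gal →* M2 A) (hr : IsCont r) (σ : Gal) (v : Fin 2 → A) :
    (toRep r hr).ρ σ v = (r σ).mulVec v := by
  show ((Matrix.toLinAlgEquiv' (R := A) (n := Fin 2) : M2 A →* Module.End A (Fin 2 → A)).comp r σ) v
      = (r σ).mulVec v
  simp

theorem map_pow_maximalIdeal_le {B : Type} [CommRing B] [IsLocalRing B] (φ : A →+* B)
    (hφ : IsLocalHom φ) (n : ℕ) {a : A} (ha : a ∈ maximalIdeal A ^ n) :
    φ a ∈ maximalIdeal B ^ n := by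
  have hmap : (maximalIdeal A ^ n).map φ ≤ maximalIdeal B ^ n := by
    rw [Ideal.map_pow]
    exact Ideal.pow_right_mono (Ideal.map_le_iff_le_comap.mpr fun a ha =>
      Ideal.mem_comap.mpr (haveI := hφ; map_nonunit φ a ha)) n
  exact hmap (Ideal.mem_map_of_mem φ ha)

omit [IsLocalRing A] in
theorem repr_mem_of_mem_smul_top {V : Type} [AddCommGroup V] [Module A V]
    (b : Module.Basis (Fin 2) A V) (I : Ideal A) {x : V}
    (hx : x ∈ I • (⊤ : Submodule A V)) (i : Fin 2) : b.repr x i ∈ I := by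
  refine Submodule.smul_induction_on (p := fun x => b.repr x i ∈ I) hx ?_ ?_
  · intro a ha w _
    rw [map_smul, Finsupp.smul_apply, smul_eq_mul]
    exact Ideal.mul_mem_right _ _ ha
  · intro x y hx hy
    rw [map_add, Finsupp.add_apply]
    exact Ideal.add_mem _ hx hy

/-- The matrices of an adic representation in a basis. -/
noncomputable def matOf (ρ : GaloisRepAdic A) (b : Module.Basis (Fin 2) A ρ.V) : Gal →* M2 A :=
  (LinearMap.toMatrixAlgEquiv b : Module.End A ρ.V →* M2 A).comp ρ.ρ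

theorem matOf_apply (ρ : GaloisRepAdic A) (b : Module.Basis (Fin 2) A ρ.V) (σ : Gal)
    (i j : Fin 2) : matOf ρ b σ i j = b.repr (ρ.ρ σ (b j)) i := by
  show LinearMap.toMatrixAlgEquiv b (ρ.ρ σ) i j = _
  rw [LinearMap.toMatrixAlgEquiv_apply]

theorem isCont_matOf (ρ : GaloisRepAdic A) (b : Module.Basis (Fin 2) A ρ.V) :
    IsCont (matOf ρ b) := by
  intro n
  obtain ⟨L, hL, h⟩ := ρ.isAdicContinuous n
  refine ⟨L, hL, fun σ hσ i j => ?_⟩
  have h1 : (matOf ρ b σ - 1) i j = b.repr (ρ.ρ σ (b j) - b j) i := by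
    rw [Matrix.sub_apply, matOf_apply, map_sub, Finsupp.sub_apply, Module.Basis.repr_self,
      Matrix.one_apply, Finsupp.single_apply]
    congr 1
    by_cases hij : i = j
    · subst hij; simp
    · rw [if_neg hij, if_neg (Ne.symm hij)]
  rw [h1]
  exact repr_mem_of_mem_smul_top b _ (h σ hσ (b j)) i

theorem isEquiv_matOf (ρ : GaloisRepAdic A) (b : Module.Basis (Fin 2) A ρ.V)
    (hc : IsCont (matOf ρ b)) : ρ.IsEquiv (toRep (matOf ρ b) hc) := by
  have key : ∀ (σ : Gal) (x : ρ.V),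
      b.equivFun (ρ.ρ σ x) = (matOf ρ b σ).mulVec (b.equivFun x) := by
    intro σ x
    have := LinearMap.toMatrix_mulVec_repr b b (ρ.ρ σ) x
    funext i
    have h2 := congrFun this i
    simpa [matOf, LinearMap.toMatrixAlgEquiv, Module.Basis.equivFun_apply] using h2.symm
  exact ⟨⟨b.equivFun, fun σ x => key σ x⟩⟩

open scoped TensorProduct in
omit [IsLocalRing A] in
theorem piScalarRight_baseChange {B : Type} [CommRing B] [Algebra A B] (M : M2 A)
    (z : B ⊗[A] (Fin 2 → A)) :
    TensorProduct.piScalarRight A B B (Fin 2) ((Matrix.toLin' M).baseChange B z) =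
      (M.map (algebraMap A B)).mulVec (TensorProduct.piScalarRight A B B (Fin 2) z) := by
  induction z using TensorProduct.induction_on with
  | zero => simp
  | tmul b v =>
    rw [LinearMap.baseChange_tmul, TensorProduct.piScalarRight_apply,
      TensorProduct.piScalarRightHom_tmul, TensorProduct.piScalarRight_apply,
      TensorProduct.piScalarRightHom_tmul]
    funext j
    simp only [Matrix.toLin'_apply, Matrix.mulVec, dotProduct, Matrix.map_apply,
      Algebra.smul_def, map_sum, map_mul, Finset.sum_mul]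
    refine Finset.sum_congr rfl fun l _ => ?_
    ring
  | add x y hx hy => rw [map_add, map_add, hx, hy, map_add, Matrix.mulVec_add]

end RepAux

open RepAux

theorem IsCont.map {B : Type} [CommRing B] [IsLocalRing B] (φ : A →+* B) (hφ : IsLocalHom φ)
    {r : Gal →* M2 A} (hr : IsCont r) : IsCont (mapRep φ r) := by
  intro n
  obtain ⟨L, hL, h⟩ := hr n
  refine ⟨L, hL, fun σ hσ i j => ?_⟩
  have h1 : (mapRep φ r σ - 1) i j = φ ((r σ - 1) i j) := by
    simp only [Matrix.sub_apply, mapRep_apply, map_sub]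
    congr 1
    by_cases hij : i = j
    · subst hij; simp
    · simp [Matrix.one_apply_ne hij]
  rw [h1]
  exact map_pow_maximalIdeal_le φ hφ n (h σ hσ i j)

/-- Conjugate continuous representations are continuous. -/
theorem IsCont.conj {r r' : Gal →* M2 A} (hr : IsCont r) (P P' : M2 A) (h1 : P * P' = 1)
    (h : ∀ σ, P * r σ = r' σ * P) : IsCont r' := by
  intro n
  obtain ⟨L, hL, hh⟩ := hr n
  refine ⟨L, hL, fun σ hσ i j => ?_⟩
  have h2 : r' σ - 1 = P * (r σ - 1) * P' := by
    rw [mul_sub, sub_mul, mul_one, h1, h σ, mul_assoc, h1, mul_one]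
  rw [h2]
  simp only [Matrix.mul_apply]
  refine Ideal.sum_mem _ fun l _ => Ideal.mul_mem_right _ _ ?_
  exact Ideal.sum_mem _ fun m _ => Ideal.mul_mem_left _ _ (hh σ hσ m l)

theorem toRep_isEquiv_of_conj {r r' : Gal →* M2 A} (hr : IsCont r) (hr' : IsCont r')
    (P P' : M2 A) (h1 : P * P' = 1) (h2 : P' * P = 1) (h : ∀ σ, P * r σ = r' σ * P) :
    (toRep r hr).IsEquiv (toRep r' hr') := by
  have e1 : (Matrix.toLin' P) ∘ₗ (Matrix.toLin' P') = LinearMap.id := by
    rw [← Matrix.toLin'_mul, h1, Matrix.toLin'_one]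
  have e2 : (Matrix.toLin' P') ∘ₗ (Matrix.toLin' P) = LinearMap.id := by
    rw [← Matrix.toLin'_mul, h2, Matrix.toLin'_one]
  let e : (Fin 2 → A) ≃ₗ[A] (Fin 2 → A) :=
    LinearEquiv.ofLinearMap (Matrix.toLin' P) (Matrix.toLin' P') e1 e2
  have key : ∀ (σ : Gal) (x : Fin 2 → A),
      P.mulVec ((r σ).mulVec x) = (r' σ).mulVec (P.mulVec x) := by
    intro σ x
    rw [Matrix.mulVec_mulVec, Matrix.mulVec_mulVec, h σ]
  exact ⟨⟨e, fun σ x => key σ x⟩⟩

theorem conj_of_toRep_isEquiv {r r' : Gal →* M2 A} (hr : IsCont r) (hr' : IsCont r')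
    (h : (toRep r hr).IsEquiv (toRep r' hr')) :
    ∃ P P' : M2 A, P * P' = 1 ∧ P' * P = 1 ∧ ∀ σ, P * r σ = r' σ * P := by
  obtain ⟨e⟩ := h
  let f : (Fin 2 → A) ≃ₗ[A] (Fin 2 → A) := e.toLinearEquiv
  refine ⟨LinearMap.toMatrix' f.toLinearMap, LinearMap.toMatrix' f.symm.toLinearMap, ?_, ?_, ?_⟩
  · rw [← LinearMap.toMatrix'_comp, LinearEquiv.comp_symm, LinearMap.toMatrix'_id]
  · rw [← LinearMap.toMatrix'_comp, LinearEquiv.symm_comp, LinearMap.toMatrix'_id]
  · intro σ
    have hm : ∀ x : Fin 2 → A, f ((r σ).mulVec x) = (r' σ).mulVec (f x) := e.map_apply σ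
    apply Matrix.toLin'.injective
    apply LinearMap.ext
    intro x
    rw [Matrix.toLin'_mul, Matrix.toLin'_mul, Matrix.toLin'_toMatrix']
    simpa [Matrix.toLin'_apply] using hm x

theorem exists_toRep_isEquiv (ρ : GaloisRepAdic A) :
    ∃ (r : Gal →* M2 A) (hr : IsCont r), ρ.IsEquiv (toRep r hr) :=
  let b := Module.finBasisOfFinrankEq A ρ.V ρ.finrank_eq
  ⟨matOf ρ b, isCont_matOf ρ b, isEquiv_matOf ρ b _⟩

theorem baseChangeAlong_toRep_isEquiv {B : Type} [CommRing B] [IsLocalRing B] (φ : A →+* B)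
    (hφ : IsLocalHom φ) (r : Gal →* M2 A) (hr : IsCont r) (hr' : IsCont (mapRep φ r)) :
    ((toRep r hr).baseChangeAlong φ hφ).IsEquiv (toRep (mapRep φ r) hr') := by
  let _ : Algebra A B := φ.toAlgebra
  have key : ∀ (σ : Gal) (z : TensorProduct A B (Fin 2 → A)),
      TensorProduct.piScalarRight A B B (Fin 2) ((Matrix.toLin' (r σ)).baseChange B z) =
        (mapRep φ r σ).mulVec (TensorProduct.piScalarRight A B B (Fin 2) z) :=
    fun σ z => piScalarRight_baseChange (r σ) z
  exact ⟨⟨TensorProduct.piScalarRight A B B (Fin 2), fun σ z => key σ z⟩⟩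

section Residual

variable {k : Type} [Field k] (ρbar : ResidualGaloisRep k) (b : Module.Basis (Fin 2) k ρbar.V)

theorem isCont_matOfResidual : IsCont (matOfResidual ρbar b) := by
  intro n
  obtain ⟨L, hL, h⟩ := ρbar.factorsThroughFiniteLevel
  refine ⟨L, hL, fun σ hσ i j => ?_⟩
  have h1 : matOfResidual ρbar b σ = 1 := by
    show LinearMap.toMatrixAlgEquiv b (ρbar.ρ σ) = 1
    rw [h σ hσ, map_one]
  rw [h1, sub_self]
  exact Ideal.zero_mem _

theorem ofResidual_isEquiv_toRep (hc : IsCont (matOfResidual ρbar b)) :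
    (GaloisRepAdic.ofResidualGaloisRep ρbar).IsEquiv (toRep (matOfResidual ρbar b) hc) :=
  isEquiv_matOf (GaloisRepAdic.ofResidualGaloisRep ρbar) b hc

theorem residual_toRep_isEquiv (φ : k →+* ResidueField A) (r : Gal →* M2 A) (hr : IsCont r)
    (h : ∀ σ i j, residue A (r σ i j) = φ (matOfResidual ρbar b σ i j)) :
    (toRep r hr).residual.IsEquiv (ρbar.baseChangeAlong φ) :=
  RepRes.residual_toRep_isEquiv ρbar b φ r hr h

theorem exists_toRep_of_residual_isEquiv (φ : k →+* ResidueField A) (ρ : GaloisRepAdic A)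
    (h : ρ.residual.IsEquiv (ρbar.baseChangeAlong φ)) :
    ∃ (r : Gal →* M2 A) (hr : IsCont r), ρ.IsEquiv (toRep r hr) ∧
      ∀ σ i j, residue A (r σ i j) = φ (matOfResidual ρbar b σ i j) :=
  RepRes.exists_toRep_of_residual_isEquiv ρbar b φ ρ h

end Residual

end Fermat.Agent.S53
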