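import Fermat.Agent.S53.Defs

set_option autoImplicit false

/-!
Piece D: generalities on Artinian test algebras.
-/

namespace Fermat.Agent.S53

namespace TestAlgAux

open IsLocalRing

variable {𝒪 : Type} [CommRing 𝒪] [IsLocalRing 𝒪]

variable {B : Type} [CommRing B] [Algebra 𝒪 B] (χ : B →ₐ[𝒪] ResidueField 𝒪)

/-- Every element differs from a scalar by an element of the kernel of `χ`. -/
theorem exists_sub_mem_ker (b : B) : ∃ c : 𝒪, χ b = residue 𝒪 c ∧ χ (b - algebraMap 𝒪 B c) = 0 := by
  obtain ⟨c, hc⟩ := IsLocalRing.residue_surjective (χ b)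
  refine ⟨c, hc.symm, ?_⟩
  rw [map_sub, AlgHom.commutes, ← hc]
  exact sub_self _

/-- Elements outside the kernel of `χ` are units. -/
theorem isUnit_of_char_ne_zero (hnil : ∀ b, χ b = 0 → IsNilpotent b) (b : B) (hb : χ b ≠ 0) :
    IsUnit b := by
  obtain ⟨c, hc, hc0⟩ := exists_sub_mem_ker χ b
  have hcu : IsUnit c := by
    by_contra hcn
    apply hb
    rw [hc]
    exact (IsLocalRing.residue_eq_zero_iff c).mpr hcn
  have h1 : IsNilpotent (b - algebraMap 𝒪 B c) := hnil _ hc0
  have h2 : IsUnit (algebraMap 𝒪 B c) := hcu.map _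
  have h3 : b = algebraMap 𝒪 B c + (b - algebraMap 𝒪 B c) := by ring
  rw [h3]
  exact IsNilpotent.isUnit_add_left_of_commute h1 h2 (Commute.all _ _)

include χ in
theorem nontrivial_of_char : Nontrivial B := by
  refine ⟨⟨1, 0, fun h => ?_⟩⟩
  have h1 : χ 1 = χ 0 := by rw [h]
  rw [map_one, map_zero] at h1
  exact one_ne_zero h1

end TestAlgAux

open IsLocalRing GaloisRep

variable {𝒪 : Type} [CommRing 𝒪] [IsLocalRing 𝒪]

section Char

variable {B : Type} [CommRing B] [Algebra 𝒪 B] (χ : B →ₐ[𝒪] ResidueField 𝒪)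

/-- A commutative `𝒪`-algebra with an algebra map to the residue field whose kernel consists of
nilpotent elements is local. -/
theorem isLocalRing_of_char (hnil : ∀ b, χ b = 0 → IsNilpotent b) : IsLocalRing B := by
  have : Nontrivial B := TestAlgAux.nontrivial_of_char χ
  refine IsLocalRing.of_isUnit_or_isUnit_one_sub_self fun a => ?_
  by_cases ha : χ a = 0
  · right
    apply TestAlgAux.isUnit_of_char_ne_zero χ hnil
    rw [map_sub, map_one, ha, sub_zero]
    exact one_ne_zero
  · left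
    exact TestAlgAux.isUnit_of_char_ne_zero χ hnil a ha

theorem mem_maximalIdeal_iff_of_char [IsLocalRing B] (hnil : ∀ b, χ b = 0 → IsNilpotent b)
    (b : B) : b ∈ maximalIdeal B ↔ χ b = 0 := by
  rw [IsLocalRing.mem_maximalIdeal, mem_nonunits_iff]
  constructor
  · intro hb
    by_contra h
    exact hb (TestAlgAux.isUnit_of_char_ne_zero χ hnil b h)
  · intro hb hu
    exact (hnil b hb).not_isUnit hu

theorem isLocalHom_of_char [IsLocalRing B] (hnil : ∀ b, χ b = 0 → IsNilpotent b) :
    IsLocalHom (algebraMap 𝒪 B) := by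
  refine ⟨fun c hc => ?_⟩
  by_contra hcn
  have h1 : χ (algebraMap 𝒪 B c) = 0 := by
    rw [AlgHom.commutes]
    exact (IsLocalRing.residue_eq_zero_iff c).mpr hcn
  exact (hnil _ h1).not_isUnit hc

theorem residue_surjective_of_char [IsLocalRing B] (hnil : ∀ b, χ b = 0 → IsNilpotent b) :
    Function.Surjective (residue B ∘ algebraMap 𝒪 B) := by
  intro x
  obtain ⟨b, rfl⟩ := IsLocalRing.residue_surjective x
  obtain ⟨c, -, hc0⟩ := TestAlgAux.exists_sub_mem_ker χ b
  refine ⟨c, ?_⟩
  have h1 : b - algebraMap 𝒪 B c ∈ maximalIdeal B :=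
    (mem_maximalIdeal_iff_of_char χ hnil _).mpr hc0
  have h2 : residue B (b - algebraMap 𝒪 B c) = 0 := (IsLocalRing.residue_eq_zero_iff _).mpr h1
  rw [map_sub, sub_eq_zero] at h2
  exact h2.symm

theorem isArtinianTestAlgebra_of_char [IsLocalRing B] [Finite B]
    (hnil : ∀ b, χ b = 0 → IsNilpotent b) : IsArtinianTestAlgebra 𝒪 B where
  isLocalHom := isLocalHom_of_char χ hnil
  residue_surjective := residue_surjective_of_char χ hnil
  isArtinian := inferInstance

end Char

section Fin

variable {A : Type} [CommRing A] [IsLocalRing A] [Algebra 𝒪 A]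

/-- Artinian test algebras over a ring with finite residue field are finite. -/
theorem finite_of_isArtinianTestAlgebra [Finite (ResidueField 𝒪)]
    (hA : IsArtinianTestAlgebra 𝒪 A) : Finite A := by
  have := hA.isArtinian
  have := hA.isLocalHom
  have hsurj : Function.Surjective (IsLocalRing.ResidueField.map (algebraMap 𝒪 A)) := by
    intro x
    obtain ⟨a, ha⟩ := hA.residue_surjective x
    exact ⟨IsLocalRing.residue 𝒪 a, by rw [IsLocalRing.ResidueField.map_residue]; exact ha⟩
  have : Finite (ResidueField A) := Finite.of_surjective _ hsurj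
  have hfg : (maximalIdeal A).FG := (isNoetherianRing_iff_ideal_fg A).mp inferInstance _
  have : Finite (A ⧸ maximalIdeal A) := ‹Finite (ResidueField A)›
  obtain ⟨n, hn⟩ := IsArtinianRing.isNilpotent_jacobson_bot (R := A)
  rw [IsLocalRing.jacobson_eq_maximalIdeal ⊥ bot_ne_top] at hn
  have h1 : Finite (A ⧸ (maximalIdeal A) ^ n) := Ideal.finite_quotient_pow hfg n
  rw [hn] at h1
  exact Finite.of_equiv _ (RingEquiv.quotientBot A).toEquiv

theorem exists_maximalIdeal_pow_eq_bot [IsArtinianRing A] : ∃ n : ℕ, maximalIdeal A ^ n = ⊥ := by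
  obtain ⟨n, hn⟩ := IsArtinianRing.isNilpotent_jacobson_bot (R := A)
  rw [IsLocalRing.jacobson_eq_maximalIdeal ⊥ bot_ne_top] at hn
  exact ⟨n, hn⟩

/-- In an Artinian local ring the maximal ideal is nilpotent (elementwise form). -/
theorem isNilpotent_of_mem_maximalIdeal [IsArtinianRing A] {a : A} (ha : a ∈ maximalIdeal A) :
    IsNilpotent a := by
  obtain ⟨n, hn⟩ := exists_maximalIdeal_pow_eq_bot (A := A)
  refine ⟨n, ?_⟩
  have h1 : a ^ n ∈ maximalIdeal A ^ n := Ideal.pow_mem_pow ha n
  rw [hn] at h1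
  exact h1

/-- The quotients of a Noetherian local test ring by powers of the maximal ideal are Artinian
test algebras. -/
theorem isArtinianTestAlgebra_quotient_pow [IsNoetherianRing A] [IsLocalHom (algebraMap 𝒪 A)]
    (hsurj : Function.Surjective (residue A ∘ algebraMap 𝒪 A)) (n : ℕ)
    [IsLocalRing (A ⧸ maximalIdeal A ^ (n + 1))] :
    IsArtinianTestAlgebra 𝒪 (A ⧸ maximalIdeal A ^ (n + 1)) := by
  have hmk : Function.Surjective (Ideal.Quotient.mk (maximalIdeal A ^ (n + 1))) :=
    Ideal.Quotient.mk_surjective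
  have hlocmk : IsLocalHom (Ideal.Quotient.mk (maximalIdeal A ^ (n + 1))) :=
    IsLocalHom.of_surjective _ hmk
  have hmax : maximalIdeal (A ⧸ maximalIdeal A ^ (n + 1)) =
      (maximalIdeal A).map (Ideal.Quotient.mk (maximalIdeal A ^ (n + 1))) := by
    ext x
    obtain ⟨a, rfl⟩ := hmk x
    rw [IsLocalRing.mem_maximalIdeal, mem_nonunits_iff, isUnit_map_iff,
      Ideal.mem_map_iff_of_surjective _ hmk]
    constructor
    · intro ha
      exact ⟨a, ha, rfl⟩
    · rintro ⟨b, hb, hab⟩ hu
      have h2 : IsUnit (Ideal.Quotient.mk (maximalIdeal A ^ (n + 1)) b) := by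
        rw [hab]; exact hu.map _
      exact hb ((isUnit_map_iff _ _).mp h2)
  refine ⟨?_, ?_, ?_⟩
  · -- local homomorphism
    refine ⟨fun c hc => ?_⟩
    have h1 : algebraMap 𝒪 (A ⧸ maximalIdeal A ^ (n + 1)) c =
        Ideal.Quotient.mk (maximalIdeal A ^ (n + 1)) (algebraMap 𝒪 A c) := rfl
    rw [h1] at hc
    exact (isUnit_map_iff (algebraMap 𝒪 A) c).mp ((isUnit_map_iff _ _).mp hc)
  · -- residue surjective
    intro x
    obtain ⟨y, rfl⟩ := IsLocalRing.residue_surjective x
    obtain ⟨a, rfl⟩ := hmk y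
    obtain ⟨c, hc⟩ := hsurj (residue A a)
    refine ⟨c, ?_⟩
    have h1 : algebraMap 𝒪 (A ⧸ maximalIdeal A ^ (n + 1)) c =
        Ideal.Quotient.mk (maximalIdeal A ^ (n + 1)) (algebraMap 𝒪 A c) := rfl
    have h2 : algebraMap 𝒪 A c - a ∈ maximalIdeal A := by
      rw [← IsLocalRing.residue_eq_zero_iff, map_sub, sub_eq_zero]
      exact hc
    show residue _ (algebraMap 𝒪 (A ⧸ maximalIdeal A ^ (n + 1)) c) = _
    rw [h1, ← sub_eq_zero, ← map_sub, ← map_sub, IsLocalRing.residue_eq_zero_iff, hmax]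
    exact Ideal.mem_map_of_mem _ h2
  · -- Artinian
    have : IsNoetherianRing (A ⧸ maximalIdeal A ^ (n + 1)) := inferInstance
    rw [isArtinianRing_iff_isNilpotent_maximalIdeal]
    refine ⟨n + 1, ?_⟩
    rw [hmax, ← Ideal.map_pow, Ideal.zero_eq_bot, Ideal.map_quotient_self]

end Fin

end Fermat.Agent.S53
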